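import Mathlib
import Fermat.Prelude.Def_ModularCurve_PeriodMap
import Fermat.Prelude.Sol.S_ModularForm_heckeT_slash_eq_self_of_mem_Gamma0
import Fermat.Agent.MUL.S48.W.Interfaces
import Fermat.Agent.MUL.S48.W.A.DictInterface

section MergeWrap_S48_W_A_Interfaces -- from S48/W/A/Interfaces.lean

set_option autoImplicit false

noncomputable section

namespace Fermat.Agent.S48WA

open ModularCurve AlgebraicCurve CongruenceSubgroup Matrix.SpecialLinearGroup ModularCurve.Period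
open Fermat.Agent.S48W
open scoped TensorProduct MatrixGroups ModularForm
open P2MW.S_ModularForm_heckeT_slash_eq_self_of_mem_Gamma0.ModularForm.HeckeSlashInvariance

/-! ### the objects -/

/-- The function field of `X₁(M)` over `ℂ` (model of `S48/W/Defs.lean` inside `ℂ((q))`). -/
abbrev FC1 (M : ℕ) [NeZero M] : IntermediateField ℂ (LaurentSeries ℂ) :=
  laurentBaseChange ℂ (FOne M)

/-- The lattice `L = Hom_par(Γ₁(M), ℤ)`. -/
abbrev HomParOne (M : ℕ) : Type := parabolicHoms ℤ (Gamma1 M) ℤ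

/-! ### diamond matrices -/

/-- `γ ∈ Γ₀(M)` with upper left entry `≡ d mod M`. -/
def IsDiamondMat (M : ℕ) (d : (ZMod M)ˣ) (γ : SL(2, ℤ)) : Prop :=
  γ ∈ Gamma0 M ∧ ((γ 0 0 : ℤ) : ZMod M) = (d : ZMod M)

theorem exists_isDiamondMat (M : ℕ) [NeZero M] (d : (ZMod M)ˣ) :
    ∃ γ : SL(2, ℤ), IsDiamondMat M d γ := by
  have hcop : Nat.Coprime (d : ZMod M).val M := ZMod.val_coe_unit_coprime d
  obtain ⟨u, v, huv⟩ := (Nat.isCoprime_iff_coprime.mpr hcop)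
  have hdet : (!![((d : ZMod M).val : ℤ), -v; (M : ℤ), u]).det = 1 := by
    rw [Matrix.det_fin_two_of]
    linear_combination huv
  let γ : SL(2, ℤ) := ⟨!![((d : ZMod M).val : ℤ), -v; (M : ℤ), u], hdet⟩
  have h10 : γ 1 0 = (M : ℤ) := rfl
  have h00 : γ 0 0 = ((d : ZMod M).val : ℤ) := rfl
  refine ⟨γ, ?_, ?_⟩
  · rw [Gamma0_mem, h10]
    simp
  · rw [h00]
    simp

/-- a chosen diamond matrix of `d`. -/
def diamondMat (M : ℕ) [NeZero M] (d : (ZMod M)ˣ) : SL(2, ℤ) :=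
  (exists_isDiamondMat M d).choose

theorem diamondMat_spec (M : ℕ) [NeZero M] (d : (ZMod M)ˣ) : IsDiamondMat M d (diamondMat M d) :=
  (exists_isDiamondMat M d).choose_spec

/-! ### the representatives of `T_p` at level `Γ₁(M)` -/

/-- `β_∞ = [p 0; 0 1]`, `β_b = γ_p [1 b; 0 p]` (`γ_p` the chosen diamond matrix of `p`). -/
def heckeRepOne (M : ℕ) [NeZero M] (p : ℕ) (hpM : Nat.Coprime p M) (t : OnePoint (ZMod p)) :
    GL (Fin 2) ℝ :=
  t.elim (heckeRep p (OnePoint.infty))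
    (fun j => mapGL ℝ (diamondMat M (ZMod.unitOfCoprime p hpM)) * heckeRep p (j : OnePoint (ZMod p)))

/-! ### the operators on the lattice -/

/-- `T` is the Hecke operator `T_p` on `L` (coset transfer along `heckeRepOne`). -/
def IsHeckeHomOne (M : ℕ) [NeZero M] (p : Nat.Primes) (hpM : Nat.Coprime (p : ℕ) M)
    (T : HomParOne M →ₗ[ℤ] HomParOne M) : Prop :=
  haveI : Fact (p : ℕ).Prime := ⟨p.2⟩
  ∀ (c : HomParOne M) (g : Gamma1 M) (gt : OnePoint (ZMod (p : ℕ)) → Gamma1 M)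
    (π : Equiv.Perm (OnePoint (ZMod (p : ℕ)))),
    (∀ t, heckeRepOne M p hpM t * mapGL ℝ (g : SL(2, ℤ))
        = mapGL ℝ ((gt t : Gamma1 M) : SL(2, ℤ)) * heckeRepOne M p hpM (π t)) →
      ((T c : HomParOne M) : Additive (Gamma1 M) →+ ℤ) (Additive.ofMul g)
        = ∑ t, (c : Additive (Gamma1 M) →+ ℤ) (Additive.ofMul (gt t))

open Classical in
/-- **`T_p` on `L`** (`0` if `p ∣ M`; seat LAT proves that the operator exists for `p ∤ M`). -/
def heckeHomOne (M : ℕ) [NeZero M] (p : Nat.Primes) : HomParOne M →ₗ[ℤ] HomParOne M :=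
  if h : ∃ (hpM : Nat.Coprime (p : ℕ) M) (T : HomParOne M →ₗ[ℤ] HomParOne M),
      IsHeckeHomOne M p hpM T then h.choose_spec.choose else 0

/-- `D` is the diamond operator `δ_d` on `L`: `(δ_d c)(g) = c(γ g γ⁻¹)`. -/
def IsDiamondHomOne (M : ℕ) [NeZero M] (d : (ZMod M)ˣ)
    (D : HomParOne M →ₗ[ℤ] HomParOne M) : Prop :=
  ∀ (c : HomParOne M) (γ : SL(2, ℤ)), IsDiamondMat M d γ → ∀ g g' : Gamma1 M,
    γ * (g : SL(2, ℤ)) = (g' : SL(2, ℤ)) * γ →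
      ((D c : HomParOne M) : Additive (Gamma1 M) →+ ℤ) (Additive.ofMul g)
        = (c : Additive (Gamma1 M) →+ ℤ) (Additive.ofMul g')

open Classical in
/-- **`δ_d` on `L`** (seat LAT proves that the operator exists). -/
def diamondHomOne (M : ℕ) [NeZero M] (d : (ZMod M)ˣ) : HomParOne M →ₗ[ℤ] HomParOne M :=
  if h : ∃ D : HomParOne M →ₗ[ℤ] HomParOne M, IsDiamondHomOne M d D then h.choose else 0

/-- (LAT) the operators exist, and `L` is a lattice. -/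
def LatticeOne (M : ℕ) [NeZero M] : Prop :=
  (∀ (p : Nat.Primes) (hpM : Nat.Coprime (p : ℕ) M),
      ∃ T : HomParOne M →ₗ[ℤ] HomParOne M, IsHeckeHomOne M p hpM T) ∧
    (∀ d : (ZMod M)ˣ, ∃ D : HomParOne M →ₗ[ℤ] HomParOne M, IsDiamondHomOne M d D) ∧
    Module.Free ℤ (HomParOne M) ∧ Module.Finite ℤ (HomParOne M)

theorem isHeckeHomOne_heckeHomOne {M : ℕ} [NeZero M] (h : LatticeOne M) (p : Nat.Primes)
    (hpM : Nat.Coprime (p : ℕ) M) : IsHeckeHomOne M p hpM (heckeHomOne M p) := by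
  have hex : ∃ (hpM : Nat.Coprime (p : ℕ) M) (T : HomParOne M →ₗ[ℤ] HomParOne M),
      IsHeckeHomOne M p hpM T := ⟨hpM, h.1 p hpM⟩
  rw [heckeHomOne, dif_pos hex]
  exact hex.choose_spec.choose_spec

theorem isDiamondHomOne_diamondHomOne {M : ℕ} [NeZero M] (h : LatticeOne M) (d : (ZMod M)ˣ) :
    IsDiamondHomOne M d (diamondHomOne M d) := by
  rw [diamondHomOne, dif_pos (h.2.1 d)]
  exact (h.2.1 d).choose_spec

/-! ### (A3 + A4) the family `κ` -/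

/-- **(K1) at level `Γ₁(M)`**: `κ_n : L → J₁(M)(ℚ̄)[n]` for all `n`, kernel in `n L`,
`d • κ_{dn} = κ_n`, equivariant for `T_p` (`p ∤ M`) and the diamonds. -/
def KappaOneAll (M : ℕ) [NeZero M] : Prop :=
  ∃ κ : (n : ℕ) → HomParOne M →ₗ[ℤ] JtorsOne M n,
    (∀ n : ℕ, 0 < n → ∀ c : HomParOne M, κ n c = 0 → ∃ c' : HomParOne M, c = (n : ℤ) • c') ∧
    (∀ (n d : ℕ) (c : HomParOne M), 0 < n → 0 < d →
      (d : ℤ) • ((κ (d * n) c : JtorsOne M (d * n)) : JOne M) = (κ n c : JOne M)) ∧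
    (∀ (n : ℕ) (p : Nat.Primes), Nat.Coprime (p : ℕ) M → ∀ c : HomParOne M,
      κ n (heckeHomOne M p c) = heckeTorsOne M n p (κ n c)) ∧
    (∀ (n : ℕ) (d : (ZMod M)ˣ) (c : HomParOne M),
      κ n (diamondHomOne M d c) = diamondTorsOne M n d (κ n c))

/-- the mod `ℓ` member of the family. -/
def KappaOne (M : ℕ) [NeZero M] : Prop :=
  ∀ ℓ : ℕ, ℓ.Prime → ∃ κ : HomParOne M →ₗ[ℤ] JtorsOne M ℓ,
    (∀ c : HomParOne M, κ c = 0 → ∃ c' : HomParOne M, c = ℓ • c') ∧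
    (∀ p : Nat.Primes, Nat.Coprime (p : ℕ) M → ∀ c : HomParOne M,
      κ (heckeHomOne M p c) = heckeTorsOne M ℓ p (κ c)) ∧
    (∀ (d : (ZMod M)ˣ) (c : HomParOne M),
      κ (diamondHomOne M d c) = diamondTorsOne M ℓ d (κ c))

theorem kappaOne_of_all {M : ℕ} [NeZero M] (h : KappaOneAll M) : KappaOne M := by
  obtain ⟨κ, hker, -, hT, hD⟩ := h
  intro ℓ hℓ
  refine ⟨κ ℓ, fun c hc => ?_, fun p hp c => hT ℓ p hp c, fun d c => hD ℓ d c⟩
  obtain ⟨c', hc'⟩ := hker ℓ hℓ.pos c hc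
  exact ⟨c', by rw [hc', natCast_zsmul]⟩

/-! ### (A5) periods and the reduction lemma -/

/-- **(A5)** the ADJOINT system of a mod-`φ` eigenvector occurs in `k ⊗ L`: a nonzero class `y` with
`T_p y = t_p φ(χ(p))⁻¹ y` (`p ∤ M ℓ`) and `δ_d y = φ(χ(d))⁻¹ y`.
(On forms: `∑_t g ∣ β_t = χ(p)⁻¹ T_p^{classical} g` and `g ∣ γ_d = χ(d)⁻¹ g` on the `χ`-eigenspace.) -/
def PeriodEigenOne (M : ℕ) [NeZero M] : Prop :=
  ∀ (ℓ : ℕ), ℓ.Prime → ∀ (k : Type) [Field k] [CharP k ℓ] (φ : integralClosure ℤ ℂ →+* k)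
    (e : ModEigen M k φ),
    ∃ y : k ⊗[ℤ] HomParOne M, y ≠ 0 ∧
      (∀ (p : Nat.Primes) (hpM : Nat.Coprime (p : ℕ) M), (p : ℕ) ≠ ℓ →
        (heckeHomOne M p).baseChange k y
          = (e.t p * φ ((e.χ (ZMod.unitOfCoprime p hpM))⁻¹ : (integralClosure ℤ ℂ)ˣ)) • y) ∧
      ∀ d : (ZMod M)ˣ, (diamondHomOne M d).baseChange k y
          = φ ((e.χ d)⁻¹ : (integralClosure ℤ ℂ)ˣ) • y

end Fermat.Agent.S48WA
end
end MergeWrap_S48_W_A_Interfaces
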