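import Mathlib
import Fermat.Agent.MUL.S48.W.A.Interfaces
import Fermat.Agent.MUL.S48.W.A.DictInterface
import Fermat.Agent.MUL.Orig.F4.Shapiro.R2

section MergeWrap_S48_W_A_InterfacesC -- from S48/W/A/InterfacesC.lean

set_option autoImplicit false

noncomputable section

namespace Fermat.Agent.S48WA

open ModularCurve AlgebraicCurve CongruenceSubgroup Fermat.Agent.S48W
open Fermat.Agent.S48WA2 (IsDiamondC)
open scoped TensorProduct MatrixGroups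

local notation "Kb" => AlgebraicClosure ℚ

/-- the inputs of `T_p` over `ℂ`. -/
def HeckeInputsOneC (M p : ℕ) [NeZero M] [NeZero p] : Prop :=
  QSeriesInputs ℂ (FOne_le_FOneP M p) p (fun _ hy => qExpand_mem_FOneP M p hy)

/-- **`T_p` on `Pic⁰ (FC1 M)`** (norm correspondence, as `heckeOne`). -/
def heckeOneC (M : ℕ) [NeZero M] (p : Nat.Primes) : Pic0 ℂ (FC1 M) →+ Pic0 ℂ (FC1 M) :=
  haveI : NeZero (p : ℕ) := ⟨p.2.ne_zero⟩
  qSeriesHecke ℂ (FOne_le_FOneP M p) p (fun _ hy => qExpand_mem_FOneP M p hy)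

/-- (H2) the diamond automorphisms exist, over `ℚ̄` and over `ℂ`. -/
def DiamondExistsOne (M : ℕ) [NeZero M] : Prop :=
  ∀ d : (ZMod M)ˣ, (∃ σ : FOneBar M ≃ₐ[Kb] FOneBar M, IsDiamond M d σ) ∧
    ∃ σ : FC1 M ≃ₐ[ℂ] FC1 M, IsDiamondC M d σ

/-- **(A3) `κ` over `ℂ`**: `κ_n : L → Pic⁰ (FC1 M)[n]`, kernel in `n L`, `d • κ_{dn} = κ_n`,
equivariant for `T_p` (`p ∤ M`) and for the diamonds. -/
def KappaCOne (M : ℕ) [NeZero M] : Prop :=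
  ∃ κ : (n : ℕ) → HomParOne M →+ Pic0 ℂ (FC1 M),
    (∀ n : ℕ, 0 < n → ∀ c : HomParOne M, n • κ n c = 0) ∧
    (∀ n : ℕ, 0 < n → ∀ c : HomParOne M, κ n c = 0 → ∃ c' : HomParOne M, c = (n : ℤ) • c') ∧
    (∀ (n d : ℕ) (c : HomParOne M), 0 < n → 0 < d → d • κ (d * n) c = κ n c) ∧
    (∀ (n : ℕ), 0 < n → ∀ p : Nat.Primes, Nat.Coprime (p : ℕ) M → ∀ c : HomParOne M,
      κ n (heckeHomOne M p c) = heckeOneC M p (κ n c)) ∧
    (∀ (n : ℕ), 0 < n → ∀ (d : (ZMod M)ˣ) (σ : FC1 M ≃ₐ[ℂ] FC1 M), IsDiamondC M d σ →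
      ∀ c : HomParOne M, κ n (diamondHomOne M d c) = σ • κ n c)

/-- **(A4) the descent**: a base change `J₁(M)(ℚ̄) → Pic⁰ (FC1 M)`, injective, onto the torsion,
commuting with `T_p` (`p ∤ M`) and with the diamonds. -/
def DescentOne (M : ℕ) [NeZero M] : Prop :=
  ∃ bc : JOne M →+ Pic0 ℂ (FC1 M), Function.Injective bc ∧
    (∀ n : ℕ, 0 < n → ∀ x' : Pic0 ℂ (FC1 M), n • x' = 0 → ∃ x : JOne M, bc x = x') ∧
    (∀ p : Nat.Primes, Nat.Coprime (p : ℕ) M → ∀ y : JOne M,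
      bc (heckeOne M p y) = heckeOneC M p (bc y)) ∧
    (∀ (d : (ZMod M)ˣ) (σ : FOneBar M ≃ₐ[Kb] FOneBar M) (σ' : FC1 M ≃ₐ[ℂ] FC1 M),
      IsDiamond M d σ → IsDiamondC M d σ' → ∀ y : JOne M, bc (σ • y) = σ' • bc y)

end Fermat.Agent.S48WA
end
end MergeWrap_S48_W_A_InterfacesC
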