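import Mathlib
import Fermat.Agent.MUL.S48.W.A.Interfaces
import Fermat.Agent.MUL.S48.W.A5.Lattice
import Fermat.Agent.MUL.S48.W.R.AsmAt

section MergeWrap_S48_W_A_LatticeCoset -- from S48/W/A/LatticeCoset.lean

set_option autoImplicit false

noncomputable section

namespace Fermat.Agent.S48WA

open ModularCurve CongruenceSubgroup Matrix.SpecialLinearGroup ModularCurve.Period
open scoped MatrixGroups
open P2MW.S_ModularForm_heckeT_slash_eq_self_of_mem_Gamma0.ModularForm.HeckeSlashInvariance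
open Fermat.Agent.F3EC (redMatrix_mul redMatrix_one)

/-! ### the cosets of the `heckeRep p x` are distinct -/

section Distinct

variable {p : ℕ} [Fact p.Prime]

/-- the upper left entry of `heckeRep p x`. -/
def latUL (p : ℕ) (x : OnePoint (ZMod p)) : ℕ := x.elim p (fun _ => 1)

/-- the upper right entry of `heckeRep p x`. -/
def latUR (p : ℕ) (x : OnePoint (ZMod p)) : ℕ := x.elim 0 (fun j => j.val)

/-- the lower right entry of `heckeRep p x`. -/
def latLR (p : ℕ) (x : OnePoint (ZMod p)) : ℕ := x.elim 1 (fun _ => p)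

theorem lat_val_heckeRep (x : OnePoint (ZMod p)) :
    ((heckeRep p x : GL (Fin 2) ℝ) : Matrix (Fin 2) (Fin 2) ℝ)
      = !![(latUL p x : ℝ), (latUR p x : ℝ); 0, (latLR p x : ℝ)] := by
  have hp : p ≠ 0 := (Fact.out : p.Prime).ne_zero
  induction x using OnePoint.rec with
  | infty =>
    show ((ModularForm.heckeDiagMatrix p : GL (Fin 2) ℝ) : Matrix (Fin 2) (Fin 2) ℝ) = _
    rw [ModularForm.val_heckeDiagMatrix hp]
    simp [latUL, latUR, latLR]
  | coe j =>
    show ((ModularForm.heckeMatrix p j.val : GL (Fin 2) ℝ) : Matrix (Fin 2) (Fin 2) ℝ) = _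
    rw [ModularForm.val_heckeMatrix hp]
    simp [latUL, latUR, latLR]

/-- the integral equations behind `heckeRep p x = h · heckeRep p y`. -/
theorem lat_entries_of_coset {h : SL(2, ℤ)} {x y : OnePoint (ZMod p)}
    (H : heckeRep p x = mapGL ℝ h * heckeRep p y) :
    (latUL p x : ℤ) = h 0 0 * (latUL p y : ℤ) ∧
      (latUR p x : ℤ) = h 0 0 * (latUR p y : ℤ) + h 0 1 * (latLR p y : ℤ) ∧
      (0 : ℤ) = h 1 0 * (latUL p y : ℤ) ∧
      (latLR p x : ℤ) = h 1 0 * (latUR p y : ℤ) + h 1 1 * (latLR p y : ℤ) := by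
  have H' := congrArg (fun A : GL (Fin 2) ℝ => (A : Matrix (Fin 2) (Fin 2) ℝ)) H
  simp only [Units.val_mul] at H'
  rw [lat_val_heckeRep, lat_val_heckeRep] at H'
  have e5 : ∀ (i j : Fin 2),
      ((mapGL ℝ h : GL (Fin 2) ℝ) : Matrix (Fin 2) (Fin 2) ℝ) i j = ((h i j : ℤ) : ℝ) :=
    fun i j => mapGL_apply h i j
  have h00 := congrFun (congrFun H' 0) 0
  have h01 := congrFun (congrFun H' 0) 1
  have h10 := congrFun (congrFun H' 1) 0
  have h11 := congrFun (congrFun H' 1) 1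
  simp only [Matrix.mul_apply, Fin.sum_univ_two, e5, Matrix.of_apply, Matrix.cons_val_zero,
    Matrix.cons_val_one, Matrix.cons_val', Matrix.cons_val_fin_one] at h00 h01 h10 h11
  refine ⟨?_, ?_, ?_, ?_⟩
  · have : ((latUL p x : ℕ) : ℝ) = ((h 0 0 : ℤ) : ℝ) * ((latUL p y : ℕ) : ℝ) := by
      rw [h00]; ring
    exact_mod_cast this
  · have : ((latUR p x : ℕ) : ℝ)
        = ((h 0 0 : ℤ) : ℝ) * ((latUR p y : ℕ) : ℝ) + ((h 0 1 : ℤ) : ℝ) * ((latLR p y : ℕ) : ℝ) := by
      rw [h01]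
    exact_mod_cast this
  · have : (0 : ℝ) = ((h 1 0 : ℤ) : ℝ) * ((latUL p y : ℕ) : ℝ) := by
      rw [h10]; ring
    exact_mod_cast this
  · have : ((latLR p x : ℕ) : ℝ)
        = ((h 1 0 : ℤ) : ℝ) * ((latUR p y : ℕ) : ℝ) + ((h 1 1 : ℤ) : ℝ) * ((latLR p y : ℕ) : ℝ) := by
      rw [h11]
    exact_mod_cast this

theorem latUL_pos (x : OnePoint (ZMod p)) : 0 < latUL p x := by
  induction x using OnePoint.rec with
  | infty => exact (Fact.out : p.Prime).pos
  | coe j => exact Nat.one_pos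

/-- the cosets `SL₂(ℤ) · heckeRep p x` are pairwise distinct. -/
theorem heckeRep_eq_of_coset {h : SL(2, ℤ)} {x y : OnePoint (ZMod p)}
    (H : heckeRep p x = mapGL ℝ h * heckeRep p y) : x = y := by
  have hp : p.Prime := Fact.out
  obtain ⟨e00, e01, e10, e11⟩ := lat_entries_of_coset H
  have hdet := det_eq h
  have hy0 : (latUL p y : ℤ) ≠ 0 := by exact_mod_cast (latUL_pos y).ne'
  have h10 : h 1 0 = 0 := by
    rcases mul_eq_zero.mp e10.symm with h0 | h0
    · exact h0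
    · exact absurd h0 hy0
  rw [h10, mul_zero, sub_zero] at hdet
  rw [h10, zero_mul, zero_add] at e11
  -- `h 0 0 = h 1 1 = 1`
  have h00pos : 0 < h 0 0 := by
    have hx : (0 : ℤ) < (latUL p x : ℤ) := by exact_mod_cast latUL_pos x
    have hy : (0 : ℤ) < (latUL p y : ℤ) := by exact_mod_cast latUL_pos y
    by_contra hneg
    have h1 := mul_nonpos_of_nonpos_of_nonneg (not_lt.mp hneg) hy.le
    rw [← e00] at h1
    exact absurd hx (not_lt.mpr h1)
  have h00 : h 0 0 = 1 := by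
    rcases Int.eq_one_or_neg_one_of_mul_eq_one hdet with h1 | h1
    · exact h1
    · omega
  have h11 : h 1 1 = 1 := by
    rw [h00, one_mul] at hdet
    exact hdet
  rw [h00, one_mul] at e00 e01
  rw [h11, one_mul] at e11
  induction x using OnePoint.rec with
  | infty =>
    induction y using OnePoint.rec with
    | infty => rfl
    | coe j =>
      exfalso
      have : (p : ℤ) = 1 := by simpa [latUL] using e00
      have : p = 1 := by exact_mod_cast this
      exact hp.one_lt.ne' this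
  | coe i =>
    induction y using OnePoint.rec with
    | infty =>
      exfalso
      have : (1 : ℤ) = p := by simpa [latUL] using e00
      have : p = 1 := by exact_mod_cast this.symm
      exact hp.one_lt.ne' this
    | coe j =>
      have e : ((i.val : ℕ) : ℤ) = (j.val : ℤ) + h 0 1 * (p : ℤ) := by
        simpa [latUR, latLR] using e01
      have : NeZero p := ⟨hp.ne_zero⟩
      have hij : i = j := by
        have h1 := congrArg (Int.cast : ℤ → ZMod p) e
        push_cast at h1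
        simpa using h1
      rw [hij]

end Distinct

/-! ### diamond matrices and `Gamma0Map` -/

section Twist

variable {M : ℕ} [NeZero M] {p : ℕ} [Fact p.Prime]

omit [NeZero M] [Fact p.Prime] in
/-- a diamond matrix of `d` (upper left entry `≡ d`) has lower right entry `≡ d⁻¹`. -/
theorem gamma0Map_of_isDiamondMat {d : (ZMod M)ˣ} {γ : SL(2, ℤ)} (h : IsDiamondMat M d γ) :
    Gamma0Map M ⟨γ, h.1⟩ = ((d⁻¹ : (ZMod M)ˣ) : ZMod M) := by
  have hdet := congrArg (Int.cast : ℤ → ZMod M) (det_eq γ)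
  push_cast at hdet
  have h10 : ((γ 1 0 : ℤ) : ZMod M) = 0 := Gamma0_mem.mp h.1
  rw [h.2, h10, mul_zero, sub_zero] at hdet
  exact (Units.inv_eq_of_mul_eq_one_right hdet).symm

/-- the element `w_t ∈ Γ₀(M)` with `β_t = w_t · α'_t` (`β` the representatives of block A, `α'`
those of `A5/Coset.lean`): `w_∞ = σ_p⁻¹`, `w_b = γ_p`. -/
def latTwist (hpM : Nat.Coprime p M) (t : OnePoint (ZMod p)) : Gamma0 M :=
  t.elim (S48WA5.diaRep M (ZMod.unitOfCoprime p hpM))⁻¹
    (fun _ => ⟨diamondMat M (ZMod.unitOfCoprime p hpM), (diamondMat_spec M _).1⟩)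

omit [Fact p.Prime] in
theorem gamma0Map_latTwist (hpM : Nat.Coprime p M) (t : OnePoint (ZMod p)) :
    Gamma0Map M (latTwist hpM t) = (((ZMod.unitOfCoprime p hpM)⁻¹ : (ZMod M)ˣ) : ZMod M) := by
  induction t using OnePoint.rec with
  | infty =>
    show Gamma0Map M (S48WA5.diaRep M (ZMod.unitOfCoprime p hpM))⁻¹ = _
    have h1 := S48WA5.Gamma0Map_mul_inv (S48WA5.diaRep M (ZMod.unitOfCoprime p hpM))
    rw [S48WA5.diaRep_spec] at h1
    exact (Units.inv_eq_of_mul_eq_one_right h1).symm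
  | coe j => exact gamma0Map_of_isDiamondMat (diamondMat_spec M _)

omit [Fact p.Prime] in
theorem heckeRepOne_eq_latTwist (hpM : Nat.Coprime p M) (t : OnePoint (ZMod p)) :
    heckeRepOne M p hpM t
      = mapGL ℝ ((latTwist hpM t : Gamma0 M) : SL(2, ℤ)) * S48WA5.heckeRepOne M hpM t := by
  induction t using OnePoint.rec with
  | infty =>
    show heckeRep p OnePoint.infty
      = mapGL ℝ (((S48WA5.diaRep M (ZMod.unitOfCoprime p hpM))⁻¹ : Gamma0 M) : SL(2, ℤ))
        * (mapGL ℝ ((S48WA5.diaRep M (ZMod.unitOfCoprime p hpM) : Gamma0 M) : SL(2, ℤ))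
          * heckeRep p OnePoint.infty)
    rw [← mul_assoc, ← map_mul, Subgroup.coe_inv, inv_mul_cancel, map_one, one_mul]
  | coe j => rfl

omit [Fact p.Prime] in
/-- block A's representatives are `SL₂(ℤ)`-multiples of the `heckeRep p t`. -/
theorem heckeRepOne_eq_sl (hpM : Nat.Coprime p M) (t : OnePoint (ZMod p)) :
    ∃ s : SL(2, ℤ), heckeRepOne M p hpM t = mapGL ℝ s * heckeRep p t := by
  induction t using OnePoint.rec with
  | infty => exact ⟨1, by rw [map_one, one_mul]; rfl⟩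
  | coe j => exact ⟨diamondMat M (ZMod.unitOfCoprime p hpM), rfl⟩

/-- the cosets `SL₂(ℤ) · β_t` are pairwise distinct. -/
theorem heckeRepOne_eq_of_coset (hpM : Nat.Coprime p M) {h : SL(2, ℤ)} {x y : OnePoint (ZMod p)}
    (H : heckeRepOne M p hpM x = mapGL ℝ h * heckeRepOne M p hpM y) : x = y := by
  obtain ⟨s, hs⟩ := heckeRepOne_eq_sl hpM x
  obtain ⟨s', hs'⟩ := heckeRepOne_eq_sl hpM y
  rw [hs, hs'] at H
  apply heckeRep_eq_of_coset (h := s⁻¹ * h * s')
  have H2 : heckeRep p x = (mapGL ℝ s)⁻¹ * (mapGL ℝ h * (mapGL ℝ s' * heckeRep p y)) :=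
    eq_inv_mul_of_mul_eq H
  rw [map_mul, map_mul, map_inv]
  rw [H2]
  group

/-! ### the coset elements -/

theorem exists_heckeCosetOne (hpM : Nat.Coprime p M) (γ : Gamma1 M) (x : OnePoint (ZMod p)) :
    ∃ γ' : Gamma1 M,
      ((γ' : Gamma1 M) : SL(2, ℤ)) = ((latTwist hpM x : Gamma0 M) : SL(2, ℤ))
        * ((S48WA5.cosetOne hpM γ x : Gamma1 M) : SL(2, ℤ))
        * ((latTwist hpM (redMatrix p (γ : SL(2, ℤ)) • x) : Gamma0 M) : SL(2, ℤ))⁻¹ ∧
      heckeRepOne M p hpM x * mapGL ℝ (γ : SL(2, ℤ)) =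
        mapGL ℝ (γ' : SL(2, ℤ)) * heckeRepOne M p hpM (redMatrix p (γ : SL(2, ℤ)) • x) := by
  obtain ⟨x', hx'⟩ : ∃ x' : OnePoint (ZMod p), x' = redMatrix p (γ : SL(2, ℤ)) • x := ⟨_, rfl⟩
  rw [← hx']
  set c₀ : Gamma0 M := ⟨(S48WA5.cosetOne hpM γ x : Gamma1 M), Gamma1_in_Gamma0 M
    (S48WA5.cosetOne hpM γ x).2⟩ with hc₀
  have hc₀1 : Gamma0Map M c₀ = 1 :=
    (S48WA5.mem_Gamma1_iff_Gamma0Map c₀).mp (S48WA5.cosetOne hpM γ x).2
  have hmem : ((latTwist hpM x * c₀ * (latTwist hpM x')⁻¹ : Gamma0 M) : SL(2, ℤ)) ∈ Gamma1 M := by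
    rw [S48WA5.mem_Gamma1_iff_Gamma0Map, map_mul, map_mul, hc₀1, mul_one, gamma0Map_latTwist]
    have h1 := S48WA5.Gamma0Map_mul_inv (latTwist hpM x')
    rw [gamma0Map_latTwist] at h1
    exact h1
  refine ⟨⟨_, hmem⟩, rfl, ?_⟩
  rw [heckeRepOne_eq_latTwist hpM x, heckeRepOne_eq_latTwist hpM x', mul_assoc,
    S48WA5.cosetOne_spec hpM γ x, ← hx']
  simp only [Subgroup.coe_mul, Subgroup.coe_inv, map_mul, map_inv]
  show _ = mapGL ℝ ((latTwist hpM x : Gamma0 M) : SL(2, ℤ))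
      * mapGL ℝ ((S48WA5.cosetOne hpM γ x : Gamma1 M) : SL(2, ℤ))
      * (mapGL ℝ ((latTwist hpM x' : Gamma0 M) : SL(2, ℤ)))⁻¹
      * (mapGL ℝ ((latTwist hpM x' : Gamma0 M) : SL(2, ℤ)) * S48WA5.heckeRepOne M hpM x')
  group

/-- The element `γ_x ∈ Γ₁(M)` with `β_x γ = γ_x β_{γ̄ x}`. -/
def heckeCosetOne (hpM : Nat.Coprime p M) (γ : Gamma1 M) (x : OnePoint (ZMod p)) : Gamma1 M :=
  (exists_heckeCosetOne hpM γ x).choose

theorem coe_heckeCosetOne (hpM : Nat.Coprime p M) (γ : Gamma1 M) (x : OnePoint (ZMod p)) :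
    ((heckeCosetOne hpM γ x : Gamma1 M) : SL(2, ℤ)) = ((latTwist hpM x : Gamma0 M) : SL(2, ℤ))
        * ((S48WA5.cosetOne hpM γ x : Gamma1 M) : SL(2, ℤ))
        * ((latTwist hpM (redMatrix p (γ : SL(2, ℤ)) • x) : Gamma0 M) : SL(2, ℤ))⁻¹ :=
  (exists_heckeCosetOne hpM γ x).choose_spec.1

theorem heckeCosetOne_spec (hpM : Nat.Coprime p M) (γ : Gamma1 M) (x : OnePoint (ZMod p)) :
    heckeRepOne M p hpM x * mapGL ℝ (γ : SL(2, ℤ)) =
      mapGL ℝ ((heckeCosetOne hpM γ x : Gamma1 M) : SL(2, ℤ)) *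
        heckeRepOne M p hpM (redMatrix p (γ : SL(2, ℤ)) • x) :=
  (exists_heckeCosetOne hpM γ x).choose_spec.2

theorem heckeCosetOne_unique (hpM : Nat.Coprime p M) (γ γ' : Gamma1 M) (x : OnePoint (ZMod p))
    (h : heckeRepOne M p hpM x * mapGL ℝ (γ : SL(2, ℤ)) =
      mapGL ℝ (γ' : SL(2, ℤ)) * heckeRepOne M p hpM (redMatrix p (γ : SL(2, ℤ)) • x)) :
    γ' = heckeCosetOne hpM γ x := by
  have h2 := heckeCosetOne_spec hpM γ x
  rw [h] at h2
  have h3 := mul_right_cancel h2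
  exact Subtype.ext (mapGL_injective h3)

/-- the target index and the coset element are determined by the relation. -/
theorem heckeCosetOne_unique' (hpM : Nat.Coprime p M) (γ : Gamma1 M) (γ' : SL(2, ℤ))
    (x y : OnePoint (ZMod p))
    (h : heckeRepOne M p hpM x * mapGL ℝ (γ : SL(2, ℤ)) = mapGL ℝ γ' * heckeRepOne M p hpM y) :
    y = redMatrix p (γ : SL(2, ℤ)) • x ∧ γ' = ((heckeCosetOne hpM γ x : Gamma1 M) : SL(2, ℤ)) := by
  have h2 := heckeCosetOne_spec hpM γ x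
  rw [h] at h2
  have hy : y = redMatrix p (γ : SL(2, ℤ)) • x := by
    apply heckeRepOne_eq_of_coset hpM
      (h := γ'⁻¹ * ((heckeCosetOne hpM γ x : Gamma1 M) : SL(2, ℤ)))
    rw [map_mul, map_inv, mul_assoc, ← h2, inv_mul_cancel_left]
  refine ⟨hy, ?_⟩
  rw [hy] at h2
  exact mapGL_injective (mul_right_cancel h2)

theorem heckeCosetOne_mul (hpM : Nat.Coprime p M) (γ δ : Gamma1 M) (x : OnePoint (ZMod p)) :
    heckeCosetOne hpM (γ * δ) x =
      heckeCosetOne hpM γ x * heckeCosetOne hpM δ (redMatrix p (γ : SL(2, ℤ)) • x) := by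
  symm
  apply heckeCosetOne_unique
  have h1 := heckeCosetOne_spec hpM γ x
  have h2 := heckeCosetOne_spec hpM δ (redMatrix p (γ : SL(2, ℤ)) • x)
  rw [Subgroup.coe_mul, map_mul, ← mul_assoc, h1, mul_assoc, h2, Subgroup.coe_mul, map_mul,
    redMatrix_mul, mul_smul, mul_assoc]

theorem heckeCosetOne_one (hpM : Nat.Coprime p M) (x : OnePoint (ZMod p)) :
    heckeCosetOne hpM (1 : Gamma1 M) x = 1 := by
  symm
  apply heckeCosetOne_unique
  simp [redMatrix_one]

end Twist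

end Fermat.Agent.S48WA
end
end MergeWrap_S48_W_A_LatticeCoset
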