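import Mathlib
import Fermat.Agent.MUL.S48.W.A.InterfacesC
import Fermat.Agent.MUL.S48.W.A.Dict.Seats
import Fermat.Agent.MUL.S48.W.H.Inputs
import Fermat.Agent.MUL.S48.W.H.Diamond
import Fermat.Agent.MUL.Lib.RR.OfSep
import Fermat.Agent.MUL.Orig.F4.Glob.Compl.Basic

section MergeWrap_S48_W_A_Inputs -- from S48/W/A/Inputs.lean

set_option autoImplicit false
set_option linter.unusedSectionVars false
set_option linter.style.haveILetI false

noncomputable section

namespace Fermat.Agent.S48WA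

open ModularCurve AlgebraicCurve CongruenceSubgroup IntermediateField
open Fermat.Agent.S48W Fermat.Agent.S24Diff
open Fermat.Agent.S48WA2 (IsDiamondC jBar1)

local notation "Kb" => AlgebraicClosure ℚ

/-! ### (1) the inputs of `T_p` over `ℂ` -/

/-- `j` as an element of `FC1P M p = ℂ F(Γ₁(M) ∩ Γ₀(p))`. -/
def jBar1P (M p : ℕ) [NeZero M] [NeZero p] : laurentBaseChange ℂ (FOneP M p) :=
  ⟨coeffEmb ℂ jq, coeffEmb_mem_laurentBaseChange ℂ (FOne_le_FOneP M p (jq_mem_FOne M))⟩

/-- generic form (any transcendental generators). -/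
theorem heckeInputsOneC_of' (M p : ℕ) [NeZero M] [NeZero p] {x : FC1 M}
    (h : IsFunctionFieldOver ℂ (FC1 M) x) {x' : laurentBaseChange ℂ (FOneP M p)}
    (h' : IsFunctionFieldOver ℂ (laurentBaseChange ℂ (FOneP M p)) x') :
    HeckeInputsOneC M p :=
  qSeriesInputs_of_isFunctionFieldOver ℂ (FOne_le_FOneP M p) p
    (fun _ hy => qExpand_mem_FOneP M p hy) h h'

/-- **(A-INP 1)** the inputs of `T_p` over `ℂ`. -/
theorem heckeInputsOneC_of (M p : ℕ) [NeZero M] [NeZero p] :
    IsFunctionFieldOver ℂ (FC1 M) (jBar1 M) →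
    IsFunctionFieldOver ℂ (laurentBaseChange ℂ (FOneP M p)) (jBar1P M p) →
    HeckeInputsOneC M p := fun h h' => heckeInputsOneC_of' M p h h'

/-! ### (2) Riemann-Roch -/

/-- **(A-INP 2)** the Riemann-Roch library applies to `FC1 M`. -/
theorem isRRField_FC1 (M : ℕ) [NeZero M] :
    IsFunctionFieldOver ℂ (FC1 M) (jBar1 M) → Fermat.Agent.RR.IsRRField ℂ (FC1 M) := fun h =>
  Fermat.Agent.RR.isRRField_of_charZero h

/-- **(A-INP 2)** the Riemann-Roch library applies to `FOneBar M`. -/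
theorem isRRField_FOneBar (M : ℕ) [NeZero M] :
    FunctionFieldOne M → Fermat.Agent.RR.IsRRField Kb (FOneBar M) := fun h =>
  Fermat.Agent.RR.isRRField_of_charZero h

/-! ### (4) the diamond automorphisms over `ℂ` -/

variable {M : ℕ} [NeZero M]

/-- the relations between the generators over `ℂ` are preserved by the permutation. -/
theorem diamEvC_ker_le (hM : DiamondComplexOne M) (d : (ZMod M)ˣ)
    (P : MvPolynomial (DiamIdx M) ℂ) (hP : diamEv M ℂ id P = 0) :
    diamEv M ℂ (diamPerm M d) P = 0 := by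
  obtain ⟨φ, h₁, h₂⟩ := hM d
  have h3 := diamEv_complex h₁ h₂ P
  rw [hP, map_zero] at h3
  apply Subtype.ext
  rw [coe_diamEv]
  exact h3.symm

/-- the diamond endomorphism of the algebra over `ℂ`. -/
def diamAlgHomC (hM : DiamondComplexOne M) (d : (ZMod M)ˣ) : diamAlg M ℂ →ₐ[ℂ] diamAlg M ℂ :=
  AlgHom.liftOfSurjective (diamEv M ℂ id) (diamEv_id_surjective M ℂ)
    (diamEv M ℂ (diamPerm M d)) (fun P hP => by
      rw [RingHom.mem_ker] at hP ⊢
      exact diamEvC_ker_le hM d P hP)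

theorem diamAlgHomC_gen (hM : DiamondComplexOne M) (d : (ZMod M)ˣ) (i : DiamIdx M) :
    diamAlgHomC hM d ⟨diamGenL M ℂ i, diamGenL_mem M ℂ i⟩
      = ⟨diamGenL M ℂ (diamPerm M d i), diamGenL_mem M ℂ _⟩ := by
  have h := AlgHom.liftOfSurjective_apply (diamEv M ℂ id) (diamEv_id_surjective M ℂ)
    (diamEv M ℂ (diamPerm M d)) (fun P hP => by
      rw [RingHom.mem_ker] at hP ⊢
      exact diamEvC_ker_le hM d P hP) (MvPolynomial.X i)
  rw [diamEv_X, diamEv_X] at h
  exact h

theorem diamAlgHomC_comp_inv (hM : DiamondComplexOne M) (d : (ZMod M)ˣ) :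
    (diamAlgHomC hM d).comp (diamAlgHomC hM d⁻¹) = AlgHom.id ℂ (diamAlg M ℂ) := by
  rw [← AlgHom.cancel_right (diamEv_id_surjective M ℂ)]
  apply MvPolynomial.algHom_ext
  intro i
  rw [AlgHom.comp_apply, AlgHom.comp_apply, AlgHom.comp_apply, AlgHom.id_apply, diamEv_X]
  simp only [id]
  rw [diamAlgHomC_gen, diamAlgHomC_gen]
  apply Subtype.ext
  show diamGenL M ℂ (diamPerm M d (diamPerm M d⁻¹ i)) = diamGenL M ℂ i
  rw [diamPerm_inv_apply]

/-- the diamond automorphism of the algebra over `ℂ`. -/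
def diamAlgEquivC (hM : DiamondComplexOne M) (d : (ZMod M)ˣ) : diamAlg M ℂ ≃ₐ[ℂ] diamAlg M ℂ :=
  AlgEquiv.ofAlgHom (diamAlgHomC hM d) (diamAlgHomC hM d⁻¹) (diamAlgHomC_comp_inv hM d)
    (by simpa using diamAlgHomC_comp_inv hM d⁻¹)

variable (M) in
theorem coeffEmb_mem_diamFieldC {x : LaurentSeries ℚ} (hx : x ∈ FOne M) :
    coeffEmb ℂ x ∈ IntermediateField.adjoin ℂ (⇑(coeffEmb ℂ) '' genOne M) := by
  have hx' : x ∈ IntermediateField.adjoin ℚ (genOne M) := hx
  induction hx' using IntermediateField.adjoin_induction with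
  | mem y hy => exact IntermediateField.subset_adjoin ℂ _ ⟨y, hy, rfl⟩
  | algebraMap c =>
      have : coeffEmb ℂ (algebraMap ℚ (LaurentSeries ℚ) c)
          = algebraMap ℂ (LaurentSeries ℂ) (algebraMap ℚ ℂ c) :=
        hdiam_coeffMap_algebraMap _ c
      rw [this]
      exact IntermediateField.algebraMap_mem _ _
  | add y z hy' hz' hy hz =>
      rw [map_add]
      exact add_mem (hy hy') (hz hz')
  | inv y hy' hy =>
      rw [map_inv₀]
      exact inv_mem (hy hy')
  | mul y z hy' hz' hy hz =>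
      rw [map_mul]
      exact mul_mem (hy hy') (hz hz')

variable (M) in
theorem FC1_eq_diamFieldC :
    FC1 M = IntermediateField.adjoin ℂ (⇑(coeffEmb ℂ) '' genOne M) := by
  apply le_antisymm
  · rw [FC1, laurentBaseChange, IntermediateField.adjoin_le_iff]
    rintro _ ⟨x, hx, rfl⟩
    exact coeffEmb_mem_diamFieldC M hx
  · exact IntermediateField.adjoin.mono ℂ _ _
      (Set.image_mono (IntermediateField.subset_adjoin ℚ (genOne M)))

variable (M) in
/-- the field generated by the generators over `ℂ`. -/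
abbrev diamFieldC : IntermediateField ℂ (LaurentSeries ℂ) :=
  IntermediateField.adjoin ℂ (⇑(coeffEmb ℂ) '' genOne M)

open IntermediateField.algebraAdjoinAdjoin in
/-- the diamond automorphism of the field generated by the generators over `ℂ`. -/
def diamFieldEquivC (hM : DiamondComplexOne M) (d : (ZMod M)ˣ) :
    diamFieldC M ≃ₐ[ℂ] diamFieldC M :=
  IsFractionRing.algEquivOfAlgEquiv (diamAlgEquivC hM d)

open IntermediateField.algebraAdjoinAdjoin in
theorem coe_diamFieldEquivC_gen (hM : DiamondComplexOne M) (d : (ZMod M)ˣ) (i : DiamIdx M)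
    (h : diamGenL M ℂ i ∈ diamFieldC M) :
    ((diamFieldEquivC hM d ⟨diamGenL M ℂ i, h⟩ : diamFieldC M) : LaurentSeries ℂ)
      = diamGenL M ℂ (diamPerm M d i) := by
  have h1 := IsFractionRing.algEquivOfAlgEquiv_algebraMap (K := diamFieldC M) (L := diamFieldC M)
    (diamAlgEquivC hM d) ⟨diamGenL M ℂ i, diamGenL_mem M ℂ i⟩
  have h2 : diamAlgEquivC hM d ⟨diamGenL M ℂ i, diamGenL_mem M ℂ i⟩
      = ⟨diamGenL M ℂ (diamPerm M d i), diamGenL_mem M ℂ _⟩ := diamAlgHomC_gen hM d i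
  rw [h2] at h1
  exact congrArg (fun z : diamFieldC M => (z : LaurentSeries ℂ)) h1

/-- **(A-INP 4, `ℂ`)** the diamond automorphisms of `FC1 M` exist. -/
theorem diamondExistsC_of (M : ℕ) [NeZero M] (hM : DiamondComplexOne M) (d : (ZMod M)ˣ) :
    ∃ σ : FC1 M ≃ₐ[ℂ] FC1 M, IsDiamondC M d σ := by
  have key : ∀ (i : DiamIdx M) (h₁ : diamGenL M ℂ i ∈ FC1 M)
      (h₂ : diamGenL M ℂ (diamPerm M d i) ∈ FC1 M),
      ((IntermediateField.equivOfEq (FC1_eq_diamFieldC M)).trans
        ((diamFieldEquivC hM d).trans (IntermediateField.equivOfEq (FC1_eq_diamFieldC M)).symm))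
        ⟨diamGenL M ℂ i, h₁⟩ = ⟨diamGenL M ℂ (diamPerm M d i), h₂⟩ := by
    intro i h₁ h₂
    apply Subtype.ext
    exact coe_diamFieldEquivC_gen hM d i _
  refine ⟨(IntermediateField.equivOfEq (FC1_eq_diamFieldC M)).trans
    ((diamFieldEquivC hM d).trans (IntermediateField.equivOfEq (FC1_eq_diamFieldC M)).symm),
    ?_, ?_⟩
  · intro x hx hmem
    exact key (Sum.inl ⟨x, hx⟩) hmem hmem
  · intro a ha h₁ h₂
    exact key (Sum.inr ⟨a, ha⟩) h₁ h₂

/-- **(A-INP 4)** the diamond automorphisms exist, over `ℚ̄` and over `ℂ`. -/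
theorem diamondExistsOne_of (M : ℕ) [NeZero M] :
    DiamondComplexOne M → DiamondExistsOne M := fun hM d =>
  ⟨Fermat.Agent.S48W.diamondExistsOne_of M hM d, diamondExistsC_of M hM d⟩

end Fermat.Agent.S48WA
end
end MergeWrap_S48_W_A_Inputs
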