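import Mathlib
import Fermat.Agent.MUL.S48.W.A.Interfaces
import Fermat.Agent.MUL.F3.EigenclassGlue
import Fermat.Agent.MUL.S48.W.A.InterfacesC
import Fermat.Agent.MUL.S48.W.A.K.Theta
import Fermat.Agent.MUL.S48.W.A.K.Asm
import Fermat.Agent.MUL.S48.W.A.K.CharOf
import Fermat.Agent.MUL.S48.W.A.Eis
import Fermat.Agent.MUL.S48.W.A.K.Defs
import Fermat.Agent.MUL.Orig.S48.Neb.Group
import Fermat.Agent.MUL.S48.W.A.Dict.HasDict

section MergeWrap_S48_W_A_Glue -- from S48/W/A/Glue.lean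

set_option autoImplicit false
set_option linter.style.haveILetI false

noncomputable section

namespace Fermat.Agent.S48WA

open ModularCurve AlgebraicCurve CongruenceSubgroup Fermat.Agent.S48W
open scoped TensorProduct

/-- transport of an eigenvector along an equivariant map, after base change. -/
theorem glue_comm {k L X : Type*} [Field k] [AddCommMonoid L] [Module ℤ L] [AddCommMonoid X]
    [Module ℤ X]
    (κ : L →ₗ[ℤ] X) (T : L →ₗ[ℤ] L) (T' : X →ₗ[ℤ] X) (h : ∀ c, κ (T c) = T' (κ c))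
    (y : k ⊗[ℤ] L) (a : k) (hy : T.baseChange k y = a • y) :
    T'.baseChange k (κ.baseChange k y) = a • κ.baseChange k y := by
  have hcomm : T'.baseChange k ∘ₗ κ.baseChange k = κ.baseChange k ∘ₗ T.baseChange k := by
    rw [← LinearMap.baseChange_comp, ← LinearMap.baseChange_comp]
    exact congrArg (LinearMap.baseChange k) (LinearMap.ext fun c => (h c).symm)
  have h1 := congrArg (fun f => f y) hcomm
  simp only [LinearMap.comp_apply] at h1
  rw [h1, hy, map_smul]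

set_option maxHeartbeats 1000000 in
/-- **Glue (A6).** -/
theorem eigenclassOne_of (M : ℕ) [NeZero M] (hL : LatticeOne M) (hP : PeriodEigenOne M)
    (hκ : KappaOne M) : EigenclassOne M := by
  intro ℓ hℓ k _ _ φ e
  haveI : Fact ℓ.Prime := ⟨hℓ⟩
  haveI : Module.Free ℤ (HomParOne M) := hL.2.2.1
  haveI : Module.Finite ℤ (HomParOne M) := hL.2.2.2
  obtain ⟨y, hy0, hyT, hyD⟩ := hP ℓ hℓ k φ e
  obtain ⟨κ, hker, hκT, hκD⟩ := hκ ℓ hℓ
  have hX : ∀ x : JtorsOne M ℓ, ℓ • x = 0 := by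
    intro x
    have h := x.2
    rw [Submodule.mem_torsionBy_iff] at h
    apply Subtype.ext
    rw [Submodule.coe_smul_of_tower, Submodule.coe_zero, ← h, natCast_zsmul]
  have hinj := Fermat.Agent.F3Glue.baseChange_injective_of_ker (p := ℓ) k κ hX hker
  refine ⟨κ.baseChange k y, fun h0 => hy0 (hinj (h0.trans (map_zero _).symm)),
    fun p hpM hpℓ => ?_, fun d => ?_⟩
  · exact glue_comm κ (heckeHomOne M p) (heckeTorsOne M ℓ p) (hκT p hpM) y _ (hyT p hpM hpℓ)
  · exact glue_comm κ (diamondHomOne M d) (diamondTorsOne M ℓ d) (hκD d) y _ (hyD d)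

/-- **Block A**, final form. -/
theorem eigenclassOne_of_all (M : ℕ) [NeZero M] (hL : LatticeOne M) (hP : PeriodEigenOne M)
    (hκ : KappaOneAll M) : EigenclassOne M :=
  eigenclassOne_of M hL hP (kappaOne_of_all hκ)

end Fermat.Agent.S48WA
end
end MergeWrap_S48_W_A_Glue

section MergeWrap_S48_W_A_KappaGlue -- from S48/W/A/KappaGlue.lean

set_option autoImplicit false
set_option linter.style.haveILetI false

noncomputable section

namespace Fermat.Agent.S48WA

open ModularCurve AlgebraicCurve CongruenceSubgroup Fermat.Agent.S48W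
open Fermat.Agent.S48WA2 (IsDiamondC)
open scoped TensorProduct

local notation "Kb" => AlgebraicClosure ℚ

theorem diamondOne_apply {M : ℕ} [NeZero M] {d : (ZMod M)ˣ}
    (h : ∃ σ : FOneBar M ≃ₐ[Kb] FOneBar M, IsDiamond M d σ) (y : JOne M) :
    diamondOne M d y = h.choose • y := by
  rw [diamondOne, dif_pos h]
  rfl

set_option maxHeartbeats 2000000 in
/-- **`κ` over `ℚ̄`** from `κ` over `ℂ` and the descent. -/
theorem kappaOneAll_of (M : ℕ) [NeZero M] (hC : KappaCOne M) (hD : DescentOne M)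
    (hE : DiamondExistsOne M) : KappaOneAll M := by
  classical
  obtain ⟨κC, htors, hker, hcompat, hT, hδ⟩ := hC
  obtain ⟨bc, hinj, hsurj, hbcT, hbcδ⟩ := hD
  -- the choice
  have hex : ∀ (n : ℕ) (c : HomParOne M), ∃ y : JOne M, 0 < n → bc y = κC n c := by
    intro n c
    rcases Nat.eq_zero_or_pos n with h0 | hn
    · exact ⟨0, fun h => absurd h0 h.ne'⟩
    · obtain ⟨y, hy⟩ := hsurj n hn (κC n c) (htors n hn c)
      exact ⟨y, fun _ => hy⟩
  choose k hk using hex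
  have hmem : ∀ (n : ℕ) (hn : 0 < n) (c : HomParOne M), k n c ∈ JtorsOne M n := by
    intro n hn c
    rw [Submodule.mem_torsionBy_iff, natCast_zsmul]
    apply hinj
    rw [map_nsmul, hk n c hn, htors n hn c, map_zero]
  have hadd : ∀ (n : ℕ) (hn : 0 < n) (c c' : HomParOne M), k n (c + c') = k n c + k n c' := by
    intro n hn c c'
    apply hinj
    rw [map_add, hk n _ hn, hk n _ hn, hk n _ hn, map_add]
  have hzero : ∀ (n : ℕ) (hn : 0 < n), k n 0 = 0 := by
    intro n hn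
    apply hinj
    rw [hk n _ hn, map_zero, map_zero]
  let κ : (n : ℕ) → HomParOne M →ₗ[ℤ] JtorsOne M n := fun n =>
    if hn : 0 < n then
      (AddMonoidHom.toIntLinearMap
        { toFun := fun c => (⟨k n c, hmem n hn c⟩ : JtorsOne M n)
          map_zero' := Subtype.ext (hzero n hn)
          map_add' := fun c c' => Subtype.ext (hadd n hn c c') })
    else 0
  have hκ : ∀ (n : ℕ) (hn : 0 < n) (c : HomParOne M),
      ((κ n c : JtorsOne M n) : JOne M) = k n c := by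
    intro n hn c
    simp only [κ, dif_pos hn]
    rfl
  have hκ0 : ∀ (n : ℕ), ¬ 0 < n → ∀ c : HomParOne M, κ n c = 0 := by
    intro n hn c
    simp only [κ, dif_neg hn]
    rfl
  refine ⟨κ, ?_, ?_, ?_, ?_⟩
  · intro n hn c hc
    have h1 : k n c = 0 := by
      rw [← hκ n hn c, hc]
      rfl
    have h2 := hk n c hn
    rw [h1, map_zero] at h2
    exact hker n hn c h2.symm
  · intro n d c hn hd
    rw [hκ n hn c, hκ (d * n) (Nat.mul_pos hd hn) c, natCast_zsmul]
    apply hinj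
    rw [map_nsmul, hk _ _ (Nat.mul_pos hd hn), hk _ _ hn]
    exact hcompat n d c hn hd
  · intro n p hpM c
    rcases Nat.eq_zero_or_pos n with h0 | hn
    · have hn' : ¬ 0 < n := by omega
      rw [hκ0 n hn', hκ0 n hn', map_zero]
    · apply Subtype.ext
      rw [hκ n hn]
      have h1 : ((heckeTorsOne M n p (κ n c) : JtorsOne M n) : JOne M)
          = heckeOne M p (k n c) := by
        rw [← hκ n hn c]
        rfl
      rw [h1]
      apply hinj
      rw [hk n _ hn, hbcT p hpM, hk n _ hn]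
      exact hT n hn p hpM c
  · intro n d c
    rcases Nat.eq_zero_or_pos n with h0 | hn
    · have hn' : ¬ 0 < n := by omega
      rw [hκ0 n hn', hκ0 n hn', map_zero]
    · apply Subtype.ext
      rw [hκ n hn]
      have h1 : ((diamondTorsOne M n d (κ n c) : JtorsOne M n) : JOne M)
          = diamondOne M d (k n c) := by
        rw [← hκ n hn c]
        rfl
      rw [h1, diamondOne_apply (hE d).1]
      obtain ⟨σ', hσ'⟩ := (hE d).2
      apply hinj
      rw [hk n _ hn, hbcδ d _ σ' (hE d).1.choose_spec hσ', hk n _ hn]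
      exact hδ n hn d σ' hσ' c

end Fermat.Agent.S48WA
end
end MergeWrap_S48_W_A_KappaGlue

section MergeWrap_S48_W_A_K_Kernel -- from S48/W/A/K/Kernel.lean

set_option autoImplicit false
set_option linter.unusedSectionVars false

noncomputable section

namespace Fermat.Agent.S48WA

open UpperHalfPlane CongruenceSubgroup ModularCurve AlgebraicCurve
open scoped MatrixGroups ModularForm Manifold
open Fermat.Agent.S23 Fermat.Agent.S28.QExp
open Fermat.Agent.S48W Fermat.Agent.S48WA2 Fermat.Agent.F3I2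

variable {N : ℕ} [NeZero N]

/-- A nonzero function has at most one character. -/
theorem IsFormChar.char_unique {w w' : ℤ} {χ χ' : ↥(Gamma1 N) →* ℂˣ} {F : ℍ → ℂ}
    (h : IsFormChar N w χ F) (h' : IsFormChar N w' χ' F) (hw : w = w') (hF : F ≠ 0) :
    χ = χ' := by
  subst hw
  obtain ⟨τ, hτ⟩ := exists_ne_zero_of_ne_zero hF
  ext γ
  have h1 := congrFun ((h.slash γ).symm.trans (h'.slash γ)) τ
  simp only [Pi.smul_apply, smul_eq_mul] at h1
  exact mul_right_cancel₀ hτ h1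

theorem qLaurent_smul_of_isMF {w : ℤ} {F : ℍ → ℂ} (hF : IsMF (G1 N) w F) (a : ℂ) :
    qLaurent (a • F) = a • qLaurent F :=
  (hasQ_of_isMF (hF.smul a)).unique ((hasQ_of_isMF hF).smul a)

theorem isMF_mdiff {w : ℤ} {F : ℍ → ℂ} (hF : IsMF (G1 N) w F) : MDiff F := by
  obtain ⟨A, rfl⟩ := hF
  exact A.holo'

/-- **Kernel**: if the class attached to a character `χ` vanishes, then `χ = 1`. -/
theorem IsTheta.char_eq_one [HasDict1 N] {n : ℕ} (hn : n ≠ 0)
    {χ : ↥(Gamma1 N) →* ℂˣ} (h : IsTheta N n χ 0) : χ = 1 := by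
  obtain ⟨hχ, w, f, B, x, D, hf, hB, hf0, hB0, hr, hD, hmk⟩ := h
  obtain ⟨y, hy0, hy⟩ := hD.exists_of_mk_eq_zero hmk
  have hx0 : x ≠ 0 := hD.1
  -- `x / y^n` is a constant
  have hyn0 : y ^ n ≠ 0 := pow_ne_zero n hy0
  have hz0 : x * (y ^ n)⁻¹ ≠ 0 := mul_ne_zero hx0 (inv_ne_zero hyn0)
  have hzord : ∀ v : Place ℂ (FC1 N), v.ord (x * (y ^ n)⁻¹) = 0 := by
    intro v
    rw [Place.ord_mul v hx0 (inv_ne_zero hyn0), Place.ord_inv, hy v]
    have : v.ord (y ^ n) = (n : ℤ) * v.ord y := by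
      have := Place.ord_zpow v y (n : ℤ)
      rwa [zpow_natCast] at this
    rw [this]
    ring
  obtain ⟨a, ha⟩ := (HasDict1.const : DictConst1 N) _ hz0 hzord
  have hxa : x = algebraMap ℂ (FC1 N) a * y ^ n := by
    rw [← ha, mul_assoc, inv_mul_cancel₀ hyn0, mul_one]
  have ha0 : a ≠ 0 := by
    rintro rfl
    rw [map_zero, zero_mul] at hxa
    exact hx0 hxa
  -- `y` as a ratio
  obtain ⟨f₁, g₁, hf₁0, hy1⟩ := exists_isRatioF_of_ne_zero hy0
  have hyn := IsRatioF.one_pow n hy1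
  obtain ⟨hg₁n0, ⟨W, hf₁m, hg₁m⟩, hq⟩ := hyn
  obtain ⟨hg₁0, ⟨w₁, hf₁w, hg₁w⟩, -⟩ := hy1
  have hxr : IsRatioF N x (a • f₁ ^ n) (g₁ ^ n) := by
    refine ⟨hg₁n0, ⟨W, hf₁m.smul a, hg₁m⟩, ?_⟩
    rw [qLaurent_smul_of_isMF hf₁m, hq, hxa]
    push_cast
    rw [← HahnSeries.C_mul_eq_smul]
    have hCa : algebraMap ℂ (LaurentSeries ℂ) a = HahnSeries.C a := by
      rw [ModularCurve.algebraMap_laurentSeries_eq_single]
      rfl
    rw [hCa]
    ring
  have hcross := hr.cross hxr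
  -- an `n`-th root of `a`
  obtain ⟨b, hb⟩ := IsAlgClosed.exists_pow_nat_eq a (Nat.pos_of_ne_zero hn)
  have hb0 : b ≠ 0 := by
    rintro rfl
    rw [zero_pow hn] at hb
    exact ha0 hb.symm
  have hpow : ∀ τ, (f * g₁) τ ^ n = (b • (f₁ * B)) τ ^ n := by
    intro τ
    have := congrFun hcross τ
    simp only [Pi.mul_apply, Pi.pow_apply, Pi.smul_apply, smul_eq_mul] at this ⊢
    rw [mul_pow, this, mul_pow, mul_pow, hb]
    ring
  have hBm : IsMF (G1 N) w B := hB.isMF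
  have hf₁B : IsMF (G1 N) (w₁ + w) (f₁ * B) := hf₁w.mul hBm
  have hf₁B0 : f₁ * B ≠ 0 := isMF_mul_ne_zero hf₁w hBm hf₁0 hB0
  have hbf₁B0 : b • (f₁ * B) ≠ 0 := by
    obtain ⟨τ, hτ⟩ := exists_ne_zero_of_ne_zero hf₁B0
    intro h0
    have := congrFun h0 τ
    simp only [Pi.smul_apply, smul_eq_mul, Pi.zero_apply] at this
    exact (mul_ne_zero hb0 hτ) this
  have hfg₁ : IsFormChar N (w + w₁) (χ * 1) (f * g₁) := hf.mul (isFormChar_of_isMF hg₁w)
  obtain ⟨ζ, hζn, hζ⟩ :=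
    exists_smul_of_pow_eq_pow hfg₁.mdiff (isMF_mdiff (hf₁B.smul b)) hbf₁B0 hn hpow
  have hfg₁' : IsFormChar N (w₁ + w) 1 (f * g₁) := by
    have h1 : f * g₁ = ζ • (b • (f₁ * B)) := by
      ext τ
      rw [hζ τ]
      rfl
    rw [h1]
    exact isFormChar_of_isMF ((hf₁B.smul b).smul ζ)
  have hfg₁0 : f * g₁ ≠ 0 := by
    intro h0
    obtain ⟨τ, hτ⟩ := exists_ne_zero_of_ne_zero hbf₁B0
    have h1 := hpow τ
    rw [h0] at h1
    simp only [Pi.zero_apply, zero_pow hn] at h1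
    exact hτ (pow_eq_zero_iff hn |>.1 h1.symm)
  have := hfg₁.char_unique hfg₁' (add_comm w w₁) hfg₁0
  exact (mul_one χ).symm.trans this

end Fermat.Agent.S48WA
end
end MergeWrap_S48_W_A_K_Kernel

section MergeWrap_S48_W_A_K_KKernel -- from S48/W/A/K/KKernel.lean

set_option autoImplicit false
set_option linter.unusedSectionVars false

noncomputable section

namespace Fermat.Agent.S48WA

open UpperHalfPlane CongruenceSubgroup ModularCurve AlgebraicCurve
open scoped MatrixGroups ModularForm Manifold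
open Fermat.Agent.S23 Fermat.Agent.S48W Fermat.Agent.S48WA2 Fermat.Agent.F3I2

variable {M : ℕ} [NeZero M]

/-- **(KER)** the kernel of `κ_n` is `n L`. -/
theorem kKernel [HasDict1 M] : KKernel M := by
  intro n hn c h
  exact exists_eq_smul_of_charOf_eq_one hn c (h.char_eq_one hn)

end Fermat.Agent.S48WA
end
end MergeWrap_S48_W_A_K_KKernel

section MergeWrap_S48_W_A_K_Exists -- from S48/W/A/K/Exists.lean

set_option autoImplicit false
set_option linter.unusedVariables false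
set_option linter.style.haveILetI false

noncomputable section

namespace Fermat.Agent.S48WA

open UpperHalfPlane CongruenceSubgroup Complex ModularForm ModularCurve AlgebraicCurve
open scoped MatrixGroups ModularForm Manifold
open Fermat.Agent.S23 Fermat.Agent.S48W Fermat.Agent.S48WA2 Fermat.Agent.F3I2

variable {N : ℕ} [NeZero N]

/-! ### divisibility of the orders -/

/-- Bundled version of a ratio `x = f^n / B^n` with forms of weight `n * w`. -/
theorem exists_isRatio_pow {n : ℕ} {w : ℤ} {χ : ↥(Gamma1 N) →* ℂˣ} {f B : ℍ → ℂ}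
    (hf : IsFormChar N w χ f) (hB : IsFormChar N w 1 B) (hf0 : f ≠ 0) (hB0 : B ≠ 0)
    (hχn : ∀ γ, χ γ ^ n = 1) {x : FC1 N} (hx : IsRatioF N x (f ^ n) (B ^ n)) :
    ∃ A B' : ModularForm (Gamma1 N) ((n : ℤ) * w), ⇑A = f ^ n ∧ ⇑B' = B ^ n ∧ A ≠ 0 ∧
      IsRatio1 N x A B' := by
  obtain ⟨A, hA⟩ := hf.pow_isMF hχn
  obtain ⟨B', hB'⟩ := hB.pow_isMF (n := n) (fun γ => by simp)
  refine ⟨A, B', hA, hB', ?_, ?_, ?_⟩
  · intro h0
    apply pow_ne_zero_fun hf0 n
    rw [← hA, h0]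
    rfl
  · intro h0
    apply pow_ne_zero_fun hB0 n
    rw [← hB', h0]
    rfl
  · have := hx.2.2
    rw [← hA, ← hB'] at this
    exact this

/-- **Divisibility**: if the character of `f` is trivial on torsion elements and on elements of
trace `±2`, then every order of `x = f^n / B^n` at a place of `FC1 N` is divisible by `n`. -/
theorem dvd_ord_of_isRatioF_pow (hD2a : DictD2a1 N) {n : ℕ} (hn : n ≠ 0) {w : ℤ}
    {χ : ↥(Gamma1 N) →* ℂˣ} {f B : ℍ → ℂ}
    (hf : IsFormChar N w χ f) (hB : IsFormChar N w 1 B) (hf0 : f ≠ 0) (hB0 : B ≠ 0)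
    (hχn : ∀ γ, χ γ ^ n = 1)
    (hχtor : ∀ (γ : ↥(Gamma1 N)) (m : ℕ), m ≠ 0 → γ ^ m = 1 → χ γ = 1)
    (hχpar : ∀ γ : ↥(Gamma1 N),
      ((γ : SL(2, ℤ)) : Matrix (Fin 2) (Fin 2) ℤ).trace ^ 2 = 4 → χ γ = 1)
    {x : FC1 N} (hx : IsRatioF N x (f ^ n) (B ^ n)) (v : Place ℂ (FC1 N)) :
    (n : ℤ) ∣ v.ord x := by
  obtain ⟨A, B', hA, hB', hA0, hAB⟩ := exists_isRatio_pow hf hB hf0 hB0 hχn hx
  rcases hD2a v with ⟨τ, e, he, ⟨γ₀, hγ₀, hfix, hprim⟩, hchart⟩ | ⟨g, h, e, hh, he, hmem, hchart⟩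
  · -- a point of `ℍ`
    have h1 := hchart _ A B' x hA0 hAB
    rw [hA, hB', ordAt_pow hf.mdiff hf0, ordAt_pow hB.mdiff hB0] at h1
    have hχγ₀ : χ ⟨γ₀, hγ₀⟩ = 1 := by
      refine hχtor ⟨γ₀, hγ₀⟩ (2 * e) (by omega) ?_
      apply Subtype.ext
      simpa using pow_eq_one_of_fix hfix hprim
    have hfinv : f ∣[w] γ₀ = f := by
      have := hf.slash ⟨γ₀, hγ₀⟩
      rw [hχγ₀] at this
      simpa using this
    have hBinv : B ∣[w] γ₀ = B := by
      have := hB.slash ⟨γ₀, hγ₀⟩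
      simpa using this
    obtain ⟨k, hk⟩ := dvd_ordAt_sub_of_slash_invariant hf.mdiff hB.mdiff hf0 hB0 hfix hprim
      hfinv hBinv
    refine ⟨k, ?_⟩
    have he' : (e : ℤ) ≠ 0 := by exact_mod_cast he.ne'
    apply mul_left_cancel₀ he'
    rw [h1, ← mul_sub, hk]
    ring
  · -- a cusp
    have h1 := hchart _ A B' x hA0 hAB
    rw [hA, hB', pow_slash_SL2, pow_slash_SL2] at h1
    set γ' : ↥(Gamma1 N) := ⟨g * ModularGroup.T ^ h * g⁻¹, hmem⟩ with hγ'
    have hχγ' : χ γ' = 1 := hχpar γ' (trace_conj_T_pow g h)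
    have hfinv : f ∣[w] (g * ModularGroup.T ^ h * g⁻¹) = f := by
      have := hf.slash γ'
      rw [hχγ'] at this
      simpa using this
    have hBinv : B ∣[w] (g * ModularGroup.T ^ h * g⁻¹) = B := by
      have := hB.slash γ'
      simpa using this
    have hfp : HasPeriod h (f ∣[w] g) := hasPeriod_slash hfinv
    have hBp : HasPeriod h (B ∣[w] g) := hasPeriod_slash hBinv
    have hhe : 0 < h * e := Nat.mul_pos hh he
    rw [ordInf_pow hhe (mdiff_slash_SL hf.mdiff w g) (lo_hasPeriod_mul hfp e) (hf.bdd g)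
        (slash_SL_ne_zero hf0 w g),
      ordInf_pow hhe (mdiff_slash_SL hB.mdiff w g) (lo_hasPeriod_mul hBp e) (hB.bdd g)
        (slash_SL_ne_zero hB0 w g),
      ordInf_mul_period hh he (mdiff_slash_SL hf.mdiff w g) hfp (hf.bdd g)
        (slash_SL_ne_zero hf0 w g),
      ordInf_mul_period hh he (mdiff_slash_SL hB.mdiff w g) hBp (hB.bdd g)
        (slash_SL_ne_zero hB0 w g)] at h1
    refine ⟨ordInf h (f ∣[w] g) - ordInf h (B ∣[w] g), ?_⟩
    have he' : (e : ℤ) ≠ 0 := by exact_mod_cast he.ne'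
    apply mul_left_cancel₀ he'
    rw [h1]
    ring

/-! ### existence of the class attached to `c ∈ HomParOne N` -/

/-- **Existence**: the class `κ_n(c) = [(1/n) div ((E_{4,χ} / E_{4,1})^n)]`, `χ = χ_{c,n}`. -/
theorem exists_isTheta_charOf [HasDict1 N] {n : ℕ} (hn : n ≠ 0)
    (c : HomParOne N) : ∃ cls : Pic0 ℂ (FC1 N), IsTheta N n (charOf n c) cls := by
  haveI : HasPrincipalDivisors ℂ (FC1 N) := HasDict1.hpd (M := N)
  have hinf : ∀ γ : ↥(Gamma1 N), (γ : SL(2, ℤ)) 1 0 = 0 → charOf n c γ = 1 := by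
    intro γ hγ
    apply charOf_eq_one_of_trace
    have hdet := (γ : SL(2, ℤ)).det_coe
    rw [Matrix.det_fin_two, hγ, mul_zero, sub_zero] at hdet
    rw [Matrix.trace_fin_two]
    have h1 : ((γ : SL(2, ℤ)) 0 0 + (γ : SL(2, ℤ)) 1 1) ^ 2 =
        ((γ : SL(2, ℤ)) 0 0 - (γ : SL(2, ℤ)) 1 1) ^ 2 + 4 := by
      linear_combination 4 * hdet
    have h2 : (γ : SL(2, ℤ)) 0 0 = (γ : SL(2, ℤ)) 1 1 := by
      rcases Int.isUnit_iff.1 (IsUnit.of_mul_eq_one _ hdet) with h | h <;>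
        · rw [h] at hdet
          rw [h]
          linarith
    rw [h1, h2]
    ring
  obtain ⟨E, hE, hE0⟩ := exists_isFormChar_eis (charOf n c) (norm_charOf n c) hinf 4
    (by norm_num) (by decide)
  obtain ⟨E₁, hE1, hE10⟩ := exists_isFormChar_eis (N := N) (1 : ↥(Gamma1 N) →* ℂˣ)
    (fun γ => by simp) (fun γ _ => rfl) 4 (by norm_num) (by decide)
  obtain ⟨x, hx⟩ := exists_isRatioF (hE.pow_isMF (charOf_pow n c))
    (hE1.pow_isMF (n := n) (fun γ => by simp)) (pow_ne_zero_fun hE10 n)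
  have hx0 : x ≠ 0 := by
    intro h0
    exact pow_ne_zero_fun hE0 n (hx.eq_zero_iff.1 h0)
  have hdiv : ∀ v : Place ℂ (FC1 N), (n : ℤ) ∣ v.ord x := fun v =>
    dvd_ord_of_isRatioF_pow (HasDict1.d2a (M := N)) hn hE hE1 hE0 hE10 (charOf_pow n c)
      (fun γ m hm h => charOf_eq_one_of_pow_eq_one n c hm h)
      (fun γ h => charOf_eq_one_of_trace n c h) hx v
  obtain ⟨D, hD⟩ := exists_isRootDiv (Nat.pos_of_ne_zero hn) hx0 hdiv
  exact ⟨Pic0.mk D, charOf_pow n c, 4, _, _, x, D, hE, hE1, hE0, hE10, hx, hD, rfl⟩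

/-- **(EX)** the final target of seat K-EXISTS (`K/Asm.lean`). -/
theorem kExists (M : ℕ) [NeZero M] [HasDict1 M] : KExists M :=
  fun _ hn c => exists_isTheta_charOf hn c

end Fermat.Agent.S48WA
end
end MergeWrap_S48_W_A_K_Exists

section MergeWrap_S48_W_A_K_Diamond -- from S48/W/A/K/Diamond.lean

set_option autoImplicit false

noncomputable section

namespace Fermat.Agent.S48WA

open UpperHalfPlane CongruenceSubgroup ModularCurve AlgebraicCurve Filter Topology
open scoped MatrixGroups ModularForm Manifold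
open Fermat.Agent.S23 Fermat.Agent.S48W Fermat.Agent.S48WA2 Fermat.Agent.F3I2

variable {M : ℕ}

/-! ### conjugation by `Γ₀(M)` on `Γ₁(M)` -/

/-- `g ↦ γ g γ⁻¹` on `Γ₁(M)`, for `γ ∈ Γ₀(M)`. -/
def conjG1 {γ : SL(2, ℤ)} (hγ : γ ∈ Gamma0 M) : ↥(Gamma1 M) →* ↥(Gamma1 M) where
  toFun g := ⟨γ * g * γ⁻¹, Fermat.Agent.S48.Neb.conj_mem_Gamma1 M γ g hγ g.2⟩
  map_one' := by
    apply Subtype.ext
    simp
  map_mul' a b := by
    apply Subtype.ext
    simp only [Subgroup.coe_mul]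
    group

@[simp]
theorem coe_conjG1 {γ : SL(2, ℤ)} (hγ : γ ∈ Gamma0 M) (g : ↥(Gamma1 M)) :
    ((conjG1 hγ g : ↥(Gamma1 M)) : SL(2, ℤ)) = γ * g * γ⁻¹ := rfl

/-- the conjugate character `g ↦ χ (γ g γ⁻¹)`. -/
def conjChar {γ : SL(2, ℤ)} (hγ : γ ∈ Gamma0 M) (χ : ↥(Gamma1 M) →* ℂˣ) : ↥(Gamma1 M) →* ℂˣ :=
  χ.comp (conjG1 hγ)

theorem conjChar_apply {γ : SL(2, ℤ)} (hγ : γ ∈ Gamma0 M) (χ : ↥(Gamma1 M) →* ℂˣ)
    (g : ↥(Gamma1 M)) : conjChar hγ χ g = χ (conjG1 hγ g) := rfl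

theorem conjChar_one {γ : SL(2, ℤ)} (hγ : γ ∈ Gamma0 M) :
    conjChar hγ (1 : ↥(Gamma1 M) →* ℂˣ) = 1 := by
  ext g
  simp [conjChar_apply]

theorem conjChar_pow_eq_one {γ : SL(2, ℤ)} (hγ : γ ∈ Gamma0 M) {n : ℕ}
    {χ : ↥(Gamma1 M) →* ℂˣ} (hχ : ∀ g, χ g ^ n = 1) (g : ↥(Gamma1 M)) :
    conjChar hγ χ g ^ n = 1 := hχ _

/-! ### forms with character -/

theorem kd_mul {w w' : ℤ} {χ χ' : ↥(Gamma1 M) →* ℂˣ} {f f' : ℍ → ℂ}
    (hf : IsFormChar M w χ f) (hf' : IsFormChar M w' χ' f') :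
    IsFormChar M (w + w') (χ * χ') (f * f') := by
  refine ⟨hf.mdiff.mul hf'.mdiff, fun γ => ?_, fun g => ?_⟩
  · rw [ModularForm.mul_slash_SL2, hf.slash, hf'.slash]
    funext z
    simp only [Pi.mul_apply, Pi.smul_apply, smul_eq_mul, MonoidHom.mul_apply, Units.val_mul]
    ring
  · rw [ModularForm.mul_slash_SL2]
    exact (hf.bdd g).mul (hf'.bdd g)

theorem kd_one : IsFormChar M 0 1 (1 : ℍ → ℂ) := by
  refine ⟨mdifferentiable_const, fun γ => ?_, fun g => ?_⟩
  · rw [ModularForm.is_invariant_one]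
    simp
  · rw [ModularForm.is_invariant_one]
    exact const_boundedAtFilter _ _

theorem kd_pow {w : ℤ} {χ : ↥(Gamma1 M) →* ℂˣ} {f : ℍ → ℂ}
    (hf : IsFormChar M w χ f) (n : ℕ) : IsFormChar M (n * w) (χ ^ n) (f ^ n) := by
  induction n with
  | zero =>
    have e : ((0 : ℕ) : ℤ) * w = 0 := by simp
    rw [e, pow_zero χ, pow_zero f]
    exact kd_one
  | succ n ih =>
    have e : ((n + 1 : ℕ) : ℤ) * w = n * w + w := by push_cast; ring
    rw [e, pow_succ χ, pow_succ f]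
    exact kd_mul ih hf

/-- A form with trivial character is (the function underlying) a modular form on `Γ₁(M)`. -/
theorem kd_exists_modularForm {w : ℤ} {f : ℍ → ℂ} (hf : IsFormChar M w 1 f) :
    ∃ A : ModularForm (Gamma1 M) w, ⇑A = f := by
  refine ⟨{ toFun := f
            slash_action_eq' := ?_
            holo' := hf.mdiff
            bdd_at_cusps' := ?_ }, rfl⟩
  · rintro _ ⟨γ, hγ, rfl⟩
    have h2 : f ∣[w] γ = f := by simpa using hf.slash ⟨γ, hγ⟩
    exact h2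
  · intro c hc
    have hc' : IsCusp c 𝒮ℒ := hc.mono (Subgroup.map_le_range _ _)
    rw [OnePoint.isBoundedAt_iff_forall_SL2Z hc']
    intro γ _
    exact hf.bdd γ

/-- the `n`-th power of a form whose character has order dividing `n` is a modular form. -/
theorem kd_pow_modularForm {w : ℤ} {χ : ↥(Gamma1 M) →* ℂˣ} {f : ℍ → ℂ}
    (hf : IsFormChar M w χ f) {n : ℕ} (hχ : ∀ γ, χ γ ^ n = 1) :
    ∃ A : ModularForm (Gamma1 M) (n * w), ⇑A = f ^ n := by
  have h := kd_pow hf n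
  have h1 : χ ^ n = 1 := by
    ext γ
    simpa using congrArg Units.val (hχ γ)
  rw [h1] at h
  exact kd_exists_modularForm h

/-- the slash of a power (`SL(2,ℤ)`). -/
theorem kd_pow_slash (n : ℕ) (w : ℤ) (f : ℍ → ℂ) (γ : SL(2, ℤ)) :
    (f ^ n) ∣[(n : ℤ) * w] γ = (f ∣[w] γ) ^ n := by
  induction n with
  | zero =>
    have e : ((0 : ℕ) : ℤ) * w = 0 := by simp
    rw [e, pow_zero, pow_zero]
    exact ModularForm.is_invariant_one γ
  | succ n ih =>
    have e : ((n + 1 : ℕ) : ℤ) * w = n * w + w := by push_cast; ring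
    rw [e, pow_succ, pow_succ, ModularForm.mul_slash_SL2, ih]

/-- slashing with `γ ∈ Γ₀(M)` conjugates the character. -/
theorem kd_slash_conj {w : ℤ} {χ : ↥(Gamma1 M) →* ℂˣ} {f : ℍ → ℂ}
    (hf : IsFormChar M w χ f) {γ : SL(2, ℤ)} (hγ : γ ∈ Gamma0 M) :
    IsFormChar M w (conjChar hγ χ) (f ∣[w] γ) := by
  refine ⟨hf.mdiff.slash w _, fun g => ?_, fun g => ?_⟩
  · have e : (f ∣[w] γ) ∣[w] (g : SL(2, ℤ)) = (f ∣[w] (γ * g * γ⁻¹)) ∣[w] γ := by
      rw [← SlashAction.slash_mul, ← SlashAction.slash_mul]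
      congr 1
      group
    have h := hf.slash (conjG1 hγ g)
    rw [coe_conjG1] at h
    rw [e, h, ModularForm.SL_smul_slash]
    rfl
  · rw [← SlashAction.slash_mul]
    exact hf.bdd (γ * g)

theorem kd_slash_ne_zero {w : ℤ} {f : ℍ → ℂ} (hf : f ≠ 0) (γ : SL(2, ℤ)) : f ∣[w] γ ≠ 0 := by
  intro h
  apply hf
  have e : f = (f ∣[w] γ) ∣[w] γ⁻¹ := by
    rw [← SlashAction.slash_mul, mul_inv_cancel, SlashAction.slash_one]
  rw [e, h]
  exact SlashAction.zero_slash _ _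

/-! ### the divisor -/

section Divisor

variable {K F : Type*} [Field K] [Field F] [Algebra K F]

/-- `n • D = div x` is transported by an automorphism. -/
theorem kd_isRootDiv_smul {n : ℕ} {x : F} {D : Divisor.degZero (K := K) (F := F)}
    (h : IsRootDiv n x D) (σ : F ≃ₐ[K] F) : IsRootDiv n (σ x) (Pic0.degZeroSMulHom σ D) := by
  refine ⟨fun h0 => h.1 ?_, fun v => ?_⟩
  · exact (map_eq_zero_iff σ σ.injective).1 h0
  · rw [Pic0.coe_degZeroSMulHom, Divisor.smul_apply, h.2 (σ⁻¹ • v)]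
    have h1 := Place.ord_smul σ (σ⁻¹ • v) x
    rw [smul_inv_smul] at h1
    exact h1.symm

end Divisor

/-! ### the diamond -/

variable [NeZero M]

/-- **K-DIAMOND**: the diamond automorphism `σ` of `d` maps the `θ`-class of `χ` to the `θ`-class
of the conjugate character `g ↦ χ (γ g γ⁻¹)`, `γ` a diamond matrix of `d`. -/
theorem IsTheta.diamond (hD3 : DictD3Diamond M) {d : (ZMod M)ˣ} {γ : SL(2, ℤ)}
    (hγ : IsDiamondMat M d γ) {σ : FC1 M ≃ₐ[ℂ] FC1 M} (hσ : IsDiamondC M d σ) {n : ℕ}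
    {χ : ↥(Gamma1 M) →* ℂˣ} {c : Pic0 ℂ (FC1 M)} (h : IsTheta M n χ c) :
    IsTheta M n (conjChar hγ.1 χ) (σ • c) := by
  obtain ⟨hχ, w, f, B, x, D, hf, hB, hf0, hB0, hr, hD, rfl⟩ := h
  have h1n : ∀ g : ↥(Gamma1 M), (1 : ↥(Gamma1 M) →* ℂˣ) g ^ n = 1 := fun g => by simp
  have hχ' := conjChar_pow_eq_one hγ.1 hχ
  have hf' := kd_slash_conj hf hγ.1
  have hB' : IsFormChar M w 1 (B ∣[w] γ) := by
    have := kd_slash_conj hB hγ.1
    rwa [conjChar_one] at this
  -- the modular forms `f^n`, `B^n` and their slashes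
  obtain ⟨A, hA⟩ := kd_pow_modularForm hf hχ
  obtain ⟨B₁, hB₁⟩ := kd_pow_modularForm hB h1n
  obtain ⟨A', hA'⟩ := kd_pow_modularForm hf' hχ'
  obtain ⟨B₁', hB₁'⟩ := kd_pow_modularForm hB' h1n
  have hB₁0 : B₁ ≠ 0 := by
    intro h0
    apply hr.1
    rw [← hB₁, h0]
    rfl
  have hAB : IsRatio1 M x A B₁ := by
    refine ⟨hB₁0, ?_⟩
    rw [hA, hB₁]
    exact hr.2.2
  have hA'' : ⇑A' = ⇑A ∣[(n : ℤ) * w] γ := by
    rw [hA', hA, kd_pow_slash]
  have hB'' : ⇑B₁' = ⇑B₁ ∣[(n : ℤ) * w] γ := by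
    rw [hB₁', hB₁, kd_pow_slash]
  have hratio := hD3 d σ hσ γ hγ.1 hγ.2 ((n : ℤ) * w) A B₁ x hAB A' B₁' hA'' hB''
  refine ⟨hχ', w, f ∣[w] γ, B ∣[w] γ, σ x, Pic0.degZeroSMulHom σ D, hf', hB',
    kd_slash_ne_zero hf0 γ, kd_slash_ne_zero hB0 γ, ?_, kd_isRootDiv_smul hD σ,
    (Pic0.smul_mk σ D).symm⟩
  refine ⟨?_, ⟨(n : ℤ) * w, ⟨A', hA'⟩, ⟨B₁', hB₁'⟩⟩, ?_⟩
  · intro h0
    apply hratio.1
    ext τ
    have := congrFun h0 τ
    rw [← hB₁'] at this
    exact this
  · rw [← hA', ← hB₁']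
    exact hratio.2

end Fermat.Agent.S48WA
end
end MergeWrap_S48_W_A_K_Diamond

section MergeWrap_S48_W_A_K_DiamondFinal -- from S48/W/A/K/DiamondFinal.lean

set_option autoImplicit false

noncomputable section

namespace Fermat.Agent.S48WA

open UpperHalfPlane CongruenceSubgroup ModularCurve AlgebraicCurve
open scoped MatrixGroups ModularForm Manifold
open Fermat.Agent.S23 Fermat.Agent.S48W Fermat.Agent.S48WA2 Fermat.Agent.F3I2

variable {M : ℕ} [NeZero M]

/-- the conjugate of the character of `c` is the character of `δ_d c`. -/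
theorem conjChar_charOf (hL : LatticeOne M) {d : (ZMod M)ˣ} {γ : SL(2, ℤ)}
    (hγ : IsDiamondMat M d γ) (n : ℕ) (c : HomParOne M) :
    conjChar hγ.1 (charOf n c) = charOf n (diamondHomOne M d c) := by
  ext g
  rw [conjChar_apply, charOf_apply, charOf_apply]
  have h := isDiamondHomOne_diamondHomOne hL d c γ hγ g (conjG1 hγ.1 g)
    (by rw [coe_conjG1]; group)
  rw [h]

/-- **K-DIAMOND** (final target): the graph of `κ` is equivariant for the diamonds. -/
theorem kDiamond (hL : LatticeOne M) (hD3 : DictD3Diamond M) : KDiamond M := by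
  intro n _ d σ hσ c cls h
  have hγ := diamondMat_spec M d
  have h1 := IsTheta.diamond hD3 hγ hσ h
  rwa [conjChar_charOf hL hγ] at h1

end Fermat.Agent.S48WA
end
end MergeWrap_S48_W_A_K_DiamondFinal

section MergeWrap_S48_W_A_Top -- from S48/W/A/Top.lean

set_option autoImplicit false

noncomputable section

namespace Fermat.Agent.S48WA

open ModularCurve AlgebraicCurve CongruenceSubgroup Fermat.Agent.S48W

variable (M : ℕ) [NeZero M]

/-- `κ` over `ℂ` from the two equivariances. -/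
theorem kappaCOne_of_equivariance [HasDict1 M] (hHE : KHecke M) (hDI : KDiamond M) :
    KappaCOne M :=
  kappaCOne_of (kExists M) kKernel hHE hDI

/-- **Block A, top.** -/
theorem eigenclassOne_top [HasDict1 M] (hHE : KHecke M) (hDI : KDiamond M)
    (hDesc : DescentOne M) (hDia : DiamondExistsOne M) (hL : LatticeOne M)
    (hP : PeriodEigenOne M) : EigenclassOne M :=
  eigenclassOne_of_all M hL hP
    (kappaOneAll_of M (kappaCOne_of_equivariance M hHE hDI) hDesc hDia)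

/-- **Block A, top**, with the diamond equivariance of helper22 (`kDiamond`) plugged in. -/
theorem eigenclassOne_top' [HasDict1 M] (hD3d : Fermat.Agent.S48WA2.DictD3Diamond M)
    (hHE : KHecke M) (hDesc : DescentOne M) (hDia : DiamondExistsOne M) (hL : LatticeOne M)
    (hP : PeriodEigenOne M) : EigenclassOne M :=
  eigenclassOne_top M hHE (kDiamond hL hD3d) hDesc hDia hL hP

end Fermat.Agent.S48WA
end
end MergeWrap_S48_W_A_Top
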