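import Mathlib
import Fermat.Prelude.Sol.S_UpperHalfPlane_qCoeff_heckeT
import Fermat.Prelude.Sol.S_CuspFormClass_isZeroAt_heckeT
import Fermat.Agent.MUL.S48.W.H.FF
import Fermat.Agent.MUL.F3.DictC.GlobalDatum
import Fermat.Agent.MUL.S48.W.A.InterfacesC
import Fermat.Agent.MUL.F3.I2.Descent.Final
import Fermat.Agent.MUL.F3.I2.Descent.Uncond
import Fermat.Agent.MUL.Lib.ConstExt.DescInst
import Fermat.Agent.MUL.S48.W.A.K.Ratio
import Fermat.Agent.MUL.F3.TorsFin.Exists
import Fermat.Agent.MUL.F3.I2.Char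
import Fermat.Agent.MUL.Orig.S22.GammaFG
import Fermat.Agent.MUL.S48.W.A.K.Theta
import Fermat.Agent.MUL.F3.TorsFin.CharFinite
import Fermat.Agent.MUL.S48.W.A.Inputs
import Fermat.Agent.MUL.S48.W.H.Top
import Fermat.Agent.MUL.S48.W.A.LatticeCoset
import Fermat.Agent.MUL.F3.I2.Kappa.KappaC
import Fermat.Agent.MUL.Orig.F3.I2.RootClass
import Fermat.Agent.MUL.S48.W.A.K.Asm
import Fermat.Agent.MUL.S48.W.A.Lattice
import Fermat.Agent.MUL.S21.Injective
import Fermat.Agent.MUL.S21.ReInvariant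
import Fermat.Agent.MUL.Orig.S48.W.A5.Coset
import Fermat.Agent.MUL.Orig.S48.W.A5.Hecke
import Fermat.Agent.MUL.S48.W.A5.Lattice
import Fermat.Agent.MUL.S48.W.Interfaces
import Fermat.Agent.MUL.S48.W.A.Top
import Fermat.Agent.MUL.S48.W.A.Dict.HasDict
import Fermat.Agent.MUL.S48.W.A.Dict.Diamond
import Fermat.Agent.MUL.S48.W.R.AsmAt
import Fermat.Agent.MUL.Orig.S48.Eis1.Statement

section MergeWrap_S48_W_H_FFL -- from S48/W/H/FFL.lean

set_option autoImplicit false

noncomputable section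

namespace Fermat.Agent.S48W

open ModularCurve AlgebraicCurve IntermediateField
open Fermat.Agent.S24Diff

section Generic

variable (L : Type*) [Field L] [Algebra ℚ L]

/-! ### the base `E₀ = L F₀(M)` -/

theorem coeffEmb_jq_mem_fullL (M : ℕ) [NeZero M] :
    coeffEmb L jq ∈ laurentBaseChange L (modularFunctionFieldFull M) := by
  have h := jqd_mem_full M (one_dvd M)
  rw [qExpand_one_apply] at h
  exact coeffEmb_mem_laurentBaseChange L h

/-- `j` as an element of `L F₀(M)`. -/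
def jFullL (M : ℕ) [NeZero M] : laurentBaseChange L (modularFunctionFieldFull M) :=
  ⟨coeffEmb L jq, coeffEmb_jq_mem_fullL L M⟩

/-- `j` as an element of `L F₁(M)`. -/
def jOneL (M : ℕ) [NeZero M] : laurentBaseChange L (FOne M) :=
  ⟨coeffEmb L jq, coeffEmb_mem_laurentBaseChange L (jq_mem_FOne M)⟩

/-- `j` as an element of `L F(Γ₁(M) ∩ Γ₀(p))`. -/
def jOnePL (M p : ℕ) [NeZero M] [NeZero p] : laurentBaseChange L (FOneP M p) :=
  ⟨coeffEmb L jq, coeffEmb_mem_laurentBaseChange L (FOne_le_FOneP M p (jq_mem_FOne M))⟩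

/-- the hypothesis on the base: all the `L F₀(N)` are function fields in one variable over `L`,
witnessed by `j`. -/
def BaseFunctionFieldL : Prop :=
  ∀ (N : ℕ) [NeZero N],
    IsFunctionFieldOver L (laurentBaseChange L (modularFunctionFieldFull N)) (jFullL L N)

/-- the Fricke functions are algebraic over `L F₀(M)`. -/
def FrickeAlgebraicL (M : ℕ) [NeZero M] : Prop :=
  ∀ a : ZMod M, a ≠ 0 →
    IsAlgebraic (laurentBaseChange L (modularFunctionFieldFull M)) (coeffEmb L (fricke M a))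

/-- the `ℚ`-form implies the `L`-form. -/
theorem frickeAlgebraicL_of (M : ℕ) [NeZero M] (h : FrickeAlgebraicOne M) :
    FrickeAlgebraicL L M := by
  intro a ha
  obtain ⟨P, hP0, hP⟩ := h a ha
  let ι : modularFunctionFieldFull M →+* laurentBaseChange L (modularFunctionFieldFull M) :=
    { toFun := fun x => ⟨coeffEmb L (x : LaurentSeries ℚ), coeffEmb_mem_laurentBaseChange L x.2⟩
      map_one' := Subtype.ext (map_one _)
      map_mul' := fun _ _ => Subtype.ext (map_mul _ _ _)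
      map_zero' := Subtype.ext (map_zero _)
      map_add' := fun _ _ => Subtype.ext (map_add _ _ _) }
  refine ⟨P.map ι, (Polynomial.map_ne_zero_iff ι.injective).mpr hP0, ?_⟩
  have h1 : (algebraMap (laurentBaseChange L (modularFunctionFieldFull M)) (LaurentSeries L)).comp ι
      = (coeffEmb L).comp (algebraMap (modularFunctionFieldFull M) (LaurentSeries ℚ)) :=
    RingHom.ext fun _ => rfl
  rw [Polynomial.aeval_def, Polynomial.eval₂_map, h1, ← Polynomial.hom_eval₂,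
    ← Polynomial.aeval_def, hP, map_zero]

theorem coeffEmb_divisorExpansion_mem_fullL (M : ℕ) [NeZero M] {x : LaurentSeries ℚ}
    (hx : x ∈ divisorExpansions M) :
    coeffEmb L x ∈ laurentBaseChange L (modularFunctionFieldFull M) :=
  coeffEmb_mem_laurentBaseChange L (IntermediateField.subset_adjoin ℚ _ hx)

variable {L} in
/-- every element of `L F₀(N)` is algebraic over `L F₀(M)` (both are algebraic over `L(j)`). -/
theorem isAlgebraic_fullL_of_mem_fullL (hbase : BaseFunctionFieldL L) (M N : ℕ) [NeZero M]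
    [NeZero N] {z : LaurentSeries L}
    (hz : z ∈ laurentBaseChange L (modularFunctionFieldFull N)) :
    IsAlgebraic (laurentBaseChange L (modularFunctionFieldFull M)) z :=
  isAlgebraic_of_mem_of_finite (laurentBaseChange L (modularFunctionFieldFull M))
    (laurentBaseChange L (modularFunctionFieldFull N))
    (jFullL L N) (coeffEmb_jq_mem_fullL L M) (hbase N).finite hz

/-! ### `L F₁(M)` -/

theorem foneL_le (M : ℕ) [NeZero M] :
    laurentBaseChange L (FOne M)
      ≤ adjoin L (((laurentBaseChange L (modularFunctionFieldFull M) :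
          IntermediateField L (LaurentSeries L)) : Set (LaurentSeries L))
        ∪ ⇑(coeffEmb L) '' frickeSet M) := by
  refine (laurentBaseChange_adjoin_le L (genOne M)).trans ?_
  rw [IntermediateField.adjoin_le_iff]
  rintro _ ⟨x, hx, rfl⟩
  rcases hx with hx | hx
  · exact IntermediateField.subset_adjoin L _
      (Or.inl (coeffEmb_divisorExpansion_mem_fullL L M hx))
  · exact IntermediateField.subset_adjoin L _ (Or.inr ⟨x, hx, rfl⟩)

theorem fullL_le_foneL (M : ℕ) [NeZero M] :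
    laurentBaseChange L (modularFunctionFieldFull M) ≤ laurentBaseChange L (FOne M) :=
  laurentBaseChange_mono_w L (full_le_FOne M)

variable {L} in
/-- **H-FF** over `L`, from the `L`-form of the algebraicity of the Fricke functions. -/
theorem functionFieldOneL_of_fricke (hbase : BaseFunctionFieldL L) (M : ℕ) [NeZero M]
    (h : FrickeAlgebraicL L M) :
    IsFunctionFieldOver L (laurentBaseChange L (FOne M)) (jOneL L M) := by
  haveI : Finite (⇑(coeffEmb L) '' frickeSet M) :=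
    ((finite_frickeSet M).image _).to_subtype
  have hB : ∀ b ∈ ⇑(coeffEmb L) '' frickeSet M,
      IsIntegral (laurentBaseChange L (modularFunctionFieldFull M)) b := by
    rintro _ ⟨x, ⟨a, ha, rfl⟩, rfl⟩
    exact (h a ha).isIntegral
  exact isFunctionFieldOver_of_adjoin_finite (laurentBaseChange L (modularFunctionFieldFull M))
    (laurentBaseChange L (FOne M)) (fullL_le_foneL L M) (coeffEmb L jq)
    (coeffEmb_jq_mem_fullL L M)
    (coeffEmb_mem_laurentBaseChange L (jq_mem_FOne M))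
    (hbase M) _ hB (foneL_le L M)

variable {L} in
/-- **H-FF** over `L`. -/
theorem functionFieldOneL_of (hbase : BaseFunctionFieldL L) (M : ℕ) [NeZero M]
    (h : FrickeAlgebraicOne M) :
    IsFunctionFieldOver L (laurentBaseChange L (FOne M)) (jOneL L M) :=
  functionFieldOneL_of_fricke hbase M (frickeAlgebraicL_of L M h)

/-! ### `L F(Γ₁(M) ∩ Γ₀(p))` -/

/-- the ring homomorphism `x ↦ x(q^p)` with coefficients in `L`. -/
def coeffEmbPL (p : ℕ) [NeZero p] : LaurentSeries ℚ →+* LaurentSeries L :=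
  (coeffEmb L).comp (qExpand ℚ p)

theorem coeffEmbPL_apply (p : ℕ) [NeZero p] (x : LaurentSeries ℚ) :
    coeffEmbPL L p x = coeffEmb L (qExpand ℚ p x) := rfl

theorem coeffEmbPL_eq (p : ℕ) [NeZero p] (x : LaurentSeries ℚ) :
    coeffEmbPL L p x = qExpand L p (coeffEmb L x) := coeffEmb_qExpand_w L p x

theorem coeffEmbPL_algebraMap (p : ℕ) [NeZero p] (r : ℚ) :
    coeffEmbPL L p (algebraMap ℚ (LaurentSeries ℚ) r)
      = algebraMap L (LaurentSeries L) (algebraMap ℚ L r) := by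
  rw [coeffEmbPL_apply, algebraMap_laurentSeries_eq_single, qExpand_single, mul_zero,
    ← algebraMap_laurentSeries_eq_single]
  exact coeffEmb_algebraMap_ff L r

theorem qExpand_mem_fullL (M p : ℕ) [NeZero M] [NeZero p] {z : LaurentSeries L}
    (hz : z ∈ laurentBaseChange L (modularFunctionFieldFull M)) :
    qExpand L p z ∈ laurentBaseChange L (modularFunctionFieldFull (M * p)) := by
  refine qExpand_mem_laurentBaseChange_w p (fun y hy => ?_) hz
  exact full_degeneracy_map_le M p ⟨y, hy, rfl⟩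

variable {L} in
/-- the second set of generators: the `x(q^p)`, `x` a generator of `F₁(M)`. -/
theorem isIntegral_coeffEmbPL_gen (hbase : BaseFunctionFieldL L) (M p : ℕ) [NeZero M]
    [NeZero p] (h : FrickeAlgebraicL L M) {x : LaurentSeries ℚ} (hx : x ∈ genOne M) :
    IsIntegral (laurentBaseChange L (modularFunctionFieldFull M)) (coeffEmbPL L p x) := by
  haveI : NeZero (M * p) := ⟨Nat.mul_ne_zero (NeZero.ne M) (NeZero.ne p)⟩
  rcases hx with hx | ⟨a, ha, rfl⟩
  · -- `j(q^{p d})`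
    apply IsAlgebraic.isIntegral
    apply isAlgebraic_fullL_of_mem_fullL hbase M (M * p)
    rw [coeffEmbPL_eq]
    exact qExpand_mem_fullL L M p (coeffEmb_divisorExpansion_mem_fullL L M hx)
  · -- `fricke(q^p)`
    apply IsAlgebraic.isIntegral
    rw [coeffEmbPL_eq]
    exact isAlgebraic_ringHom_of_isAlgebraic (laurentBaseChange L (modularFunctionFieldFull M))
      (laurentBaseChange L (modularFunctionFieldFull (M * p))) (qExpand L p)
      (fun e he => qExpand_mem_fullL L M p he)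
      (fun z hz => isAlgebraic_fullL_of_mem_fullL hbase M (M * p) hz) (h a ha)

theorem fonePL_le (M p : ℕ) [NeZero M] [NeZero p] :
    laurentBaseChange L (FOneP M p)
      ≤ adjoin L (((laurentBaseChange L (modularFunctionFieldFull M) :
          IntermediateField L (LaurentSeries L)) : Set (LaurentSeries L))
        ∪ (⇑(coeffEmb L) '' frickeSet M ∪ ⇑(coeffEmbPL L p) '' genOne M)) := by
  refine (laurentBaseChange_adjoin_le L _).trans ?_
  rw [IntermediateField.adjoin_le_iff]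
  rintro _ ⟨x, hx, rfl⟩
  rcases hx with hx | ⟨y, hy, rfl⟩
  · -- `x ∈ F₁(M)`
    have h1 : coeffEmb L x ∈ laurentBaseChange L (FOne M) :=
      coeffEmb_mem_laurentBaseChange L hx
    have h2 := foneL_le L M h1
    refine IntermediateField.adjoin.mono L _ _ ?_ h2
    rintro z (hz | hz)
    · exact Or.inl hz
    · exact Or.inr (Or.inl hz)
  · -- `x = y(q^p)`, `y ∈ F₁(M)`
    have h1 := ringHom_mem_adjoin_of_mem_adjoin L (coeffEmbPL L p) (coeffEmbPL_algebraMap L p)
      (genOne M) hy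
    refine IntermediateField.adjoin.mono L _ _ ?_ h1
    intro z hz
    exact Or.inr (Or.inr hz)

theorem fullL_le_fonePL (M p : ℕ) [NeZero M] [NeZero p] :
    laurentBaseChange L (modularFunctionFieldFull M) ≤ laurentBaseChange L (FOneP M p) :=
  laurentBaseChange_mono_w L ((full_le_FOne M).trans (FOne_le_FOneP M p))

variable {L} in
/-- **H-FF** for the level `Γ₁(M) ∩ Γ₀(p)` over `L`, from the `L`-form of the algebraicity of
the Fricke functions. -/
theorem functionFieldOnePL_of_fricke (hbase : BaseFunctionFieldL L) (M p : ℕ) [NeZero M]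
    [NeZero p] (h : FrickeAlgebraicL L M) :
    IsFunctionFieldOver L (laurentBaseChange L (FOneP M p)) (jOnePL L M p) := by
  haveI : Finite (⇑(coeffEmb L) '' frickeSet M ∪ ⇑(coeffEmbPL L p) '' genOne M :
      Set (LaurentSeries L)) :=
    (((finite_frickeSet M).image _).union ((finite_genOne M).image _)).to_subtype
  have hB : ∀ b ∈ (⇑(coeffEmb L) '' frickeSet M ∪ ⇑(coeffEmbPL L p) '' genOne M :
      Set (LaurentSeries L)),
      IsIntegral (laurentBaseChange L (modularFunctionFieldFull M)) b := by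
    rintro _ (⟨x, ⟨a, ha, rfl⟩, rfl⟩ | ⟨x, hx, rfl⟩)
    · exact (h a ha).isIntegral
    · exact isIntegral_coeffEmbPL_gen hbase M p h hx
  exact isFunctionFieldOver_of_adjoin_finite (laurentBaseChange L (modularFunctionFieldFull M))
    (laurentBaseChange L (FOneP M p)) (fullL_le_fonePL L M p) (coeffEmb L jq)
    (coeffEmb_jq_mem_fullL L M)
    (coeffEmb_mem_laurentBaseChange L (FOne_le_FOneP M p (jq_mem_FOne M)))
    (hbase M) _ hB (fonePL_le L M p)

variable {L} in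
/-- **H-FF** for the level `Γ₁(M) ∩ Γ₀(p)` over `L`. -/
theorem functionFieldOnePL_of (hbase : BaseFunctionFieldL L) (M p : ℕ) [NeZero M] [NeZero p]
    (h : FrickeAlgebraicOne M) :
    IsFunctionFieldOver L (laurentBaseChange L (FOneP M p)) (jOnePL L M p) :=
  functionFieldOnePL_of_fricke hbase M p (frickeAlgebraicL_of L M h)

end Generic

/-! ### `L = ℂ` -/

/-- the base over `ℂ`: `ℂ F₀(N)` is a function field in one variable (dictionary of `X₀(N)`). -/
theorem baseFunctionFieldC : BaseFunctionFieldL ℂ := fun N _ =>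
  Fermat.Agent.F3Dict.isFunctionFieldOver_jBar N

/-- **H-FF over `ℂ`**: `ℂ F₁(M)` is a function field in one variable, witnessed by `j`. -/
theorem functionFieldOneC_of (M : ℕ) [NeZero M] (h : FrickeAlgebraicOne M) :
    IsFunctionFieldOver ℂ (laurentBaseChange ℂ (FOne M)) (jOneL ℂ M) :=
  functionFieldOneL_of baseFunctionFieldC M h

/-- **H-FF over `ℂ`** for the level `Γ₁(M) ∩ Γ₀(p)`. -/
theorem functionFieldOnePC_of (M p : ℕ) [NeZero M] [NeZero p] (h : FrickeAlgebraicOne M) :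
    IsFunctionFieldOver ℂ (laurentBaseChange ℂ (FOneP M p)) (jOnePL ℂ M p) :=
  functionFieldOnePL_of baseFunctionFieldC M p h

end Fermat.Agent.S48W
end
end MergeWrap_S48_W_H_FFL

section MergeWrap_S48_W_A_Desc -- from S48/W/A/Desc.lean

set_option autoImplicit false
set_option linter.style.haveILetI false
set_option linter.unusedSectionVars false

noncomputable section

namespace Fermat.Agent.S48WA

open ModularCurve AlgebraicCurve IntermediateField Fermat.Agent.S48W Fermat.Agent.F3I2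
  Fermat.Agent.RR Fermat.Agent.S24Diff

local notation "Kb" => AlgebraicClosure ℚ

/-! ### finite extensions of function fields in one variable -/

section FF

variable {K F F' : Type*} [Field K] [Field F] [Field F'] [Algebra K F] [Algebra K F']

/-- a finite extension of a function field in one variable is a function field in one
variable. -/
theorem desc_isFunctionFieldOver_map (φ : F →ₐ[K] F') (hfin : FiniteAlong K φ) {x : F}
    (h : IsFunctionFieldOver K F x) : IsFunctionFieldOver K F' (φ x) := by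
  refine ⟨fun h' => h.transcendental ((isAlgebraic_algHom_iff φ φ.injective).mp h'), ?_⟩
  letI := algebraAlong φ
  haveI := isScalarTower_along φ
  haveI : Module.Finite F F' := hfin
  haveI := h.finite
  letI : Algebra K⟮x⟯ F' := ((algebraMap F F').comp (algebraMap K⟮x⟯ F)).toAlgebra
  haveI : IsScalarTower K⟮x⟯ F F' := IsScalarTower.of_algebraMap_eq fun _ => rfl
  haveI : Module.Finite K⟮x⟯ F' := Module.Finite.trans F F'
  obtain ⟨S, hS⟩ := Module.Finite.fg_top (R := K⟮x⟯) (M := F')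
  refine ⟨⟨S, ?_⟩⟩
  rw [eq_top_iff]
  rintro z -
  have hz : z ∈ Submodule.span K⟮x⟯ (S : Set F') := by
    rw [hS]
    trivial
  induction hz using Submodule.span_induction with
  | mem w hw => exact Submodule.subset_span hw
  | zero => exact zero_mem _
  | add a b _ _ ha hb => exact add_mem ha hb
  | smul c w _ hw =>
    have hc : φ (c : F) ∈ K⟮φ x⟯ := by
      have h1 : φ (c : F) ∈ (K⟮x⟯).map φ := ⟨c, c.2, rfl⟩
      rw [IntermediateField.adjoin_map, Set.image_singleton] at h1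
      exact h1
    have h1 : c • w = (⟨φ (c : F), hc⟩ : K⟮φ x⟯) • w := rfl
    rw [h1]
    exact Submodule.smul_mem _ _ hw

/-- all places of a finite extension of an `IsRRField` over an algebraically closed field have
degree one. -/
theorem desc_deg_one_of_finiteAlong [IsAlgClosed K] (hF : IsRRField K F) (φ : F →ₐ[K] F')
    (hfin : FiniteAlong K φ) (v : Place K F') : v.deg = 1 := by
  obtain ⟨x, hx, hfd, -⟩ := hF.exists_x
  exact Fermat.Agent.S24Res.deg_eq_one (desc_isFunctionFieldOver_map φ hfin ⟨hx, hfd⟩) v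

end FF

/-! ### `bc` commutes with the norm correspondence of `q`-series fields -/

section Generic

variable {K K' : Type*} [Field K] [Field K'] [Algebra ℚ K] [Algebra ℚ K'] [Algebra K K']
variable {F₀ F₁ : IntermediateField ℚ (LaurentSeries ℚ)}

theorem descTheta_qSeriesAlpha (h : F₀ ≤ F₁) (f : laurentBaseChange K F₀) :
    descTheta K K' F₁ (qSeriesAlpha K h f) = qSeriesAlpha K' h (descTheta K K' F₀ f) := by
  apply Subtype.ext
  simp only [coe_descTheta, coe_qSeriesAlpha]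

theorem descTheta_qSeriesBeta (p : ℕ) [NeZero p] (hF : ∀ y ∈ F₀, qExpand ℚ p y ∈ F₁)
    (f : laurentBaseChange K F₀) :
    descTheta K K' F₁ (qSeriesBeta K p hF f) = qSeriesBeta K' p hF (descTheta K K' F₀ f) := by
  apply Subtype.ext
  simp only [coe_descTheta, coe_qSeriesBeta]
  exact coeffMap_qExpand_w _ p _

/-- **`bc` commutes with the norm correspondence** `qSeriesHecke`. -/
theorem desc_bc_qSeriesHecke (P₁ : DescPlaces K K' F₀) (P₂ : DescPlaces K K' F₁) (h : F₀ ≤ F₁)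
    (p : ℕ) [NeZero p] (hF : ∀ y ∈ F₀, qExpand ℚ p y ∈ F₁)
    (hK₁ : IsRRField K (laurentBaseChange K F₀))
    (hK₁' : IsRRField K' (laurentBaseChange K' F₀))
    (hK₂ : ∀ v : Place K (laurentBaseChange K F₁), v.deg = 1)
    (hK₂' : ∀ v : Place K' (laurentBaseChange K' F₁), v.deg = 1)
    (hH : QSeriesInputs K h p hF) (hH' : QSeriesInputs K' h p hF)
    (x : Pic0 K (laurentBaseChange K F₀)) :
    P₁.bc hK₁ hK₁' (qSeriesHecke K h p hF x)
      = qSeriesHecke K' h p hF (P₁.bc hK₁ hK₁' x) := by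
  rw [qSeriesHecke, dif_pos hH, qSeriesHecke, dif_pos hH']
  haveI := hH.snd.snd.fst
  haveI := hH'.snd.snd.fst
  exact P₁.bc_correspondence P₂ (qSeriesBeta K p hF) (qSeriesAlpha K h)
    (qSeriesBeta K' p hF) (qSeriesAlpha K' h) hH.snd.fst hH'.snd.fst hH.fst hH'.fst
    (descTheta_qSeriesBeta p hF) (descTheta_qSeriesAlpha h) hK₁ hK₁' hK₂ hK₂'
    hH.snd.snd.snd.snd.1 hH.snd.snd.snd.fst hH.snd.snd.snd.snd.2
    hH'.snd.snd.snd.snd.1 hH'.snd.snd.snd.fst hH'.snd.snd.snd.snd.2 x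

end Generic

/-! ### the descent for `X₁(M)` -/

section One

variable (M : ℕ) [NeZero M]

/-- the place extension data `ℚ̄ ⊂ ℂ` for `F₁(M)`. -/
def descPlacesOne (hQ : IsRRField Kb (FOneBar M)) :
    @DescPlaces Kb ℂ _ _ _ _ descAlgebraQbarC (FOne M) :=
  letI := descAlgebraQbarC
  Fermat.Agent.ConstExt.descPlacesOfRR Kb ℂ (FOne M) hQ

/-- **the base change** `J₁(M)(ℚ̄) = Pic⁰ (ℚ̄ F₁(M)) →+ Pic⁰ (ℂ F₁(M))`. -/
def descBcOne (hQ : IsRRField Kb (FOneBar M)) (hC : IsRRField ℂ (FC1 M)) :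
    JOne M →+ Pic0 ℂ (FC1 M) :=
  letI := descAlgebraQbarC
  (descPlacesOne M hQ).bc hQ hC

/-- **`bc` is injective.** -/
theorem descBcOne_injective (hQ : IsRRField Kb (FOneBar M)) (hC : IsRRField ℂ (FC1 M)) :
    Function.Injective (descBcOne M hQ hC) :=
  letI := descAlgebraQbarC
  (descPlacesOne M hQ).bc_injective hQ hC

/-- **`bc` is onto the `n`-torsion** as soon as the `n`-torsion over `ℂ` is finite. -/
theorem descBcOne_surjective_torsion (hQ : IsRRField Kb (FOneBar M))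
    (hC : IsRRField ℂ (FC1 M)) (n : ℕ) (hn : 0 < n)
    (hfin : {c : Pic0 ℂ (FC1 M) | n • c = 0}.Finite)
    (x' : Pic0 ℂ (FC1 M)) (hx' : n • x' = 0) :
    ∃ x : JOne M, descBcOne M hQ hC x = x' ∧ n • x = 0 :=
  letI := descAlgebraQbarC
  (descPlacesOne M hQ).bc_surjective_torsion hQ hC n hn hfin x' hx'

/-- **`bc` commutes with `T_p`.** -/
theorem descBcOne_heckeOne (hQ : IsRRField Kb (FOneBar M)) (hC : IsRRField ℂ (FC1 M))
    (p : Nat.Primes)
    (hHQ : haveI : NeZero (p : ℕ) := ⟨p.2.ne_zero⟩; HeckeInputsOne M p)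
    (hHC : haveI : NeZero (p : ℕ) := ⟨p.2.ne_zero⟩; HeckeInputsOneC M p) (y : JOne M) :
    descBcOne M hQ hC (heckeOne M p y) = heckeOneC M p (descBcOne M hQ hC y) := by
  letI := descAlgebraQbarC
  haveI : NeZero (p : ℕ) := ⟨p.2.ne_zero⟩
  have hK₂ : ∀ v : Place Kb (laurentBaseChange Kb (FOneP M p)), v.deg = 1 :=
    desc_deg_one_of_finiteAlong hQ (qSeriesAlpha Kb (FOne_le_FOneP M p)) hHQ.snd.snd.snd.fst
  have hK₂' : ∀ v : Place ℂ (laurentBaseChange ℂ (FOneP M p)), v.deg = 1 :=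
    desc_deg_one_of_finiteAlong hC (qSeriesAlpha ℂ (FOne_le_FOneP M p)) hHC.snd.snd.snd.fst
  exact desc_bc_qSeriesHecke (descPlacesOne M hQ)
    (Fermat.Agent.ConstExt.descPlaces Kb ℂ (FOneP M p)
      (Fermat.Agent.ConstExt.resConst_of_deg_one hK₂))
    (FOne_le_FOneP M p) p (fun _ hy => qExpand_mem_FOneP M p hy) hQ hC hK₂ hK₂' hHQ hHC y

/-- **(A4) the descent**, modulo the compatibility with the diamond automorphisms
(seat DESC-AUT). -/
theorem descentOne_of_aut (hQ : IsRRField Kb (FOneBar M)) (hC : IsRRField ℂ (FC1 M))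
    (hfin : ∀ n : ℕ, n ≠ 0 → {c : Pic0 ℂ (FC1 M) | n • c = 0}.Finite)
    (hHQ : ∀ p : Nat.Primes, Nat.Coprime (p : ℕ) M →
      haveI : NeZero (p : ℕ) := ⟨p.2.ne_zero⟩; HeckeInputsOne M p)
    (hHC : ∀ p : Nat.Primes, Nat.Coprime (p : ℕ) M →
      haveI : NeZero (p : ℕ) := ⟨p.2.ne_zero⟩; HeckeInputsOneC M p)
    (hAut : ∀ (d : (ZMod M)ˣ) (σ : FOneBar M ≃ₐ[Kb] FOneBar M) (σ' : FC1 M ≃ₐ[ℂ] FC1 M),
      IsDiamond M d σ → Fermat.Agent.S48WA2.IsDiamondC M d σ' →
        ∀ y : JOne M, descBcOne M hQ hC (σ • y) = σ' • descBcOne M hQ hC y) :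
    DescentOne M :=
  ⟨descBcOne M hQ hC, descBcOne_injective M hQ hC,
    fun n hn x' hx' =>
      (descBcOne_surjective_torsion M hQ hC n hn (hfin n hn.ne') x' hx').imp fun _ h => h.1,
    fun p hp y => descBcOne_heckeOne M hQ hC p (hHQ p hp) (hHC p hp) y,
    hAut⟩

end One

end Fermat.Agent.S48WA
end
end MergeWrap_S48_W_A_Desc

section MergeWrap_S48_W_A_DescAut -- from S48/W/A/DescAut.lean

set_option autoImplicit false
set_option linter.style.haveILetI false

noncomputable section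

namespace Fermat.Agent.S48WA

open ModularCurve HahnSeries AlgebraicCurve Fermat.Agent.RR Fermat.Agent.F3I2 Fermat.Agent.S48W
open Fermat.Agent.S48WA2 (IsDiamondC)

local notation "Kb" => AlgebraicClosure ℚ

section Generic

variable {K K' : Type*} [Field K] [Field K'] [Algebra ℚ K] [Algebra ℚ K'] [Algebra K K']
variable {F₀ : IntermediateField ℚ (LaurentSeries ℚ)}

/-- The extension of places commutes with intertwined automorphisms. -/
theorem descAut_ext_smul (P : DescPlaces K K' F₀)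
    (σ : laurentBaseChange K F₀ ≃ₐ[K] laurentBaseChange K F₀)
    (σ' : laurentBaseChange K' F₀ ≃ₐ[K'] laurentBaseChange K' F₀)
    (h : ∀ f, descTheta K K' F₀ (σ f) = σ' (descTheta K K' F₀ f))
    (v : Place K (laurentBaseChange K F₀)) : P.ext (σ • v) = σ' • P.ext v := by
  refine (P.eq_ext_of_ord (σ • v) (σ' • P.ext v) fun f => ?_).symm
  obtain ⟨g, rfl⟩ := σ.surjective f
  rw [h g, Place.ord_smul, Place.ord_smul, P.ord_ext]

/-- The base change of divisors commutes with intertwined automorphisms. -/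
theorem descAut_bcDiv_smul (P : DescPlaces K K' F₀)
    (σ : laurentBaseChange K F₀ ≃ₐ[K] laurentBaseChange K F₀)
    (σ' : laurentBaseChange K' F₀ ≃ₐ[K'] laurentBaseChange K' F₀)
    (h : ∀ f, descTheta K K' F₀ (σ f) = σ' (descTheta K K' F₀ f))
    (D : Divisor K (laurentBaseChange K F₀)) : P.bcDiv (σ • D) = σ' • P.bcDiv D := by
  induction D using Finsupp.induction with
  | zero => simp
  | single_add v n D _ _ ih =>
    rw [smul_add, map_add, map_add, smul_add, ih, Divisor.smul_single, DescPlaces.bcDiv_single,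
      DescPlaces.bcDiv_single, Divisor.smul_single, descAut_ext_smul P σ σ' h]

/-- **The base change of divisor classes commutes with intertwined automorphisms.** -/
theorem bc_smul_of_comm (P : DescPlaces K K' F₀)
    (hK : IsRRField K (laurentBaseChange K F₀)) (hK' : IsRRField K' (laurentBaseChange K' F₀))
    (σ : laurentBaseChange K F₀ ≃ₐ[K] laurentBaseChange K F₀)
    (σ' : laurentBaseChange K' F₀ ≃ₐ[K'] laurentBaseChange K' F₀)
    (h : ∀ f, descTheta K K' F₀ (σ f) = σ' (descTheta K K' F₀ f))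
    (y : Pic0 K (laurentBaseChange K F₀)) : P.bc hK hK' (σ • y) = σ' • P.bc hK hK' y := by
  obtain ⟨D, rfl⟩ := Pic0.mk_surjective y
  rw [Pic0.smul_mk, DescPlaces.bc_mk, DescPlaces.bc_mk, Pic0.smul_mk]
  congr 1
  apply Subtype.ext
  rw [DescPlaces.coe_bcDegZero, Pic0.coe_degZeroSMulHom, Pic0.coe_degZeroSMulHom,
    DescPlaces.coe_bcDegZero]
  exact descAut_bcDiv_smul P σ σ' h (D : Divisor K _)

/-- Two ring homomorphisms on `K F₀` which agree on the constants and on the `q`-series with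
rational coefficients agree. -/
theorem descAut_ringHom_ext {R : Type*} [Field R]
    (A B : laurentBaseChange K F₀ →+* R)
    (hconst : ∀ a : K, A (algebraMap K _ a) = B (algebraMap K _ a))
    (hrat : ∀ (x : LaurentSeries ℚ) (hx : x ∈ F₀),
      A ⟨coeffEmb K x, coeffEmb_mem_laurentBaseChange K hx⟩
        = B ⟨coeffEmb K x, coeffEmb_mem_laurentBaseChange K hx⟩)
    (f : laurentBaseChange K F₀) : A f = B f := by
  obtain ⟨z, hz⟩ := f
  have key : ∀ (z : LaurentSeries K)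
      (_ : z ∈ Subfield.closure (Set.range (algebraMap K (LaurentSeries K)) ∪
        (⇑(coeffEmb K) '' (F₀ : Set (LaurentSeries ℚ)))))
      (hz' : z ∈ laurentBaseChange K F₀), A ⟨z, hz'⟩ = B ⟨z, hz'⟩ := by
    intro z hz
    induction hz using Subfield.closure_induction with
    | mem y hy =>
      intro hz'
      rcases hy with ⟨a, rfl⟩ | ⟨x, hx, rfl⟩
      · exact hconst a
      · exact hrat x hx
    | one =>
      intro hz'
      have e : (⟨1, hz'⟩ : laurentBaseChange K F₀) = 1 := rfl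
      rw [e, map_one, map_one]
    | add x y hx hy ihx ihy =>
      intro hz'
      have hx' : x ∈ laurentBaseChange K F₀ := mem_laurentBaseChange_iff.2 hx
      have hy' : y ∈ laurentBaseChange K F₀ := mem_laurentBaseChange_iff.2 hy
      have e : (⟨x + y, hz'⟩ : laurentBaseChange K F₀) = ⟨x, hx'⟩ + ⟨y, hy'⟩ := rfl
      rw [e, map_add, map_add, ihx hx', ihy hy']
    | neg x hx ihx =>
      intro hz'
      have hx' : x ∈ laurentBaseChange K F₀ := mem_laurentBaseChange_iff.2 hx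
      have e : (⟨-x, hz'⟩ : laurentBaseChange K F₀) = -⟨x, hx'⟩ := rfl
      rw [e, map_neg, map_neg, ihx hx']
    | inv x hx ihx =>
      intro hz'
      have hx' : x ∈ laurentBaseChange K F₀ := mem_laurentBaseChange_iff.2 hx
      have e : (⟨x⁻¹, hz'⟩ : laurentBaseChange K F₀) = (⟨x, hx'⟩)⁻¹ := rfl
      rw [e, map_inv₀, map_inv₀, ihx hx']
    | mul x y hx hy ihx ihy =>
      intro hz'
      have hx' : x ∈ laurentBaseChange K F₀ := mem_laurentBaseChange_iff.2 hx
      have hy' : y ∈ laurentBaseChange K F₀ := mem_laurentBaseChange_iff.2 hy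
      have e : (⟨x * y, hz'⟩ : laurentBaseChange K F₀) = ⟨x, hx'⟩ * ⟨y, hy'⟩ := rfl
      rw [e, map_mul, map_mul, ihx hx', ihy hy']
  exact key z (mem_laurentBaseChange_iff.1 hz) hz

/-- The embedding `F₀ → K F₀` of the `q`-series with rational coefficients. -/
def descAutEmb (K : Type*) [Field K] [Algebra ℚ K] (F₀ : IntermediateField ℚ (LaurentSeries ℚ)) :
    F₀ →+* laurentBaseChange K F₀ where
  toFun x := ⟨coeffEmb K (x : LaurentSeries ℚ), coeffEmb_mem_laurentBaseChange K x.2⟩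
  map_one' := Subtype.ext (map_one (coeffEmb K))
  map_zero' := Subtype.ext (map_zero (coeffEmb K))
  map_mul' _ _ := Subtype.ext (map_mul (coeffEmb K) _ _)
  map_add' _ _ := Subtype.ext (map_add (coeffEmb K) _ _)

theorem descAutEmb_apply (x : LaurentSeries ℚ) (hx : x ∈ F₀) :
    descAutEmb K F₀ ⟨x, hx⟩ = ⟨coeffEmb K x, coeffEmb_mem_laurentBaseChange K hx⟩ := rfl

/-- Two ring homomorphisms on `ℚ(G)` which agree on `G` agree. -/
theorem descAut_ringHom_ext_adjoin {R : Type*} [Field R] [CharZero R] {G : Set (LaurentSeries ℚ)}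
    (φ ψ : IntermediateField.adjoin ℚ G →+* R)
    (h : ∀ (x : LaurentSeries ℚ) (hx : x ∈ G),
      φ ⟨x, IntermediateField.subset_adjoin ℚ G hx⟩ = ψ ⟨x, IntermediateField.subset_adjoin ℚ G hx⟩)
    (f : IntermediateField.adjoin ℚ G) : φ f = ψ f := by
  obtain ⟨z, hz⟩ := f
  induction hz using IntermediateField.adjoin_induction with
  | mem x hx => exact h x hx
  | algebraMap a =>
    have e : (⟨algebraMap ℚ (LaurentSeries ℚ) a, IntermediateField.algebraMap_mem _ a⟩ :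
        IntermediateField.adjoin ℚ G) = ((a : ℚ) : IntermediateField.adjoin ℚ G) := by
      apply Subtype.ext
      simp
    rw [e, map_ratCast, map_ratCast]
  | add x y hx hy ihx ihy =>
    have e : (⟨x + y, add_mem hx hy⟩ : IntermediateField.adjoin ℚ G) = ⟨x, hx⟩ + ⟨y, hy⟩ := rfl
    rw [e, map_add, map_add, ihx, ihy]
  | inv x hx ihx =>
    have e : (⟨x⁻¹, inv_mem hx⟩ : IntermediateField.adjoin ℚ G) = (⟨x, hx⟩)⁻¹ := rfl
    rw [e, map_inv₀, map_inv₀, ihx]
  | mul x y hx hy ihx ihy =>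
    have e : (⟨x * y, mul_mem hx hy⟩ : IntermediateField.adjoin ℚ G) = ⟨x, hx⟩ * ⟨y, hy⟩ := rfl
    rw [e, map_mul, map_mul, ihx, ihy]

/-- Two ring homomorphisms on `F₀ = ℚ(G)` which agree on `G` agree. -/
theorem descAut_ringHom_ext_gen {R : Type*} [Field R] [CharZero R] {G : Set (LaurentSeries ℚ)}
    (hG : F₀ = IntermediateField.adjoin ℚ G) (φ ψ : F₀ →+* R)
    (h : ∀ (x : LaurentSeries ℚ) (_ : x ∈ G) (hx' : x ∈ F₀), φ ⟨x, hx'⟩ = ψ ⟨x, hx'⟩)
    (f : F₀) : φ f = ψ f := by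
  subst hG
  exact descAut_ringHom_ext_adjoin φ ψ (fun x hx => h x hx _) f

/-- **Intertwining from the generators**: if `σ` and `σ'` map every generator `x ∈ G` of
`F₀ = ℚ(G)` to the same element `y ∈ F₀`, then `θ ∘ σ = σ' ∘ θ`. -/
theorem descAut_intertwine_of_gen [CharZero K'] {G : Set (LaurentSeries ℚ)}
    (hG : F₀ = IntermediateField.adjoin ℚ G)
    (σ : laurentBaseChange K F₀ ≃ₐ[K] laurentBaseChange K F₀)
    (σ' : laurentBaseChange K' F₀ ≃ₐ[K'] laurentBaseChange K' F₀)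
    (hgen : ∀ x ∈ G, ∃ y ∈ F₀,
      (∀ (h₁ : coeffEmb K x ∈ laurentBaseChange K F₀)
          (h₂ : coeffEmb K y ∈ laurentBaseChange K F₀),
        σ ⟨coeffEmb K x, h₁⟩ = ⟨coeffEmb K y, h₂⟩) ∧
      ∀ (h₁ : coeffEmb K' x ∈ laurentBaseChange K' F₀)
          (h₂ : coeffEmb K' y ∈ laurentBaseChange K' F₀),
        σ' ⟨coeffEmb K' x, h₁⟩ = ⟨coeffEmb K' y, h₂⟩)
    (f : laurentBaseChange K F₀) :
    descTheta K K' F₀ (σ f) = σ' (descTheta K K' F₀ f) := by
  let A : laurentBaseChange K F₀ →+* laurentBaseChange K' F₀ :=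
    (descTheta K K' F₀).comp (σ : laurentBaseChange K F₀ →+* laurentBaseChange K F₀)
  let B : laurentBaseChange K F₀ →+* laurentBaseChange K' F₀ :=
    (σ' : laurentBaseChange K' F₀ →+* laurentBaseChange K' F₀).comp (descTheta K K' F₀)
  show A f = B f
  refine descAut_ringHom_ext A B (fun a => ?_) (fun x hx => ?_) f
  · show descTheta K K' F₀ (σ (algebraMap K _ a)) = σ' (descTheta K K' F₀ (algebraMap K _ a))
    rw [σ.commutes, descTheta_algebraMap, σ'.commutes]
  · refine descAut_ringHom_ext_gen hG (A.comp (descAutEmb K F₀)) (B.comp (descAutEmb K F₀))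
      (fun x hx hxF => ?_) ⟨x, hx⟩
    obtain ⟨y, hy, h₁, h₂⟩ := hgen x hx
    show descTheta K K' F₀ (σ ⟨coeffEmb K x, coeffEmb_mem_laurentBaseChange K hxF⟩)
      = σ' (descTheta K K' F₀ ⟨coeffEmb K x, coeffEmb_mem_laurentBaseChange K hxF⟩)
    rw [h₁ _ (coeffEmb_mem_laurentBaseChange K hy), descTheta_coeffEmb K K' F₀ hy,
      descTheta_coeffEmb K K' F₀ hxF, h₂ _ (coeffEmb_mem_laurentBaseChange K' hy)]

end Generic

/-! ### the diamonds of `X₁(M)` -/

section Diamond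

variable (M : ℕ) [NeZero M]

/-- **The diamond automorphisms over `ℚ̄` and over `ℂ` are intertwined by `θ`.** -/
theorem descTheta_diamond_comm (d : (ZMod M)ˣ) (σ : FOneBar M ≃ₐ[Kb] FOneBar M)
    (σ' : FC1 M ≃ₐ[ℂ] FC1 M) (hσ : IsDiamond M d σ) (hσ' : IsDiamondC M d σ')
    (f : FOneBar M) :
    letI := descAlgebraQbarC
    descTheta Kb ℂ (FOne M) (σ f) = σ' (descTheta Kb ℂ (FOne M) f) := by
  letI := descAlgebraQbarC
  refine descAut_intertwine_of_gen (K := Kb) (K' := ℂ) (G := genOne M) rfl σ σ' ?_ f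
  rintro x (hx | ⟨a, ha, rfl⟩)
  · refine ⟨x, IntermediateField.subset_adjoin ℚ _ (Or.inl hx), fun h₁ h₂ => ?_, fun h₁ h₂ => ?_⟩
    · exact hσ.1 x hx h₁
    · exact hσ'.1 x hx h₁
  · have hda : (d : ZMod M) * a ≠ 0 := by
      intro h0
      apply ha
      have := congrArg (fun t => ((d⁻¹ : (ZMod M)ˣ) : ZMod M) * t) h0
      simpa using this
    refine ⟨fricke M ((d : ZMod M) * a), fricke_mem M hda, fun h₁ h₂ => ?_, fun h₁ h₂ => ?_⟩
    · exact hσ.2 a ha h₁ h₂
    · exact hσ'.2 a ha h₁ h₂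

/-- **`bc` commutes with the diamonds**, for every system of place extensions `ℚ̄ ⊂ ℂ`. -/
theorem descAut_bc_diamond
    (P : @DescPlaces Kb ℂ _ _ _ _ descAlgebraQbarC (FOne M))
    (hQ : IsRRField Kb (FOneBar M)) (hC : IsRRField ℂ (FC1 M))
    (d : (ZMod M)ˣ) (σ : FOneBar M ≃ₐ[Kb] FOneBar M) (σ' : FC1 M ≃ₐ[ℂ] FC1 M)
    (hσ : IsDiamond M d σ) (hσ' : IsDiamondC M d σ') (y : JOne M) :
    letI := descAlgebraQbarC
    P.bc hQ hC (σ • y) = σ' • P.bc hQ hC y := by
  letI := descAlgebraQbarC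
  exact bc_smul_of_comm P hQ hC σ σ' (descTheta_diamond_comm M d σ σ' hσ hσ') y

end Diamond

end Fermat.Agent.S48WA
end
end MergeWrap_S48_W_A_DescAut

section MergeWrap_S48_W_A_DescFinal -- from S48/W/A/DescFinal.lean

set_option autoImplicit false
set_option linter.style.haveILetI false

noncomputable section

namespace Fermat.Agent.S48WA

open ModularCurve AlgebraicCurve Fermat.Agent.S48W Fermat.Agent.F3I2 Fermat.Agent.RR

local notation "Kb" => AlgebraicClosure ℚ

/-- **(A4) the descent `ℂ → ℚ̄` for `X₁(M)`.** -/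
theorem descentOne_of (M : ℕ) [NeZero M] (hQ : IsRRField Kb (FOneBar M))
    (hC : IsRRField ℂ (FC1 M))
    (hfin : ∀ n : ℕ, n ≠ 0 → {c : Pic0 ℂ (FC1 M) | n • c = 0}.Finite)
    (hHQ : ∀ p : Nat.Primes, Nat.Coprime (p : ℕ) M →
      haveI : NeZero (p : ℕ) := ⟨p.2.ne_zero⟩; HeckeInputsOne M p)
    (hHC : ∀ p : Nat.Primes, Nat.Coprime (p : ℕ) M →
      haveI : NeZero (p : ℕ) := ⟨p.2.ne_zero⟩; HeckeInputsOneC M p) :
    DescentOne M :=
  descentOne_of_aut M hQ hC hfin hHQ hHC fun d σ σ' hσ hσ' y =>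
    descAut_bc_diamond M (descPlacesOne M hQ) hQ hC d σ σ' hσ hσ' y

end Fermat.Agent.S48WA
end
end MergeWrap_S48_W_A_DescFinal

section MergeWrap_S48_W_A_TorsFinOrd -- from S48/W/A/TorsFinOrd.lean

set_option autoImplicit false
set_option linter.unusedSectionVars false

noncomputable section

namespace Fermat.Agent.S48WA

open UpperHalfPlane CongruenceSubgroup ModularCurve AlgebraicCurve
open scoped MatrixGroups ModularForm Manifold
open Fermat.Agent.S23 Fermat.Agent.S48W Fermat.Agent.S48WA2 Fermat.Agent.F3I2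
open Fermat.Agent.S28 Fermat.Agent.S28.QExp
open Fermat.Agent.F3TF (IsOrdFun min_ordAt_le_ordAt_add ordAt_const_smul_one ordAt_one)

variable {N : ℕ} [NeZero N]

theorem tfin_mdiff_of_isMF {w : ℤ} {f : ℍ → ℂ} (hf : IsMF (G1 N) w f) : MDiff f := by
  obtain ⟨F, rfl⟩ := hf
  exact F.holo'

/-- Sum of two ratios. -/
theorem tfin_isRatioF_add {x x' : FC1 N} {f g f' g' : ℍ → ℂ} (h : IsRatioF N x f g)
    (h' : IsRatioF N x' f' g') : IsRatioF N (x + x') (f * g' + f' * g) (g * g') := by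
  obtain ⟨hg, ⟨w, hfm, hgm⟩, h1⟩ := h
  obtain ⟨hg', ⟨w', hfm', hgm'⟩, h2⟩ := h'
  have m1 : IsMF (G1 N) (w + w') (f * g') := hfm.mul hgm'
  have m2 : IsMF (G1 N) (w + w') (f' * g) := (hfm'.mul hgm).cast (add_comm _ _)
  refine ⟨isMF_mul_ne_zero hgm hgm' hg hg', ⟨w + w', m1.add m2, hgm.mul hgm'⟩, ?_⟩
  rw [qLaurent_add_of_isMF m1 m2, qLaurent_mul_of_isMF hfm hgm', qLaurent_mul_of_isMF hfm' hgm,
    qLaurent_mul_of_isMF hgm hgm', h1, h2]
  push_cast
  ring

theorem tfin_one_ne_zero : (1 : ℍ → ℂ) ≠ 0 := fun h => by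
  have := congrFun h ⟨Complex.I, by simp⟩
  simp at this

/-- The constant `a` as a ratio. -/
theorem tfin_isRatioF_const (N : ℕ) [NeZero N] (a : ℂ) :
    IsRatioF N (algebraMap ℂ (FC1 N) a) (a • (1 : ℍ → ℂ)) 1 := by
  have hone : IsMF (G1 N) 0 (1 : ℍ → ℂ) := IsMF.one
  refine ⟨tfin_one_ne_zero, ⟨0, hone.smul a, hone⟩, ?_⟩
  have e1 : qLaurent (1 : ℍ → ℂ) = 1 := (hasQ_of_isMF hone).unique hasQ_one
  rw [e1, mul_one]
  have h1 : HasQ (a • (1 : ℍ → ℂ)) (HahnSeries.C a) :=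
    (hasQ_const a).congr fun τ => by simp
  have h2 := hasQ_of_isMF (hone.smul a)
  rw [← h1.unique h2]
  show HahnSeries.C a = algebraMap ℂ (LaurentSeries ℂ) a
  rw [algebraMap_eq_single_zero]
  rfl

section

variable [HasDict1 N]

open Classical in
/-- The analytic order of `x ∈ FC1 N` at `τ`. -/
def tfin_ordVal (N : ℕ) [NeZero N] [HasDict1 N] (τ : ℍ) (x : FC1 N) : ℤ :=
  if hx : x = 0 then 0 else
    ordAt (exists_isRatioF_of_ne_zero hx).choose τ -
      ordAt (exists_isRatioF_of_ne_zero hx).choose_spec.choose τ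

/-- `tfin_ordVal` may be computed from any ratio. -/
theorem tfin_ordVal_eq (τ : ℍ) {x : FC1 N} {f g : ℍ → ℂ} (hf : f ≠ 0) (h : IsRatioF N x f g) :
    tfin_ordVal N τ x = ordAt f τ - ordAt g τ := by
  have hx : x ≠ 0 := fun hx => hf (h.eq_zero_iff.mp hx)
  unfold tfin_ordVal
  rw [dif_neg hx]
  obtain ⟨hf₀, h₀⟩ := (exists_isRatioF_of_ne_zero hx).choose_spec.choose_spec
  set f₀ := (exists_isRatioF_of_ne_zero hx).choose
  set g₀ := (exists_isRatioF_of_ne_zero hx).choose_spec.choose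
  have hcross : f₀ * g = f * g₀ := h₀.cross h
  obtain ⟨hg, ⟨w, hfm, hgm⟩, -⟩ := h
  obtain ⟨hg₀, ⟨w₀, hfm₀, hgm₀⟩, -⟩ := h₀
  have e1 := ordAt_mul (tfin_mdiff_of_isMF hfm₀) (tfin_mdiff_of_isMF hgm) hf₀ hg τ
  have e2 := ordAt_mul (tfin_mdiff_of_isMF hfm) (tfin_mdiff_of_isMF hgm₀) hf hg₀ τ
  rw [hcross] at e1
  rw [e1] at e2
  omega

/-- The analytic order at `τ` is an order function on `FC1 N`. -/
theorem tfin_isOrdFun_ordVal (τ : ℍ) : IsOrdFun ℂ (tfin_ordVal N τ) where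
  map_mul x y hx hy := by
    obtain ⟨f, g, hf, h⟩ := exists_isRatioF_of_ne_zero hx
    obtain ⟨f', g', hf', h'⟩ := exists_isRatioF_of_ne_zero hy
    have hm := h.mul h'
    have e1 := tfin_ordVal_eq τ hf h
    have e2 := tfin_ordVal_eq τ hf' h'
    obtain ⟨hg, ⟨w, hfm, hgm⟩, -⟩ := h
    obtain ⟨hg', ⟨w', hfm', hgm'⟩, -⟩ := h'
    have hff' : f * f' ≠ 0 := isMF_mul_ne_zero hfm hfm' hf hf'
    rw [tfin_ordVal_eq τ hff' hm, e1, e2,
      ordAt_mul (tfin_mdiff_of_isMF hfm) (tfin_mdiff_of_isMF hfm') hf hf' τ,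
      ordAt_mul (tfin_mdiff_of_isMF hgm) (tfin_mdiff_of_isMF hgm') hg hg' τ]
    ring
  map_add x y hx hy hxy := by
    obtain ⟨f, g, hf, h⟩ := exists_isRatioF_of_ne_zero hx
    obtain ⟨f', g', hf', h'⟩ := exists_isRatioF_of_ne_zero hy
    have ha := tfin_isRatioF_add h h'
    have hnum : f * g' + f' * g ≠ 0 := fun h0 => hxy (ha.eq_zero_iff.mpr h0)
    rw [tfin_ordVal_eq τ hnum ha, tfin_ordVal_eq τ hf h, tfin_ordVal_eq τ hf' h']
    obtain ⟨hg, ⟨w, hfm, hgm⟩, -⟩ := h
    obtain ⟨hg', ⟨w', hfm', hgm'⟩, -⟩ := h'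
    have m1 : MDiff (f * g') := (tfin_mdiff_of_isMF hfm).mul (tfin_mdiff_of_isMF hgm')
    have m2 : MDiff (f' * g) := (tfin_mdiff_of_isMF hfm').mul (tfin_mdiff_of_isMF hgm)
    have n1 : f * g' ≠ 0 := isMF_mul_ne_zero hfm hgm' hf hg'
    have n2 : f' * g ≠ 0 := isMF_mul_ne_zero hfm' hgm hf' hg
    have key := min_ordAt_le_ordAt_add m1 m2 n1 n2 hnum τ
    rw [ordAt_mul (tfin_mdiff_of_isMF hfm) (tfin_mdiff_of_isMF hgm') hf hg' τ,
      ordAt_mul (tfin_mdiff_of_isMF hfm') (tfin_mdiff_of_isMF hgm) hf' hg τ] at key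
    rw [ordAt_mul (tfin_mdiff_of_isMF hgm) (tfin_mdiff_of_isMF hgm') hg hg' τ]
    omega
  map_const a ha := by
    have hne : a • (1 : ℍ → ℂ) ≠ 0 := by
      intro h0
      have := congrFun h0 ⟨Complex.I, by simp⟩
      simp at this
      exact ha this
    rw [tfin_ordVal_eq τ hne (tfin_isRatioF_const N a), ordAt_const_smul_one ha, ordAt_one]
    rfl

/-- If `n` divides the order of `x` at every place of `FC1 N`, then `n` divides
`ord_τ f - ord_τ g` for every ratio `x = f / g` and every `τ ∈ ℍ`. -/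
theorem tfin_dvd_ordAt_sub_of_forall_place {n : ℤ} {x : FC1 N} {f g : ℍ → ℂ} (hf : f ≠ 0)
    (h : IsRatioF N x f g) (hdiv : ∀ v : Place ℂ (FC1 N), n ∣ v.ord x) (τ : ℍ) :
    n ∣ ordAt f τ - ordAt g τ := by
  have hx : x ≠ 0 := fun hx => hf (h.eq_zero_iff.mp hx)
  rw [← tfin_ordVal_eq τ hf h]
  exact (tfin_isOrdFun_ordVal τ).dvd_of_forall_place_dvd n hx hdiv

end

end Fermat.Agent.S48WA
end
end MergeWrap_S48_W_A_TorsFinOrd

section MergeWrap_S48_W_A_TorsFinAux -- from S48/W/A/TorsFinAux.lean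

set_option autoImplicit false

noncomputable section

namespace Fermat.Agent.S48WATF

open UpperHalfPlane CongruenceSubgroup ModularForm
open scoped MatrixGroups ModularForm Manifold
open Fermat.Agent.F3I2

/-- `Γ₁(M)` is a finitely generated group. -/
theorem tfin_fg_Gamma1 (M : ℕ) [NeZero M] : Group.FG ↥(Gamma1 M) := by
  have : Group.FG (Matrix.SpecialLinearGroup (Fin 2) ℤ) := Fermat.Agent.S22.fg_SL2Z
  exact Subgroup.fg_of_index_ne_zero (Gamma1 M)

/-- **CHAR** for an arbitrary subgroup of `SL(2, ℤ)`. -/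
theorem tfin_exists_character {Γ : Subgroup SL(2, ℤ)} {n : ℕ} (hn : n ≠ 0) {k : ℤ} {h : ℍ → ℂ}
    (hh : MDiff h) (hne : h ≠ 0)
    (hinv : ∀ γ : ↥Γ, (h ^ n) ∣[(n : ℤ) * k] (γ : SL(2, ℤ)) = h ^ n) :
    ∃ χ : ↥Γ →* ℂˣ, (∀ γ, χ γ ^ n = 1) ∧
      ∀ γ : ↥Γ, h ∣[k] (γ : SL(2, ℤ)) = ((χ γ : ℂˣ) : ℂ) • h := by
  classical
  obtain ⟨τ₀, hτ₀⟩ : ∃ τ₀, h τ₀ ≠ 0 := by
    by_contra hcon
    push Not at hcon
    exact hne (funext hcon)
  have hex : ∀ γ : ↥Γ, ∃ ζ : ℂ, ζ ^ n = 1 ∧ ∀ τ, (h ∣[k] (γ : SL(2, ℤ))) τ = ζ * h τ := by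
    intro γ
    refine exists_smul_of_pow_eq_pow ?_ hh hne hn ?_
    · rw [SL_slash]
      exact hh.slash k _
    · intro τ
      have := congrFun (hinv γ) τ
      rw [pow_slash_SL2] at this
      simpa using this
  choose ζ hζn hζ using hex
  have hζ0 : ∀ γ, ζ γ ≠ 0 := by
    intro γ h0
    have := hζn γ
    rw [h0, zero_pow hn] at this
    exact zero_ne_one this
  have huniq : ∀ (a b : ℂ), (∀ τ, a * h τ = b * h τ) → a = b := by
    intro a b hab
    exact mul_right_cancel₀ hτ₀ (hab τ₀)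
  have hmul : ∀ γ δ : ↥Γ, ζ (γ * δ) = ζ γ * ζ δ := by
    intro γ δ
    apply huniq
    intro τ
    rw [← hζ (γ * δ) τ]
    have h1 : h ∣[k] ((γ * δ : ↥Γ) : SL(2, ℤ)) =
        (h ∣[k] (γ : SL(2, ℤ))) ∣[k] (δ : SL(2, ℤ)) := by
      rw [Subgroup.coe_mul, SlashAction.slash_mul]
    have h2 : h ∣[k] (γ : SL(2, ℤ)) = ζ γ • h := by
      ext τ'
      rw [hζ γ τ']
      rfl
    rw [h1, h2, SL_smul_slash]
    simp only [Pi.smul_apply, smul_eq_mul]
    rw [hζ δ τ]
    ring
  have hone : ζ 1 = 1 := by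
    have := hmul 1 1
    rw [mul_one] at this
    exact (mul_right_cancel₀ (hζ0 1) (this.symm.trans (one_mul _).symm)).symm ▸ rfl
  refine ⟨{ toFun := fun γ => Units.mk0 (ζ γ) (hζ0 γ)
            map_one' := Units.ext (by simpa using hone)
            map_mul' := fun γ δ => Units.ext (by simpa using hmul γ δ) }, ?_, ?_⟩
  · intro γ
    apply Units.ext
    simpa using hζn γ
  · intro γ
    ext τ
    rw [hζ γ τ]
    rfl

end Fermat.Agent.S48WATF
end
end MergeWrap_S48_W_A_TorsFinAux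

section MergeWrap_S48_W_A_TorsFin -- from S48/W/A/TorsFin.lean

set_option autoImplicit false
set_option linter.unusedSectionVars false
set_option linter.style.haveILetI false

noncomputable section

namespace Fermat.Agent.S48WA

open UpperHalfPlane CongruenceSubgroup ModularCurve AlgebraicCurve
open scoped MatrixGroups ModularForm Manifold
open Fermat.Agent.S23 Fermat.Agent.S48W Fermat.Agent.S48WA2 Fermat.Agent.F3I2
open Fermat.Agent.F3TF (isBoundedAtImInfty_of_pow finite_characters)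
open Fermat.Agent.S48WATF

variable {N : ℕ} [NeZero N]

/-- A holomorphic function with a character whose `n`-th power is a modular form is a form with
character. -/
theorem tfin_isFormChar_of_pow {n : ℕ} (hn : n ≠ 0) {w : ℤ} {h : ℍ → ℂ}
    {χ : ↥(Gamma1 N) →* ℂˣ} (hh : MDiff h)
    (hslash : ∀ γ : ↥(Gamma1 N), h ∣[w] (γ : SL(2, ℤ)) = ((χ γ : ℂˣ) : ℂ) • h)
    (hpow : IsMF (G1 N) ((n : ℤ) * w) (h ^ n)) : IsFormChar N w χ h := by
  refine ⟨hh, hslash, fun g => ?_⟩
  apply isBoundedAtImInfty_of_pow hn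
  rw [← pow_slash_SL2]
  exact (isFormChar_of_isMF hpow).bdd g

/-- **ROOT + CHAR.** -/
theorem tfin_exists_formChar_root {n : ℕ} (hn : n ≠ 0) {x : FC1 N} {f₀ g₀ : ℍ → ℂ}
    (hf₀ : f₀ ≠ 0) (h₀ : IsRatioF N x f₀ g₀)
    (hord : ∀ τ : ℍ, (n : ℤ) ∣ ordAt f₀ τ - ordAt g₀ τ) :
    ∃ (w : ℤ) (h B : ℍ → ℂ) (χ : ↥(Gamma1 N) →* ℂˣ), (∀ γ, χ γ ^ n = 1) ∧
      IsFormChar N w χ h ∧ IsFormChar N w 1 B ∧ h ≠ 0 ∧ B ≠ 0 ∧
      IsRatioF N x (h ^ n) (B ^ n) := by
  have hh₀ := h₀
  obtain ⟨hg₀, ⟨w, hfm, hgm⟩, -⟩ := h₀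
  have hn1 : 1 ≤ n := Nat.one_le_iff_ne_zero.mpr hn
  have hpowm : IsMF (G1 N) (w * ((n - 1 : ℕ) : ℤ)) (g₀ ^ (n - 1)) := hgm.pow (n - 1)
  have hpow0 : g₀ ^ (n - 1) ≠ 0 := isMF_pow_ne_zero hgm hg₀ (n - 1)
  set G : ℍ → ℂ := f₀ * g₀ ^ (n - 1) with hG
  have hcast : w + w * ((n - 1 : ℕ) : ℤ) = (n : ℤ) * w := by
    have : ((n - 1 : ℕ) : ℤ) = (n : ℤ) - 1 := by omega
    rw [this]; ring
  have hGm : IsMF (G1 N) ((n : ℤ) * w) G := (hfm.mul hpowm).cast hcast
  have hG0 : G ≠ 0 := isMF_mul_ne_zero hfm hpowm hf₀ hpow0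
  have hGd : MDiff G := tfin_mdiff_of_isMF hGm
  -- the orders of `G` are divisible by `n`
  have hordG : ∀ τ : ℍ, ∃ m : ℕ, analyticOrderAt (G ∘ ofComplex) (τ : ℂ) = ((n * m : ℕ) : ℕ∞) := by
    intro τ
    have e1 : ordAt G τ = ordAt f₀ τ + ((n - 1 : ℕ) : ℤ) * ordAt g₀ τ := by
      rw [hG, ordAt_mul (tfin_mdiff_of_isMF hfm) (tfin_mdiff_of_isMF hpowm) hf₀ hpow0 τ,
        ordAt_pow (tfin_mdiff_of_isMF hgm) hg₀]
    have e2 : (n : ℤ) ∣ ordAt G τ := by
      have : ordAt G τ = (ordAt f₀ τ - ordAt g₀ τ) + (n : ℤ) * ordAt g₀ τ := by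
        rw [e1]
        have : ((n - 1 : ℕ) : ℤ) = (n : ℤ) - 1 := by omega
        rw [this]; ring
      rw [this]
      exact dvd_add (hord τ) (dvd_mul_right _ _)
    obtain ⟨k, hk⟩ := ENat.ne_top_iff_exists.mp (analyticOrderAt_ne_top_of_ne_zero hGd hG0 τ)
    have e3 : ordAt G τ = (k : ℤ) := by
      unfold ordAt
      rw [← hk]
      simp
    rw [e3] at e2
    obtain ⟨m, hm⟩ := Int.natCast_dvd_natCast.mp e2
    exact ⟨m, by rw [← hk, hm]⟩
  obtain ⟨h, hhd, hhp⟩ := exists_mdiff_root hGd hn hordG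
  have hhG : h ^ n = G := funext fun τ => by simpa using hhp τ
  have hh0 : h ≠ 0 := by
    intro h0
    apply hG0
    rw [← hhG, h0, zero_pow hn]
  have hinv : ∀ γ : ↥(Gamma1 N), (h ^ n) ∣[(n : ℤ) * w] (γ : SL(2, ℤ)) = h ^ n := by
    intro γ
    rw [hhG]
    have := (isFormChar_of_isMF hGm).slash γ
    simpa using this
  obtain ⟨χ, hχ, hslash⟩ := tfin_exists_character hn hhd hh0 hinv
  have hhF : IsFormChar N w χ h := tfin_isFormChar_of_pow hn hhd hslash (hhG ▸ hGm)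
  refine ⟨w, h, g₀, χ, hχ, hhF, isFormChar_of_isMF hgm, hh0, hg₀, ?_⟩
  have hgn : IsMF (G1 N) ((n : ℤ) * w) (g₀ ^ n) := (hgm.pow n).cast (mul_comm _ _)
  refine hh₀.congr (isMF_pow_ne_zero hgm hg₀ n) (hhG ▸ hGm) hgn ?_
  rw [hhG, hG]
  have : g₀ ^ n = g₀ ^ (n - 1) * g₀ := by
    rw [← pow_succ, Nat.sub_add_cancel hn1]
  rw [this]
  ring

variable [HasDict1 N]

/-- **`λ` is defined everywhere (over `ℂ`).**  Every class of `Pic0 (FC1 N)` killed by `n` is the
class attached to a character of order dividing `n`. -/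
theorem tfin_exists_isTheta_of_torsion {n : ℕ} (hn : n ≠ 0) (c : Pic0 ℂ (FC1 N))
    (hc : n • c = 0) : ∃ χ : ↥(Gamma1 N) →* ℂˣ, IsTheta N n χ c := by
  have hc' : (n : ℤ) • c = 0 := by rw [natCast_zsmul]; exact hc
  obtain ⟨D, x, hD, hDc⟩ := exists_isRootDiv_of_torsion n c hc'
  obtain ⟨f₀, g₀, hf₀, h₀⟩ := exists_isRatioF_of_ne_zero hD.1
  have hdiv : ∀ v : Place ℂ (FC1 N), (n : ℤ) ∣ v.ord x := fun v => ⟨_, (hD.2 v).symm⟩
  obtain ⟨w, h, B, χ, hχ, hh, hB, hh0, hB0, hr⟩ := tfin_exists_formChar_root hn hf₀ h₀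
    (fun τ => tfin_dvd_ordAt_sub_of_forall_place hf₀ h₀ hdiv τ)
  exact ⟨χ, hχ, w, h, B, x, D, hh, hB, hh0, hB0, hr, hD, hDc⟩

/-- **(TFIN) finiteness of the `n`-torsion of `Pic0 (FC1 M)`** (`λ` is injective). -/
theorem finite_torsion_FC1 {n : ℕ} (hn : n ≠ 0) : {c : Pic0 ℂ (FC1 N) | n • c = 0}.Finite := by
  classical
  haveI : Group.FG ↥(Gamma1 N) := tfin_fg_Gamma1 N
  haveI := finite_characters (Γ := ↥(Gamma1 N)) hn
  have hex : ∀ c : {c : Pic0 ℂ (FC1 N) // n • c = 0},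
      ∃ χ : ↥(Gamma1 N) →* ℂˣ, IsTheta N n χ c.1 := fun c =>
    tfin_exists_isTheta_of_torsion hn c.1 c.2
  choose χ hχ using hex
  let Φ : {c : Pic0 ℂ (FC1 N) // n • c = 0} → {χ : ↥(Gamma1 N) →* ℂˣ // ∀ γ, χ γ ^ n = 1} :=
    fun c => ⟨χ c, (hχ c).1⟩
  have hΦ : Function.Injective Φ := by
    intro c c' h
    apply Subtype.ext
    have h1 : χ c = χ c' := congrArg Subtype.val h
    have h2 := hχ c
    rw [h1] at h2
    exact h2.unique hn (hχ c')
  have hfin : Finite ↑{c : Pic0 ℂ (FC1 N) | n • c = 0} := Finite.of_injective Φ hΦ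
  exact Set.finite_coe_iff.mp hfin

end Fermat.Agent.S48WA
end
end MergeWrap_S48_W_A_TorsFin

section MergeWrap_S48_W_A_InputsTop -- from S48/W/A/InputsTop.lean

set_option autoImplicit false
set_option linter.unusedSectionVars false
set_option linter.style.haveILetI false

noncomputable section

namespace Fermat.Agent.S48WA

open ModularCurve AlgebraicCurve CongruenceSubgroup IntermediateField
open Fermat.Agent.S48W Fermat.Agent.S24Diff
open Fermat.Agent.S48WA2 (IsDiamondC jBar1)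

local notation "Kb" => AlgebraicClosure ℚ

/-- **(A-INP 3)** `ℂ F₁(M)` is a function field in one variable, witnessed by `j`. -/
theorem functionFieldOneC (M : ℕ) [NeZero M] : IsFunctionFieldOver ℂ (FC1 M) (jBar1 M) :=
  Fermat.Agent.S48W.functionFieldOneC_of M (frickeAlgebraicOne M)

/-- **(A-INP 3)** `ℂ F(Γ₁(M) ∩ Γ₀(p))` is a function field in one variable, witnessed by `j`. -/
theorem functionFieldOnePC (M p : ℕ) [NeZero M] [NeZero p] :
    IsFunctionFieldOver ℂ (laurentBaseChange ℂ (FOneP M p)) (jBar1P M p) :=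
  Fermat.Agent.S48W.functionFieldOnePC_of M p (frickeAlgebraicOne M)

/-- **(A-INP 1)** the inputs of the Hecke correspondence `T_p` over `ℂ`. -/
theorem heckeInputsOneC (M p : ℕ) [NeZero M] [NeZero p] : HeckeInputsOneC M p :=
  heckeInputsOneC_of M p (functionFieldOneC M) (functionFieldOnePC M p)

/-- the same for a prime. -/
theorem heckeInputsOneC_primes (M : ℕ) [NeZero M] (p : Nat.Primes) :
    haveI : NeZero (p : ℕ) := ⟨p.2.ne_zero⟩
    HeckeInputsOneC M p :=
  haveI : NeZero (p : ℕ) := ⟨p.2.ne_zero⟩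
  heckeInputsOneC M p

/-- **(A-INP 2)** the Riemann-Roch library applies to `FC1 M`. -/
theorem isRRField_FC1_top (M : ℕ) [NeZero M] : Fermat.Agent.RR.IsRRField ℂ (FC1 M) :=
  isRRField_FC1 M (functionFieldOneC M)

/-- **(A-INP 2)** the Riemann-Roch library applies to `FOneBar M`. -/
theorem isRRField_FOneBar_top (M : ℕ) [NeZero M] : Fermat.Agent.RR.IsRRField Kb (FOneBar M) :=
  isRRField_FOneBar M (functionFieldOne M)

/-- **(A-INP 4)** the diamond automorphisms exist, over `ℚ̄` and over `ℂ`. -/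
theorem diamondExistsOneAll (M : ℕ) [NeZero M] : DiamondExistsOne M :=
  diamondExistsOne_of M (diamondComplexOne M)

/-- **(A4) the descent `ℂ → ℚ̄`**, from the dictionary only. -/
theorem descentOne_top (M : ℕ) [NeZero M] [HasDict1 M] : DescentOne M :=
  descentOne_of M (isRRField_FOneBar_top M) (isRRField_FC1_top M)
    (fun _ hn => finite_torsion_FC1 hn)
    (fun p _ => heckeInputsOne_primes M p)
    (fun p _ => heckeInputsOneC_primes M p)

end Fermat.Agent.S48WA
end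
end MergeWrap_S48_W_A_InputsTop

section MergeWrap_S48_W_A_K_FormHecke -- from S48/W/A/K/FormHecke.lean

set_option autoImplicit false
set_option linter.unusedSectionVars false
set_option linter.unusedVariables false
set_option linter.style.haveILetI false

noncomputable section

namespace Fermat.Agent.S48WA

open UpperHalfPlane CongruenceSubgroup Filter Topology Matrix.SpecialLinearGroup
open scoped MatrixGroups ModularForm Manifold
open P2MW.S_ModularForm_heckeT_slash_eq_self_of_mem_Gamma0.ModularForm.HeckeSlashInvariance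
open Fermat.Agent.S23 Fermat.Agent.S48W Fermat.Agent.S48WA2 Fermat.Agent.F3I2

variable {M : ℕ} [NeZero M] {p : ℕ} [Fact p.Prime]

/-! ### the Hecke transfer of a character -/

/-- The Hecke transfer of a character: `(T_p χ)(γ) = ∏_t χ(γ_t)`, `β_t γ = γ_t β_{γ̄ t}`. -/
def heckeTransfer (hpM : Nat.Coprime p M) (χ : ↥(Gamma1 M) →* ℂˣ) : ↥(Gamma1 M) →* ℂˣ where
  toFun γ := ∏ x : OnePoint (ZMod p), χ (heckeCosetOne hpM γ x)
  map_one' := by
    simp [heckeCosetOne_one]
  map_mul' := by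
    intro γ δ
    have hperm : ∏ x : OnePoint (ZMod p),
        χ (heckeCosetOne hpM δ (redMatrix p ((γ : Gamma1 M) : SL(2, ℤ)) • x)) =
        ∏ x : OnePoint (ZMod p), χ (heckeCosetOne hpM δ x) :=
      Equiv.prod_comp (MulAction.toPerm (redMatrix p ((γ : Gamma1 M) : SL(2, ℤ))))
        (fun x => χ (heckeCosetOne hpM δ x))
    rw [← hperm, ← Finset.prod_mul_distrib]
    refine Finset.prod_congr rfl fun x _ => ?_
    rw [heckeCosetOne_mul, map_mul]

theorem heckeTransfer_apply (hpM : Nat.Coprime p M) (χ : ↥(Gamma1 M) →* ℂˣ) (γ : ↥(Gamma1 M)) :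
    heckeTransfer hpM χ γ = ∏ x : OnePoint (ZMod p), χ (heckeCosetOne hpM γ x) := rfl

theorem heckeTransfer_one (hpM : Nat.Coprime p M) :
    heckeTransfer hpM (1 : ↥(Gamma1 M) →* ℂˣ) = 1 := by
  ext γ
  simp [heckeTransfer_apply]

theorem heckeTransfer_pow_eq_one (hpM : Nat.Coprime p M) {n : ℕ}
    {χ : ↥(Gamma1 M) →* ℂˣ} (hχ : ∀ γ, χ γ ^ n = 1) (γ : ↥(Gamma1 M)) :
    heckeTransfer hpM χ γ ^ n = 1 := by
  rw [heckeTransfer_apply, ← Finset.prod_pow]
  exact Finset.prod_eq_one fun x _ => hχ _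

/-! ### slash by the representatives -/

theorem heckeRepOne_det_pos (hpM : Nat.Coprime p M) (x : OnePoint (ZMod p)) :
    0 < (heckeRepOne M p hpM x : GL (Fin 2) ℝ).det.val := by
  obtain ⟨s, hs⟩ := heckeRepOne_eq_sl hpM x
  rw [hs, map_mul, Units.val_mul, det_mapGL, Units.val_one, one_mul]
  exact fc_heckeRep_det_pos p x

theorem kf_smul_slash_of_det_pos {g : GL (Fin 2) ℝ} (hg : 0 < g.det.val) (w : ℤ) (c : ℂ)
    (f : ℍ → ℂ) : (c • f) ∣[w] g = c • (f ∣[w] g) := by
  rw [ModularForm.smul_slash]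
  congr 1
  rw [Matrix.GeneralLinearGroup.val_det_apply] at hg
  simp [UpperHalfPlane.σ, hg]

theorem IsFormChar.slash_heckeRepOne_mul (hpM : Nat.Coprime p M) {w : ℤ}
    {χ : ↥(Gamma1 M) →* ℂˣ} {f : ℍ → ℂ} (hf : IsFormChar M w χ f) (γ : ↥(Gamma1 M))
    (x : OnePoint (ZMod p)) :
    (f ∣[w] heckeRepOne M p hpM x) ∣[w] (γ : SL(2, ℤ))
      = ((χ (heckeCosetOne hpM γ x) : ℂˣ) : ℂ) •
        (f ∣[w] heckeRepOne M p hpM (redMatrix p (γ : SL(2, ℤ)) • x)) := by
  have h1 : (f ∣[w] heckeRepOne M p hpM x) ∣[w] (γ : SL(2, ℤ))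
      = f ∣[w] (heckeRepOne M p hpM x * mapGL ℝ (γ : SL(2, ℤ))) := by
    rw [SlashAction.slash_mul]
    rfl
  rw [h1, heckeCosetOne_spec hpM γ x, SlashAction.slash_mul]
  have h2 : f ∣[w] (mapGL ℝ ((heckeCosetOne hpM γ x : ↥(Gamma1 M)) : SL(2, ℤ)))
      = ((χ (heckeCosetOne hpM γ x) : ℂˣ) : ℂ) • f := hf.slash (heckeCosetOne hpM γ x)
  rw [h2, kf_smul_slash_of_det_pos (heckeRepOne_det_pos hpM _)]

theorem IsFormChar.bdd_slash_heckeRepOne (hpM : Nat.Coprime p M) {w : ℤ}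
    {χ : ↥(Gamma1 M) →* ℂˣ} {f : ℍ → ℂ} (hf : IsFormChar M w χ f) (g : SL(2, ℤ))
    (x : OnePoint (ZMod p)) :
    IsBoundedAtImInfty ((f ∣[w] heckeRepOne M p hpM x) ∣[w] g) := by
  have hp1 : ¬ p ∣ 1 := fun h => (Fact.out : p.Prime).one_lt.ne' (Nat.dvd_one.mp h)
  obtain ⟨g', -, hmul⟩ := heckeRep_mul (N := 1) hp1 g (by simp) x
  obtain ⟨s, hs⟩ := heckeRepOne_eq_sl hpM x
  have h1 : (f ∣[w] heckeRepOne M p hpM x) ∣[w] g
      = (f ∣[w] (s * g')) ∣[w] heckeRep p (redMatrix p g • x) := by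
    have e1 : (f ∣[w] heckeRepOne M p hpM x) ∣[w] g
        = f ∣[w] (heckeRepOne M p hpM x * mapGL ℝ g) := by
      rw [SlashAction.slash_mul]
      rfl
    have e2 : f ∣[w] (s * g') = f ∣[w] (mapGL ℝ (s * g')) := rfl
    rw [e1, e2, ← SlashAction.slash_mul, hs, mul_assoc, hmul, map_mul, mul_assoc]
  rw [h1]
  exact IsBoundedAtImInfty.slash w (fc_heckeRep_one_zero p _) (hf.bdd _)

/-- The product of the `p + 1` Hecke translates of a form with character `χ` is a form with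
character `T_p χ` (weight `w * (p + 1)`). -/
theorem IsFormChar.heckeProd (hpM : Nat.Coprime p M) {w : ℤ}
    {χ : ↥(Gamma1 M) →* ℂˣ} {f : ℍ → ℂ} (hf : IsFormChar M w χ f) :
    IsFormChar M (w * (p + 1)) (heckeTransfer hpM χ)
      (fun z => ∏ i : OnePoint (ZMod p), (f ∣[w] heckeRepOne M p hpM i) z) := by
  have e : (fun z => ∏ i : OnePoint (ZMod p), (f ∣[w] heckeRepOne M p hpM i) z)
      = ∏ i : OnePoint (ZMod p), (f ∣[w] heckeRepOne M p hpM i) := by
    funext z
    rw [Finset.prod_apply]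
  have hw : w * ((p : ℤ) + 1) = w * ((Finset.univ : Finset (OnePoint (ZMod p))).card : ℤ) := by
    rw [fc_card_onePoint_zmod]
    push_cast
    ring
  rw [e, hw]
  refine ⟨fc_mdifferentiable_prod _ _ fun i _ => hf.mdiff.slash w _, fun γ => ?_, fun g => ?_⟩
  · rw [fc_prod_slash_SL2]
    simp_rw [hf.slash_heckeRepOne_mul hpM γ]
    rw [Finset.prod_smul, heckeTransfer_apply]
    congr 1
    · push_cast
      rfl
    · exact Equiv.prod_comp (MulAction.toPerm (redMatrix p (γ : SL(2, ℤ))))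
        (fun x => f ∣[w] heckeRepOne M p hpM x)
  · rw [fc_prod_slash_SL2]
    exact fc_isBoundedAtImInfty_prod _ _ fun i _ => hf.bdd_slash_heckeRepOne hpM g i

/-- The Hecke product of a nonzero function is nonzero. -/
theorem heckeProd_ne_zero (hpM : Nat.Coprime p M) {w : ℤ} {f : ℍ → ℂ} (hf : MDiff f)
    (hf0 : f ≠ 0) :
    (fun z => ∏ i : OnePoint (ZMod p), (f ∣[w] heckeRepOne M p hpM i) z) ≠ 0 := by
  have e : (fun z => ∏ i : OnePoint (ZMod p), (f ∣[w] heckeRepOne M p hpM i) z)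
      = ∏ i : OnePoint (ZMod p), (f ∣[w] heckeRepOne M p hpM i) := by
    funext z
    rw [Finset.prod_apply]
  rw [e]
  exact fc_mdiff_prod_ne_zero _ _ (fun i _ => hf.slash w _) (fun i _ => fc_slash_ne_zero hf0 w _)

/-- The Hecke product in the shape of `DictD3One` (`σ = diamondMat M p`). -/
theorem heckeProdOne_eq (hpM : Nat.Coprime p M) (w : ℤ) (f : ℍ → ℂ) :
    (fun z => ∏ i : OnePoint (ZMod p), (f ∣[w] heckeRepOne M p hpM i) z)
      = fun z => (f ∣[w] heckeRep p (OnePoint.infty : OnePoint (ZMod p))) z *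
          ∏ b : ZMod p, ((f ∣[w] diamondMat M (ZMod.unitOfCoprime p hpM)) ∣[w]
            heckeRep p (OnePoint.some b)) z := by
  funext z
  have h := Fintype.prod_option (fun i : OnePoint (ZMod p) => (f ∣[w] heckeRepOne M p hpM i) z)
  refine h.trans ?_
  congr 1
  refine Finset.prod_congr rfl fun b _ => ?_
  have e : heckeRepOne M p hpM (OnePoint.some b)
      = mapGL ℝ (diamondMat M (ZMod.unitOfCoprime p hpM)) * heckeRep p (OnePoint.some b) := rfl
  show (f ∣[w] heckeRepOne M p hpM (OnePoint.some b)) z = _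
  rw [e, SlashAction.slash_mul]
  rfl

end Fermat.Agent.S48WA
end
end MergeWrap_S48_W_A_K_FormHecke

section MergeWrap_S48_W_A_K_RootHecke -- from S48/W/A/K/RootHecke.lean

set_option autoImplicit false
set_option linter.style.haveILetI false

noncomputable section

namespace Fermat.Agent.S48WA

open ModularCurve AlgebraicCurve Fermat.Agent.S48W Fermat.Agent.F3I2

section Generic

variable (L : Type*) [Field L] [Algebra ℚ L]
variable {F₀ F₁ : IntermediateField ℚ (LaurentSeries ℚ)}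

/-- The function `T f := Norm_{L F₁ / L F₀} (f(q^p))`. -/
def qSeriesHeckeFunL (h : F₀ ≤ F₁) (p : ℕ) [NeZero p] (hF : ∀ y ∈ F₀, qExpand ℚ p y ∈ F₁) :
    laurentBaseChange L F₀ →* laurentBaseChange L F₀ :=
  (Fermat.Agent.F3G.normAlong (qSeriesAlpha L h)).comp (qSeriesBeta L p hF : _ →* _)

variable {L}

theorem qSeriesHeckeFunL_apply (h : F₀ ≤ F₁) (p : ℕ) [NeZero p]
    (hF : ∀ y ∈ F₀, qExpand ℚ p y ∈ F₁) (f : laurentBaseChange L F₀) :
    qSeriesHeckeFunL L h p hF f =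
      Fermat.Agent.F3G.normAlong (qSeriesAlpha L h) (qSeriesBeta L p hF f) :=
  rfl

theorem qSeriesHeckeFunL_ne_zero {h : F₀ ≤ F₁} {p : ℕ} [NeZero p]
    {hF : ∀ y ∈ F₀, qExpand ℚ p y ∈ F₁} (hI : QSeriesInputs L h p hF)
    {f : laurentBaseChange L F₀} (hf : f ≠ 0) : qSeriesHeckeFunL L h p hF f ≠ 0 := by
  obtain ⟨hα, hβ, hP, hfin, hFI, hN⟩ := hI
  have hβf : qSeriesBeta L p hF f ≠ 0 := by simpa using hf
  exact Fermat.Agent.F3G.normAlong_ne_zero _ hfin hβf

/-- `qSeriesHecke` when the inputs hold. -/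
theorem qSeriesHecke_eq {h : F₀ ≤ F₁} {p : ℕ} [NeZero p]
    {hF : ∀ y ∈ F₀, qExpand ℚ p y ∈ F₁}
    (hα : (qSeriesAlpha L h).toRingHom.IsIntegral)
    (hβ : (qSeriesBeta L p hF).toRingHom.IsIntegral)
    [HasPrincipalDivisors L (laurentBaseChange L F₁)]
    (hfin : FiniteAlong L (qSeriesAlpha L h))
    (hFI : FundamentalIdentityAlong L (qSeriesBeta L p hF) hβ)
    (hN : NormFormulaAlong L (qSeriesAlpha L h) hfin) :
    qSeriesHecke L h p hF =
      Pic0.correspondence (qSeriesBeta L p hF) (qSeriesAlpha L h) hβ hα hFI hfin hN := by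
  have hI : QSeriesInputs L h p hF := ⟨hα, hβ, inferInstance, hfin, hFI, hN⟩
  rw [qSeriesHecke, dif_pos hI]

/-- **Norm description of `T`**: for a degree-zero divisor `D` with `n • D = div f`, the class
`T [D]` is represented by a degree-zero divisor `E` with `n • E = div (T f)`,
`T f = Norm_{L F₁ / L F₀} (f(q^p))`. -/
theorem qSeriesHecke_mk_of_zsmul_eq_div {h : F₀ ≤ F₁} {p : ℕ} [NeZero p]
    {hF : ∀ y ∈ F₀, qExpand ℚ p y ∈ F₁} (hI : QSeriesInputs L h p hF)
    (D : Divisor.degZero (K := L) (F := laurentBaseChange L F₀))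
    (n : ℤ) {f : laurentBaseChange L F₀} (hf : f ≠ 0)
    (hD : ∀ v, n * (D : Divisor L _) v = v.ord f) :
    ∃ E : Divisor.degZero (K := L) (F := laurentBaseChange L F₀),
      qSeriesHecke L h p hF (Pic0.mk D) = Pic0.mk E ∧
        ∀ v, n * (E : Divisor L _) v = v.ord (qSeriesHeckeFunL L h p hF f) := by
  obtain ⟨hα, hβ, hP, hfin, hFI, hN⟩ := hI
  haveI := hP
  refine ⟨Pic0.degZeroCorrespondence (qSeriesBeta L p hF) (qSeriesAlpha L h) hβ hα hFI D,
    ?_, fun v => ?_⟩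
  · rw [qSeriesHecke_eq hα hβ hfin hFI hN]
    rfl
  · exact Fermat.Agent.F3G.zsmul_correspondence_apply_eq_ord_norm _ _ hβ hα hfin hN hf n hD v

/-- `T [(1/n) div x] = [(1/n) div (Norm (x (q^p)))]`. -/
theorem isRootDiv_qSeriesHecke {h : F₀ ≤ F₁} {p : ℕ} [NeZero p]
    {hF : ∀ y ∈ F₀, qExpand ℚ p y ∈ F₁} (hI : QSeriesInputs L h p hF) {n : ℕ}
    {x : laurentBaseChange L F₀}
    {D : Divisor.degZero (K := L) (F := laurentBaseChange L F₀)}
    (hD : IsRootDiv n x D) :
    ∃ E : Divisor.degZero (K := L) (F := laurentBaseChange L F₀),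
      qSeriesHecke L h p hF (Pic0.mk D) = Pic0.mk E ∧
        IsRootDiv n (qSeriesHeckeFunL L h p hF x) E := by
  obtain ⟨E, hE, hEv⟩ := qSeriesHecke_mk_of_zsmul_eq_div hI D (n : ℤ) hD.1 hD.2
  exact ⟨E, hE, qSeriesHeckeFunL_ne_zero hI hD.1, hEv⟩

end Generic

/-! ### level `Γ₁(M)` -/

section One

variable {L : Type*} [Field L] [Algebra ℚ L] {M p : ℕ} [NeZero M] [NeZero p]

theorem heckeFunOne_eq_qSeriesHeckeFunL :
    Fermat.Agent.S48WA2.heckeFunOne L M p =
      qSeriesHeckeFunL L (FOne_le_FOneP M p) p (fun _ hy => qExpand_mem_FOneP M p hy) :=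
  rfl

theorem heckeFunOne_ne_zero
    (hI : QSeriesInputs L (FOne_le_FOneP M p) p (fun _ hy => qExpand_mem_FOneP M p hy))
    {f : laurentBaseChange L (FOne M)} (hf : f ≠ 0) :
    Fermat.Agent.S48WA2.heckeFunOne L M p f ≠ 0 :=
  qSeriesHeckeFunL_ne_zero hI hf

/-- **K-ROOT**: `T_p [(1/n) div x] = [(1/n) div (T_p x)]` at level `Γ₁(M)`, over any `L ⊇ ℚ`. -/
theorem isRootDiv_heckeOne
    (hI : QSeriesInputs L (FOne_le_FOneP M p) p (fun _ hy => qExpand_mem_FOneP M p hy))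
    {n : ℕ} {x : laurentBaseChange L (FOne M)}
    {D : Divisor.degZero (K := L) (F := laurentBaseChange L (FOne M))}
    (hD : IsRootDiv n x D) :
    ∃ E : Divisor.degZero (K := L) (F := laurentBaseChange L (FOne M)),
      qSeriesHecke L (FOne_le_FOneP M p) p (fun _ hy => qExpand_mem_FOneP M p hy) (Pic0.mk D)
          = Pic0.mk E ∧
        IsRootDiv n (Fermat.Agent.S48WA2.heckeFunOne L M p x) E :=
  isRootDiv_qSeriesHecke hI hD

end One

/-- **K-ROOT over `ℂ`**, in terms of `heckeOneC`. -/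
theorem isRootDiv_heckeOneC {M : ℕ} [NeZero M] (p : Nat.Primes)
    (hI : @HeckeInputsOneC M (p : ℕ) _ ⟨p.2.ne_zero⟩)
    {n : ℕ} {x : Fermat.Agent.S48WA2.FC1 M}
    {D : Divisor.degZero (K := ℂ) (F := Fermat.Agent.S48WA2.FC1 M)}
    (hD : IsRootDiv n x D) :
    ∃ E : Divisor.degZero (K := ℂ) (F := Fermat.Agent.S48WA2.FC1 M),
      heckeOneC M p (Pic0.mk D) = Pic0.mk E ∧
        IsRootDiv n (@Fermat.Agent.S48WA2.heckeFunOne ℂ _ _ M (p : ℕ) _ ⟨p.2.ne_zero⟩ x) E :=
  haveI : NeZero (p : ℕ) := ⟨p.2.ne_zero⟩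
  isRootDiv_heckeOne hI hD

/-- **K-ROOT over `ℚ̄`**, in terms of `heckeOne`. -/
theorem isRootDiv_heckeOneBar {M : ℕ} [NeZero M] (p : Nat.Primes)
    (hI : @HeckeInputsOne M (p : ℕ) _ ⟨p.2.ne_zero⟩)
    {n : ℕ} {x : FOneBar M}
    {D : Divisor.degZero (K := AlgebraicClosure ℚ) (F := FOneBar M)}
    (hD : IsRootDiv n x D) :
    ∃ E : Divisor.degZero (K := AlgebraicClosure ℚ) (F := FOneBar M),
      heckeOne M p (Pic0.mk D) = Pic0.mk E ∧
        IsRootDiv n (@Fermat.Agent.S48WA2.heckeFunOne (AlgebraicClosure ℚ) _ _ M (p : ℕ) _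
          ⟨p.2.ne_zero⟩ x) E :=
  haveI : NeZero (p : ℕ) := ⟨p.2.ne_zero⟩
  isRootDiv_heckeOne hI hD

end Fermat.Agent.S48WA
end
end MergeWrap_S48_W_A_K_RootHecke

section MergeWrap_S48_W_A_K_Hecke -- from S48/W/A/K/Hecke.lean

set_option autoImplicit false
set_option linter.unusedSectionVars false
set_option linter.unusedVariables false
set_option linter.style.haveILetI false

noncomputable section

namespace Fermat.Agent.S48WA

open UpperHalfPlane CongruenceSubgroup ModularCurve AlgebraicCurve Matrix.SpecialLinearGroup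
open scoped MatrixGroups ModularForm Manifold
open P2MW.S_ModularForm_heckeT_slash_eq_self_of_mem_Gamma0.ModularForm.HeckeSlashInvariance
open Fermat.Agent.S23 Fermat.Agent.S48W Fermat.Agent.S48WA2 Fermat.Agent.F3I2

variable {M : ℕ} [NeZero M]

theorem heckeTransfer_charOf (p : Nat.Primes) (hpM : Nat.Coprime (p : ℕ) M) (n : ℕ)
    (c : HomParOne M) :
    haveI : Fact (p : ℕ).Prime := ⟨p.2⟩
    heckeTransfer hpM (charOf n c) = charOf n (heckeHomOne M p c) := by
  haveI : Fact (p : ℕ).Prime := ⟨p.2⟩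
  apply MonoidHom.ext
  intro γ
  rw [heckeTransfer_apply, charOf_apply]
  have h := heckeHomOne_apply_lat p hpM c γ
  simp only [charOf_apply]
  rw [kappaHecke_prod_zpow]
  congr 1
  exact h.symm

/-- the Hecke product of a power is a constant times the power of the Hecke product. -/
theorem kappaHecke_heckeProdOne_pow {p : ℕ} [Fact p.Prime] (hpM : Nat.Coprime p M) (n : ℕ)
    (w : ℤ) (f : ℍ → ℂ) :
    (fun z => ∏ i : OnePoint (ZMod p), ((f ^ n) ∣[(n : ℤ) * w] heckeRepOne M p hpM i) z) =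
      (∏ i : OnePoint (ZMod p), |(heckeRepOne M p hpM i).det.val| ^ ((n : ℤ) - 1)) •
        (fun z => ∏ i : OnePoint (ZMod p), (f ∣[w] heckeRepOne M p hpM i) z) ^ n := by
  funext z
  simp only [kappaHecke_pow_slash, Pi.smul_apply, Pi.pow_apply, Complex.real_smul]
  rw [Finset.prod_mul_distrib, Finset.prod_pow]
  push_cast
  rfl

set_option maxHeartbeats 800000 in
/-- **(E')** the function-level core of Lemma E: if `x'` is the Hecke norm of `x = f^n / B^n`,
then `x' = (Hf)^n / (HB)^n` for the Hecke products `Hf = ∏_t f ∣ β_t`, `HB = ∏_t B ∣ β_t`. -/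
theorem isRatioF_heckeProd_pow {p : ℕ} [Fact p.Prime] (hpM : Nat.Coprime p M) {x x' : FC1 M}
    (hT : ∀ (w : ℤ) (A B : ModularForm (Gamma1 M) w), A ≠ 0 → IsRatio1 M x A B →
      ∀ (w' : ℤ) (A' B' : ModularForm (Gamma1 M) w'),
        (⇑A' = fun z => ∏ i : OnePoint (ZMod p), (⇑A ∣[w] heckeRepOne M p hpM i) z) →
        (⇑B' = fun z => ∏ i : OnePoint (ZMod p), (⇑B ∣[w] heckeRepOne M p hpM i) z) →
        IsRatio1 M x' A' B') {n : ℕ} {w : ℤ} {χ : ↥(Gamma1 M) →* ℂˣ} {f B : ℍ → ℂ}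
    (hf : IsFormChar M w χ f) (hB : IsFormChar M w 1 B) (hf0 : f ≠ 0) (hB0 : B ≠ 0)
    (hχn : ∀ γ, χ γ ^ n = 1) (hx : IsRatioF M x (f ^ n) (B ^ n)) :
    IsRatioF M x' ((fun z => ∏ i : OnePoint (ZMod p), (f ∣[w] heckeRepOne M p hpM i) z) ^ n)
      ((fun z => ∏ i : OnePoint (ZMod p), (B ∣[w] heckeRepOne M p hpM i) z) ^ n) := by
  have hχ' := heckeTransfer_pow_eq_one hpM hχn
  have hHf := hf.heckeProd hpM
  have hHB : IsFormChar M (w * (p + 1)) 1
      (fun z => ∏ i : OnePoint (ZMod p), (B ∣[w] heckeRepOne M p hpM i) z) :=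
    (hB.heckeProd hpM).cast rfl (heckeTransfer_one hpM)
  have hHB0 := heckeProd_ne_zero (M := M) (p := p) hpM (w := w) hB.mdiff hB0
  have h1n : ∀ γ : ↥(Gamma1 M), (1 : ↥(Gamma1 M) →* ℂˣ) γ ^ n = 1 := fun γ => by simp
  obtain ⟨A, hA⟩ := hf.pow_isMF hχn
  obtain ⟨B', hB'⟩ := hB.pow_isMF h1n
  have hB'0 : B' ≠ 0 := by
    intro h0
    apply pow_ne_zero_fun hB0 n
    rw [← hB', h0]
    rfl
  have hA0 : A ≠ 0 := by
    intro h0
    apply pow_ne_zero_fun hf0 n
    rw [← hA, h0]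
    rfl
  have hAB : IsRatio1 M x A B' := by
    refine ⟨hB'0, ?_⟩
    rw [hA, hB']
    exact hx.2.2
  -- the Hecke products of `A`, `B'` as modular forms
  have hPA : IsFormChar M ((n : ℤ) * w * (p + 1)) 1
      (fun z => ∏ i : OnePoint (ZMod p), (⇑A ∣[(n : ℤ) * w] heckeRepOne M p hpM i) z) :=
    ((isFormChar_of_modularForm A).heckeProd hpM).cast rfl (heckeTransfer_one hpM)
  have hPB : IsFormChar M ((n : ℤ) * w * (p + 1)) 1
      (fun z => ∏ i : OnePoint (ZMod p), (⇑B' ∣[(n : ℤ) * w] heckeRepOne M p hpM i) z) :=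
    ((isFormChar_of_modularForm B').heckeProd hpM).cast rfl (heckeTransfer_one hpM)
  obtain ⟨A', hA'⟩ := hPA.exists_modularForm
  obtain ⟨B'', hB''⟩ := hPB.exists_modularForm
  have hratio := IsRatio1.isRatioF (hT ((n : ℤ) * w) A B' hA0 hAB _ A' B'' hA' hB'')
  rw [hA', hB'', hA, hB', kappaHecke_heckeProdOne_pow, kappaHecke_heckeProdOne_pow] at hratio
  refine hratio.congr (pow_ne_zero_fun hHB0 n) (hHf.pow_isMF hχ') (hHB.pow_isMF h1n) ?_
  funext z
  simp only [Pi.mul_apply, Pi.smul_apply, Pi.pow_apply, Complex.real_smul]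
  ring

/-- Lemma E with an abstract Hecke norm: if `T_p [D] = [E]`, `n • E = div x'` and `x'` is the
Hecke norm of `x`, then `T_p` maps the `θ`-class of `χ` to the `θ`-class of `T_p χ`. -/
theorem IsTheta.hecke_of_heckeNormAt {p : ℕ} [Fact p.Prime] (hpM : Nat.Coprime p M) {n : ℕ}
    {χ : ↥(Gamma1 M) →* ℂˣ} {w : ℤ} {f B : ℍ → ℂ} {x x' : FC1 M}
    {E : Divisor.degZero (K := ℂ) (F := FC1 M)}
    (hχ : ∀ γ, χ γ ^ n = 1)
    (hf : IsFormChar M w χ f) (hB : IsFormChar M w 1 B) (hf0 : f ≠ 0) (hB0 : B ≠ 0)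
    (hx : IsRatioF M x (f ^ n) (B ^ n))
    (hT : ∀ (w : ℤ) (A B : ModularForm (Gamma1 M) w), A ≠ 0 → IsRatio1 M x A B →
      ∀ (w' : ℤ) (A' B' : ModularForm (Gamma1 M) w'),
        (⇑A' = fun z => ∏ i : OnePoint (ZMod p), (⇑A ∣[w] heckeRepOne M p hpM i) z) →
        (⇑B' = fun z => ∏ i : OnePoint (ZMod p), (⇑B ∣[w] heckeRepOne M p hpM i) z) →
        IsRatio1 M x' A' B') (hE : IsRootDiv n x' E) :
    IsTheta M n (heckeTransfer hpM χ) (Pic0.mk E) :=
  ⟨heckeTransfer_pow_eq_one hpM hχ, w * (p + 1), _, _, x', E, hf.heckeProd hpM,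
    (hB.heckeProd hpM).cast rfl (heckeTransfer_one hpM),
    heckeProd_ne_zero (M := M) (p := p) hpM (w := w) hf.mdiff hf0,
    heckeProd_ne_zero (M := M) (p := p) hpM (w := w) hB.mdiff hB0,
    isRatioF_heckeProd_pow hpM hT hf hB hf0 hB0 hχ hx, hE, rfl⟩

/-- the norm description `DictD3One` in terms of the Hecke product over the `β_t`. -/
theorem dictD3One_heckeProd {p : ℕ} [Fact p.Prime] [NeZero p] (hpM : Nat.Coprime p M)
    (hD3 : DictD3One M p) (x : FC1 M) :
    ∀ (w : ℤ) (A B : ModularForm (Gamma1 M) w), A ≠ 0 → IsRatio1 M x A B →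
      ∀ (w' : ℤ) (A' B' : ModularForm (Gamma1 M) w'),
        (⇑A' = fun z => ∏ i : OnePoint (ZMod p), (⇑A ∣[w] heckeRepOne M p hpM i) z) →
        (⇑B' = fun z => ∏ i : OnePoint (ZMod p), (⇑B ∣[w] heckeRepOne M p hpM i) z) →
        IsRatio1 M (heckeFunOne ℂ M p x) A' B' := by
  intro w A B hA hAB w' A' B' hA' hB'
  obtain ⟨h0, h00⟩ := diamondMat_spec M (ZMod.unitOfCoprime p hpM)
  rw [ZMod.coe_unitOfCoprime] at h00
  rw [heckeProdOne_eq] at hA' hB'
  exact hD3 _ h0 h00 w A B x hA hAB w' A' B' hA' hB'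

/-- **Lemma E** at level `Γ₁(M)`. -/
theorem IsTheta.hecke (p : Nat.Primes) (hpM : Nat.Coprime (p : ℕ) M)
    (hH : @HeckeInputsOneC M (p : ℕ) _ ⟨p.2.ne_zero⟩)
    (hD3 : @DictD3One M (p : ℕ) _ ⟨p.2.ne_zero⟩) {n : ℕ} (hn : n ≠ 0)
    {χ : ↥(Gamma1 M) →* ℂˣ} {c : Pic0 ℂ (FC1 M)} (h : IsTheta M n χ c) :
    haveI : Fact (p : ℕ).Prime := ⟨p.2⟩
    IsTheta M n (heckeTransfer hpM χ) (heckeOneC M p c) := by
  haveI : Fact (p : ℕ).Prime := ⟨p.2⟩
  haveI : NeZero (p : ℕ) := ⟨p.2.ne_zero⟩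
  obtain ⟨hχ, w, f, B, x, D, hf, hB, hf0, hB0, hr, hD, rfl⟩ := h
  obtain ⟨E, hE, hEroot⟩ := isRootDiv_heckeOneC p hH hD
  rw [hE]
  exact IsTheta.hecke_of_heckeNormAt hpM hχ hf hB hf0 hB0 hr
    (dictD3One_heckeProd hpM hD3 x) hEroot

/-- **(HE)** Hecke equivariance of the graph of `κ`. -/
theorem kHecke (hL : LatticeOne M)
    (hD3 : ∀ p : Nat.Primes, Nat.Coprime (p : ℕ) M → @DictD3One M (p : ℕ) _ ⟨p.2.ne_zero⟩)
    (hH : ∀ p : Nat.Primes, Nat.Coprime (p : ℕ) M →
      @HeckeInputsOneC M (p : ℕ) _ ⟨p.2.ne_zero⟩) : KHecke M := by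
  intro n hn p hpM c cls h
  have h1 := IsTheta.hecke p hpM (hH p hpM) (hD3 p hpM) hn h
  rw [heckeTransfer_charOf p hpM n c] at h1
  exact h1

end Fermat.Agent.S48WA
end
end MergeWrap_S48_W_A_K_Hecke

section MergeWrap_S48_W_A5_Period -- from S48/W/A5/Period.lean

set_option autoImplicit false

noncomputable section

namespace Fermat.Agent.S48WA5

open CongruenceSubgroup Matrix.SpecialLinearGroup ModularCurve.Period UpperHalfPlane Filter
open scoped MatrixGroups Topology Manifold ModularForm Pointwise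

/-- `F` is a primitive of `h` with constant periods along `Γ₁(M)` and limits at all cusps. -/
structure PrimOne (M : ℕ) (h F : ℍ → ℂ) : Prop where
  deriv : ∀ τ : ℍ, HasDerivAt (F ∘ ofComplex) (h τ) τ
  equiv : IsEquivariantPrimitive (Gamma1 M) F
  cusp : ∀ δ : SL(2, ℤ), ∃ L : ℂ, Tendsto (fun w : ℍ => F (δ • w)) atImInfty (𝓝 L)

/-- `Γ(M) ≤ Γ₁(M)`. -/
theorem per_Gamma_le_Gamma1 (M : ℕ) : Gamma M ≤ Gamma1 M := by
  intro γ hγ
  rw [Gamma_mem] at hγ
  rw [Gamma1_mem]
  exact ⟨hγ.1, hγ.2.2.2, hγ.2.2.1⟩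

/-- The translate `f ∣[2] δ` of a cusp form on `Γ₁(M)` by `δ ∈ SL(2, ℤ)` is holomorphic, periodic
and zero at `i∞`. -/
theorem per_translate_data (M : ℕ) [NeZero M] (f : CuspForm (Gamma1 M) 2) (δ : SL(2, ℤ)) :
    ∃ h : ℝ, 0 < h ∧ MDiff ((f : ℍ → ℂ) ∣[(2 : ℤ)] δ) ∧
      Function.Periodic (((f : ℍ → ℂ) ∣[(2 : ℤ)] δ) ∘ ofComplex) h ∧
      IsZeroAtImInfty ((f : ℍ → ℂ) ∣[(2 : ℤ)] δ) := by
  obtain ⟨m, hm, hper⟩ := Subgroup.IsArithmetic.exists_nat_mem_strictPeriods_conj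
    ((Gamma1 M : Subgroup SL(2, ℤ)) : Subgroup (GL (Fin 2) ℝ))
  have hmpos : (0 : ℝ) < m := by exact_mod_cast hm
  set g := CuspForm.translate f (Matrix.SpecialLinearGroup.mapGL ℝ δ) with hg
  have hmem : (m : ℝ) ∈ (ConjAct.toConjAct (Matrix.SpecialLinearGroup.mapGL ℝ δ)⁻¹ •
      ((Gamma1 M : Subgroup SL(2, ℤ)) : Subgroup (GL (Fin 2) ℝ))).strictPeriods := by
    have := hper δ⁻¹
    simpa using this
  have hcoe : (g : ℍ → ℂ) = (f : ℍ → ℂ) ∣[(2 : ℤ)] δ := rfl
  refine ⟨m, hmpos, ?_, ?_, ?_⟩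
  · rw [← hcoe]; exact g.holo'
  · rw [← hcoe]; exact SlashInvariantFormClass.periodic_comp_ofComplex g hmem
  · rw [← hcoe]
    have hcusp := Subgroup.isCusp_of_mem_strictPeriods hmpos hmem
    exact OnePoint.isZeroAt_infty_iff.mp (g.zero_at_cusps' hcusp)

/-- slash invariance of a cusp form on `Γ₁(M)` under `γ ∈ Γ₁(M)` (as element of `SL(2, ℤ)`). -/
theorem per_slash_eq_self (M : ℕ) (f : CuspForm (Gamma1 M) 2) (γ : Gamma1 M) :
    (f : ℍ → ℂ) ∣[(2 : ℤ)] (γ : SL(2, ℤ)) = f := by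
  rw [ModularForm.SL_slash]
  exact SlashInvariantForm.slash_action_eqn f _ ⟨γ, γ.2, rfl⟩

/-- (P1) every weight-2 cusp form on `Γ₁(M)` has such a primitive. -/
theorem exists_primOne (M : ℕ) [NeZero M] (g : CuspForm (Gamma1 M) 2) :
    ∃ F : ℍ → ℂ, PrimOne M g F := by
  obtain ⟨h, hh, hhol, hper, hzero⟩ := per_translate_data M g 1
  have h1 : (g : ℍ → ℂ) ∣[(2 : ℤ)] (1 : SL(2, ℤ)) = g := SlashAction.slash_one _ _
  rw [h1] at hhol hper hzero
  obtain ⟨F, -, hFderiv, -, -⟩ := Period.exists_periodic_primitive hh hhol hper hzero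
  refine ⟨F, hFderiv, ?_, ?_⟩
  · intro γ
    refine ⟨F ((γ : SL(2, ℤ)) • UpperHalfPlane.I) - F UpperHalfPlane.I, fun z => ?_⟩
    have hd : ∀ τ : ℍ, HasDerivAt ((fun w : ℍ => F ((γ : SL(2, ℤ)) • w)) ∘ ofComplex) (g τ) τ := by
      intro τ
      have h2 := S21.hasDerivAt_comp_smul hFderiv (γ : SL(2, ℤ)) τ
      rwa [per_slash_eq_self M g γ] at h2
    exact S21.sub_eq_sub_of_hasDerivAt hd hFderiv z UpperHalfPlane.I
  · intro δ
    obtain ⟨h', hh', hhol', hper', hzero'⟩ := per_translate_data M g δ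
    obtain ⟨G, -, hGderiv, -, hGzero⟩ := Period.exists_periodic_primitive hh' hhol' hper' hzero'
    have hd : ∀ τ : ℍ, HasDerivAt ((fun w : ℍ => F (δ • w)) ∘ ofComplex)
        (((g : ℍ → ℂ) ∣[(2 : ℤ)] δ) τ) τ := S21.hasDerivAt_comp_smul hFderiv δ
    refine ⟨F (δ • UpperHalfPlane.I) - G UpperHalfPlane.I, ?_⟩
    have e : (fun w : ℍ => F (δ • w)) =
        fun w => G w + (F (δ • UpperHalfPlane.I) - G UpperHalfPlane.I) := by
      funext w
      have h3 := S21.sub_eq_sub_of_hasDerivAt hd hGderiv w UpperHalfPlane.I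
      linear_combination h3
    rw [e]
    have h4 : Tendsto G atImInfty (𝓝 0) := hGzero
    simpa using h4.add_const (F (δ • UpperHalfPlane.I) - G UpperHalfPlane.I)

/-- the cusp form on `Γ₁(M)` with underlying function `h`. -/
def perCuspFormOfFun (M : ℕ) [NeZero M] {h : ℍ → ℂ} (hh : MDiff h)
    (hinv : ∀ γ ∈ Gamma1 M, h ∣[(2 : ℤ)] γ = h)
    (hzero : ∀ δ : SL(2, ℤ), IsZeroAtImInfty (h ∣[(2 : ℤ)] δ)) : CuspForm (Gamma1 M) 2 where
  toFun := h
  slash_action_eq' := by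
    rintro _ ⟨γ, hγ, rfl⟩
    exact hinv γ hγ
  holo' := hh
  zero_at_cusps' := by
    intro c hc
    rw [Subgroup.IsArithmetic.isCusp_iff_isCusp_SL2Z] at hc
    rw [OnePoint.isZeroAt_iff_forall_SL2Z hc]
    intro γ _
    exact hzero γ

/-- (P1, function level) a holomorphic weight-2 `Γ₁(M)`-invariant function vanishing at all cusps
has such a primitive. -/
theorem exists_primOne_of_fun (M : ℕ) [NeZero M] {h : ℍ → ℂ} (hh : MDiff h)
    (hinv : ∀ γ ∈ Gamma1 M, h ∣[(2 : ℤ)] γ = h)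
    (hzero : ∀ δ : SL(2, ℤ), IsZeroAtImInfty (h ∣[(2 : ℤ)] δ)) :
    ∃ F : ℍ → ℂ, PrimOne M h F :=
  exists_primOne M (perCuspFormOfFun M hh hinv hzero)

variable {M : ℕ} {h h' F F' : ℍ → ℂ}

/-- (P2) the period homomorphism is parabolic. -/
theorem PrimOne.isParabolicHom (hF : PrimOne M h F) :
    IsParabolicHom (Gamma1 M) hF.equiv.periodHom := by
  intro γ hγ
  show hF.equiv.period γ = 0
  obtain ⟨δ, m, hδ⟩ := S21.exists_conj_translation (γ : SL(2, ℤ)) hγ
  obtain ⟨L, hL⟩ := hF.cusp δ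
  have h1 : ∀ w : ℍ, F (δ • ((m : ℝ) +ᵥ w)) - F (δ • w) = hF.equiv.period γ := by
    intro w
    rw [← hδ w]
    exact hF.equiv.sub_eq_period γ (δ • w)
  have h2 : Tendsto (fun w : ℍ => F (δ • ((m : ℝ) +ᵥ w)) - F (δ • w)) atImInfty (𝓝 (L - L)) :=
    (hL.comp (S21.tendsto_vadd_atImInfty (m : ℝ))).sub hL
  have h3 : Tendsto (fun _ : ℍ => hF.equiv.period γ) atImInfty (𝓝 (L - L)) := by
    refine h2.congr fun w => h1 w
  have h4 := tendsto_nhds_unique h3 tendsto_const_nhds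
  rw [sub_self] at h4
  exact h4.symm

/-- (P3) injectivity: vanishing periods force `h = 0`. -/
theorem PrimOne.eq_zero_of_periodHom_eq_zero [NeZero M] (hF : PrimOne M h F)
    (h0 : hF.equiv.periodHom = 0) : h = 0 := by
  have hinv : ∀ γ ∈ Gamma1 M, ∀ z : ℍ, F (γ • z) = F z := by
    intro γ hγ z
    have h1 := hF.equiv.sub_eq_period ⟨γ, hγ⟩ z
    have h2 : hF.equiv.period ⟨γ, hγ⟩ = 0 := by
      have h3 := DFunLike.congr_fun h0 (Additive.ofMul (⟨γ, hγ⟩ : Gamma1 M))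
      rw [IsEquivariantPrimitive.periodHom_apply] at h3
      exact h3
    rw [h2] at h1
    exact sub_eq_zero.mp h1
  have hconst : ∀ z w : ℍ, F z = F w :=
    S21.const_of_re_invariant (Γ := Gamma1 M) (N := M) (per_Gamma_le_Gamma1 M)
      (S21.mdiff_of_hasDerivAt hF.deriv) (fun γ hγ z => by rw [hinv γ hγ z]) hF.cusp
  funext τ
  have h1 : HasDerivAt (F ∘ ofComplex) 0 τ := by
    have h2 : HasDerivAt (fun _ : ℂ => F τ) 0 (τ : ℂ) := hasDerivAt_const _ _
    refine h2.congr_of_eventuallyEq ?_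
    filter_upwards with z
    exact hconst _ _
  exact (hF.deriv τ).unique h1

/-- (P4) independence of the primitive. -/
theorem PrimOne.periodHom_eq (hF : PrimOne M h F) (hF' : PrimOne M h F') :
    hF.equiv.periodHom = hF'.equiv.periodHom := by
  refine AddMonoidHom.ext fun γ => ?_
  show hF.equiv.period (Additive.toMul γ) = hF'.equiv.period (Additive.toMul γ)
  unfold IsEquivariantPrimitive.period
  have := S21.sub_eq_sub_of_hasDerivAt hF.deriv hF'.deriv
    (((Additive.toMul γ : Gamma1 M) : SL(2, ℤ)) • UpperHalfPlane.I) UpperHalfPlane.I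
  linear_combination this

/-- (P5) linearity. -/
theorem PrimOne.add (hF : PrimOne M h F) (hF' : PrimOne M h' F') :
    PrimOne M (h + h') (F + F') where
  deriv := fun τ => (hF.deriv τ).add (hF'.deriv τ)
  equiv := by
    intro γ
    obtain ⟨c, hc⟩ := hF.equiv γ
    obtain ⟨d, hd⟩ := hF'.equiv γ
    exact ⟨c + d, fun z => by
      simp only [Pi.add_apply]
      rw [← hc z, ← hd z]; ring⟩
  cusp := by
    intro δ
    obtain ⟨L, hL⟩ := hF.cusp δ
    obtain ⟨L', hL'⟩ := hF'.cusp δ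
    exact ⟨L + L', hL.add hL'⟩

theorem PrimOne.periodHom_add (hF : PrimOne M h F) (hF' : PrimOne M h' F') :
    (hF.add hF').equiv.periodHom = hF.equiv.periodHom + hF'.equiv.periodHom := by
  refine AddMonoidHom.ext fun γ => ?_
  show (F + F') _ - (F + F') _ = (F _ - F _) + (F' _ - F' _)
  simp only [Pi.add_apply]
  ring

theorem PrimOne.smul (c : ℂ) (hF : PrimOne M h F) : PrimOne M (c • h) (c • F) where
  deriv := fun τ => (hF.deriv τ).const_mul c
  equiv := by
    intro γ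
    obtain ⟨d, hd⟩ := hF.equiv γ
    exact ⟨c * d, fun z => by
      simp only [Pi.smul_apply, smul_eq_mul]
      rw [← hd z]; ring⟩
  cusp := by
    intro δ
    obtain ⟨L, hL⟩ := hF.cusp δ
    exact ⟨c * L, hL.const_mul c⟩

theorem PrimOne.periodHom_smul (c : ℂ) (hF : PrimOne M h F) (γ : Additive (Gamma1 M)) :
    (hF.smul c).equiv.periodHom γ = c * hF.equiv.periodHom γ := by
  show (c • F) _ - (c • F) _ = c * (F _ - F _)
  simp only [Pi.smul_apply, smul_eq_mul]
  ring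

theorem primOne_zero (M : ℕ) : PrimOne M 0 0 where
  deriv := fun τ => by
    have h2 : HasDerivAt (fun _ : ℂ => (0 : ℂ)) 0 (τ : ℂ) := hasDerivAt_const _ _
    exact h2
  equiv := fun γ => ⟨0, fun z => by simp⟩
  cusp := fun δ => ⟨0, by simp⟩

/-- (P6) `h` is holomorphic. -/
theorem PrimOne.mdiff (hF : PrimOne M h F) : MDiff h := by
  rw [UpperHalfPlane.mdifferentiable_iff]
  have hopen : IsOpen {z : ℂ | 0 < z.im} := isOpen_lt continuous_const Complex.continuous_im
  have hd : DifferentiableOn ℂ (F ∘ ofComplex) {z : ℂ | 0 < z.im} := fun x hx =>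
    (hF.deriv ⟨x, hx⟩).differentiableAt.differentiableWithinAt
  have hd2 : DifferentiableOn ℂ (_root_.deriv (F ∘ ofComplex)) {z : ℂ | 0 < z.im} :=
    hd.deriv hopen
  refine hd2.congr fun z hz => ?_
  have h1 := (hF.deriv ⟨z, hz⟩).deriv
  rw [Function.comp_apply, ofComplex_apply_of_im_pos hz]
  exact h1.symm

end Fermat.Agent.S48WA5
end
end MergeWrap_S48_W_A5_Period

section MergeWrap_S48_W_A5_Forms -- from S48/W/A5/Forms.lean

set_option autoImplicit false

noncomputable section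

namespace Fermat.Agent.S48WA5

open CongruenceSubgroup Matrix.SpecialLinearGroup ModularCurve.Period UpperHalfPlane Filter
open scoped MatrixGroups Topology Manifold ModularForm
open P2MW.S_ModularForm_heckeT_slash_eq_self_of_mem_Gamma0.ModularForm.HeckeSlashInvariance
open P2MW.S_UpperHalfPlane_qCoeff_heckeT.M4cP1W2

/-- function-level weight-2 cusp forms on `Γ₁(M)` with nebentypus `χ`. -/
structure IsNebCusp (M : ℕ) [NeZero M] (χ : (ZMod M)ˣ → ℂ) (h : ℍ → ℂ) : Prop where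
  holo : MDiff h
  inv : ∀ γ ∈ Gamma1 M, h ∣[(2 : ℤ)] γ = h
  neb : ∀ (γ : Gamma0 M) (d : (ZMod M)ˣ), (d : ZMod M) = Gamma0Map M γ →
    h ∣[(2 : ℤ)] (γ : SL(2, ℤ)) = χ d • h
  zero : ∀ δ : SL(2, ℤ), IsZeroAtImInfty (h ∣[(2 : ℤ)] δ)

variable {M : ℕ} [NeZero M] {χ : (ZMod M)ˣ → ℂ} {h h' : ℍ → ℂ}

/-- (F0) a cusp form on `Γ₁(M)` with nebentypus `χ` (shape of `S48W.ModEigen.neb`). -/
theorem isNebCusp_of_cuspForm (g : CuspForm (Gamma1 M) 2) (χ : (ZMod M)ˣ → ℂ)
    (hneb : ∀ γ : SL(2, ℤ), γ ∈ Gamma0 M → ∀ d : (ZMod M)ˣ,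
      ((d : ZMod M) = ((γ 1 1 : ℤ) : ZMod M)) →
      ∀ z : ℍ, ((g : ℍ → ℂ) ∣[(2 : ℤ)] γ) z = χ d * g z) :
    IsNebCusp M χ g where
  holo := g.holo'
  inv := fun γ hγ => per_slash_eq_self M g ⟨γ, hγ⟩
  neb := fun γ d hd => by
    funext z
    exact hneb γ γ.2 d hd z
  zero := fun δ => by
    obtain ⟨-, -, -, -, hz⟩ := per_translate_data M g δ
    exact hz

theorem isNebCusp_zero (M : ℕ) [NeZero M] (χ : (ZMod M)ˣ → ℂ) : IsNebCusp M χ 0 where
  holo := by
    show MDiff (fun _ : ℍ => (0 : ℂ))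
    exact mdifferentiable_const
  inv := fun γ _ => SlashAction.zero_slash _ _
  neb := fun γ d _ => by rw [SlashAction.zero_slash, smul_zero]
  zero := fun δ => by
    rw [SlashAction.zero_slash]
    exact zero_zeroAtFilter atImInfty

theorem IsNebCusp.add (hh : IsNebCusp M χ h) (hh' : IsNebCusp M χ h') :
    IsNebCusp M χ (h + h') where
  holo := hh.holo.add hh'.holo
  inv := fun γ hγ => by rw [SlashAction.add_slash, hh.inv γ hγ, hh'.inv γ hγ]
  neb := fun γ d hd => by rw [SlashAction.add_slash, hh.neb γ d hd, hh'.neb γ d hd, smul_add]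
  zero := fun δ => by
    rw [SlashAction.add_slash]
    exact (hh.zero δ).add (hh'.zero δ)

theorem IsNebCusp.smul (c : ℂ) (hh : IsNebCusp M χ h) : IsNebCusp M χ (c • h) where
  holo := hh.holo.const_smul c
  inv := fun γ hγ => by rw [ModularForm.SL_smul_slash, hh.inv γ hγ]
  neb := fun γ d hd => by rw [ModularForm.SL_smul_slash, hh.neb γ d hd, smul_comm]
  zero := fun δ => by
    rw [ModularForm.SL_smul_slash]
    exact (hh.zero δ).smul c

/-- `T ∈ Γ₁(M)`: the width of the cusp `∞` is `1`. -/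
theorem forms_one_mem_strictPeriods (M : ℕ) :
    (1 : ℝ) ∈ ((Gamma1 M : Subgroup SL(2, ℤ)) : Subgroup (GL (Fin 2) ℝ)).strictPeriods := by
  have hT : ModularGroup.T ∈ Gamma1 M := by
    rw [Gamma1_mem]
    simp [ModularGroup.T]
  rw [Subgroup.strictPeriods_eq_zmultiples_one_of_T_mem hT]
  exact AddSubgroup.mem_zmultiples (1 : ℝ)

/-- the bundled cusp form on `Γ₁(M)`. -/
def IsNebCusp.toCuspForm (hh : IsNebCusp M χ h) : CuspForm (Gamma1 M) 2 :=
  perCuspFormOfFun M hh.holo hh.inv hh.zero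

theorem IsNebCusp.coe_toCuspForm (hh : IsNebCusp M χ h) : (hh.toCuspForm : ℍ → ℂ) = h := rfl

theorem IsNebCusp.periodic (hh : IsNebCusp M χ h) : Function.Periodic (h ∘ ofComplex) 1 :=
  SlashInvariantFormClass.periodic_comp_ofComplex hh.toCuspForm (forms_one_mem_strictPeriods M)

theorem IsNebCusp.isZeroAtImInfty (hh : IsNebCusp M χ h) : IsZeroAtImInfty h := by
  have := hh.zero 1
  rwa [SlashAction.slash_one] at this

theorem IsNebCusp.isBoundedAtImInfty (hh : IsNebCusp M χ h) : IsBoundedAtImInfty h :=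
  hh.isZeroAtImInfty.isBoundedAtImInfty

/-- the `q`-expansion converges to `h`. -/
theorem IsNebCusp.hasSum (hh : IsNebCusp M χ h) (τ : ℍ) :
    HasSum (fun m : ℕ => ModularFormClass.qCoeff h m • Function.Periodic.qParam 1 τ ^ m) (h τ) :=
  hasSum_qExpansion one_pos hh.periodic hh.holo hh.isBoundedAtImInfty τ

/-- uniqueness of the `q`-expansion. -/
theorem IsNebCusp.qCoeff_eq_of_hasSum (hh : IsNebCusp M χ h) {c : ℕ → ℂ}
    (hs : ∀ τ : ℍ, HasSum (fun m : ℕ => c m • Function.Periodic.qParam 1 τ ^ m) (h τ)) (n : ℕ) :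
    ModularFormClass.qCoeff h n = c n :=
  (qExpansion_coeff_unique' hh.holo.continuous
    (analyticAt_cuspFunction_zero one_pos hh.periodic hh.holo hh.isBoundedAtImInfty) hs n).symm

theorem IsNebCusp.qCoeff_add (hh : IsNebCusp M χ h) (hh' : IsNebCusp M χ h') (n : ℕ) :
    ModularFormClass.qCoeff (h + h') n = ModularFormClass.qCoeff h n + ModularFormClass.qCoeff h' n := by
  refine (hh.add hh').qCoeff_eq_of_hasSum
    (c := fun m => ModularFormClass.qCoeff h m + ModularFormClass.qCoeff h' m) (fun τ => ?_) n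
  have := (hh.hasSum τ).add (hh'.hasSum τ)
  simpa only [add_smul, Pi.add_apply] using this

theorem IsNebCusp.qCoeff_smul (c : ℂ) (hh : IsNebCusp M χ h) (n : ℕ) :
    ModularFormClass.qCoeff (c • h) n = c * ModularFormClass.qCoeff h n := by
  refine (hh.smul c).qCoeff_eq_of_hasSum
    (c := fun m => c * ModularFormClass.qCoeff h m) (fun τ => ?_) n
  have := (hh.hasSum τ).mul_left c
  simpa only [smul_eq_mul, mul_assoc, Pi.smul_apply] using this

/-- (F4) `q`-expansion principle. -/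
theorem IsNebCusp.eq_zero_of_qCoeff (hh : IsNebCusp M χ h)
    (h0 : ∀ n, ModularFormClass.qCoeff h n = 0) : h = 0 := by
  funext τ
  have h1 := hh.hasSum τ
  simp only [h0, zero_smul] at h1
  exact h1.unique hasSum_zero

/-- the primitive (from PER, function level). -/
theorem IsNebCusp.exists_primOne (hh : IsNebCusp M χ h) : ∃ F : ℍ → ℂ, PrimOne M h F :=
  exists_primOne_of_fun M hh.holo hh.inv hh.zero

/-! ### the Hecke operator `T_p` -/

variable {p q : ℕ} [Fact p.Prime] [Fact q.Prime]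

/-- the classical Hecke operator `T_p` on weight-2 functions of level `Γ₁(M)`. -/
def heckeFunOne (M : ℕ) [NeZero M] {p : ℕ} [Fact p.Prime] (hpM : Nat.Coprime p M) (h : ℍ → ℂ) :
    ℍ → ℂ :=
  ∑ x : OnePoint (ZMod p), h ∣[(2 : ℤ)] heckeRepOne M hpM x

omit [Fact p.Prime] in
/-- scalars commute with the slash by `heckeRep p x` (positive determinant). -/
theorem forms_smul_slash_heckeRep (c : ℂ) (f : ℍ → ℂ) (x : OnePoint (ZMod p)) :
    (c • f) ∣[(2 : ℤ)] heckeRep p x = c • (f ∣[(2 : ℤ)] heckeRep p x) := by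
  induction x using OnePoint.rec with
  | infty =>
    rw [heckeRep_infty, ModularForm.smul_slash, ModularForm.σ_heckeDiagMatrix,
      ContinuousAlgEquiv.refl_apply]
  | coe j =>
    rw [heckeRep_coe, ModularForm.smul_slash, ModularForm.σ_heckeMatrix,
      ContinuousAlgEquiv.refl_apply]

/-- scalars commute with the slash by `heckeRepOne M hpM x`. -/
theorem forms_smul_slash_heckeRepOne (hpM : Nat.Coprime p M) (c : ℂ) (f : ℍ → ℂ)
    (x : OnePoint (ZMod p)) :
    (c • f) ∣[(2 : ℤ)] heckeRepOne M hpM x = c • (f ∣[(2 : ℤ)] heckeRepOne M hpM x) := by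
  rw [heckeRepOne_eq, SlashAction.slash_mul, SlashAction.slash_mul]
  have h1 : (c • f) ∣[(2 : ℤ)] (mapGL ℝ ((cosetTwist hpM x : Gamma0 M) : SL(2, ℤ))) =
      c • (f ∣[(2 : ℤ)] (mapGL ℝ ((cosetTwist hpM x : Gamma0 M) : SL(2, ℤ)))) :=
    ModularForm.SL_smul_slash 2 ((cosetTwist hpM x : Gamma0 M) : SL(2, ℤ)) f c
  rw [h1, forms_smul_slash_heckeRep]

/-- (F1) -/
theorem IsNebCusp.heckeFunOne_eq (hpM : Nat.Coprime p M) (hh : IsNebCusp M χ h) :
    heckeFunOne M hpM h = ModularForm.heckeU 2 p h +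
      χ (ZMod.unitOfCoprime p hpM) • (h ∣[(2 : ℤ)] ModularForm.heckeDiagMatrix p) := by
  rw [heckeFunOne, heckeU_eq_sum_zmod, add_comm]
  refine (Fintype.sum_option (fun x : OnePoint (ZMod p) => h ∣[(2 : ℤ)] heckeRepOne M hpM x)).trans ?_
  congr 1
  show h ∣[(2 : ℤ)] (mapGL ℝ ((diaRep M (ZMod.unitOfCoprime p hpM) : Gamma0 M) : SL(2, ℤ)) *
    ModularForm.heckeDiagMatrix p) = _
  rw [SlashAction.slash_mul]
  have h1 : h ∣[(2 : ℤ)] (mapGL ℝ ((diaRep M (ZMod.unitOfCoprime p hpM) : Gamma0 M) : SL(2, ℤ))) =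
      χ (ZMod.unitOfCoprime p hpM) • h :=
    hh.neb (diaRep M (ZMod.unitOfCoprime p hpM)) _ (diaRep_spec M _).symm
  rw [h1, ModularForm.smul_slash, ModularForm.σ_heckeDiagMatrix, ContinuousAlgEquiv.refl_apply]

/-- the slash of `T_p h` by `γ ∈ Γ₀(M)`. -/
theorem heckeFunOne_slash (hpM : Nat.Coprime p M) (h : ℍ → ℂ) (γ : Gamma0 M) :
    (heckeFunOne M hpM h) ∣[(2 : ℤ)] (γ : SL(2, ℤ)) =
      ∑ x : OnePoint (ZMod p), (h ∣[(2 : ℤ)] ((cosetZero hpM γ x : Gamma0 M) : SL(2, ℤ)))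
        ∣[(2 : ℤ)] heckeRepOne M hpM (redMatrix p (γ : SL(2, ℤ)) • x) := by
  rw [heckeFunOne, ModularForm.SL_slash, SlashAction.sum_slash]
  refine Finset.sum_congr rfl fun x _ => ?_
  show (h ∣[(2 : ℤ)] heckeRepOne M hpM x) ∣[(2 : ℤ)] (mapGL ℝ (γ : SL(2, ℤ))) =
    (h ∣[(2 : ℤ)] (mapGL ℝ ((cosetZero hpM γ x : Gamma0 M) : SL(2, ℤ))))
      ∣[(2 : ℤ)] heckeRepOne M hpM (redMatrix p (γ : SL(2, ℤ)) • x)
  rw [← SlashAction.slash_mul, cosetZero_spec hpM γ x, SlashAction.slash_mul]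

theorem forms_sum_comp_redMatrix (hpM : Nat.Coprime p M) (h : ℍ → ℂ) (γ : SL(2, ℤ)) :
    ∑ x : OnePoint (ZMod p), h ∣[(2 : ℤ)] heckeRepOne M hpM (redMatrix p γ • x) =
      ∑ x : OnePoint (ZMod p), h ∣[(2 : ℤ)] heckeRepOne M hpM x :=
  Equiv.sum_comp (MulAction.toPerm (redMatrix p γ)) (fun x => h ∣[(2 : ℤ)] heckeRepOne M hpM x)

/-- (F2) -/
theorem IsNebCusp.hecke (hpM : Nat.Coprime p M) (hh : IsNebCusp M χ h) :
    IsNebCusp M χ (heckeFunOne M hpM h) where
  holo := by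
    rw [heckeFunOne]
    exact Finset.sum_induction _ (fun g : ℍ → ℂ => MDiff g) (fun _ _ ha hb => ha.add hb)
      mdifferentiable_const (fun _ _ => hh.holo.slash 2 _)
  inv := by
    intro γ hγ
    have h1 := heckeFunOne_slash hpM h ⟨γ, Gamma1_in_Gamma0 M hγ⟩
    rw [show ((⟨γ, Gamma1_in_Gamma0 M hγ⟩ : Gamma0 M) : SL(2, ℤ)) = γ from rfl] at h1
    rw [h1]
    have h2 : ∀ x : OnePoint (ZMod p),
        (h ∣[(2 : ℤ)] ((cosetZero hpM ⟨γ, Gamma1_in_Gamma0 M hγ⟩ x : Gamma0 M) : SL(2, ℤ)))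
          ∣[(2 : ℤ)] heckeRepOne M hpM (redMatrix p γ • x) =
        h ∣[(2 : ℤ)] heckeRepOne M hpM (redMatrix p γ • x) := by
      intro x
      rw [hh.inv _ (cosetOne_mem hpM ⟨γ, hγ⟩ x)]
    rw [Finset.sum_congr rfl fun x _ => h2 x, forms_sum_comp_redMatrix]
    rfl
  neb := by
    intro γ d hd
    rw [heckeFunOne_slash]
    have h2 : ∀ x : OnePoint (ZMod p),
        (h ∣[(2 : ℤ)] ((cosetZero hpM γ x : Gamma0 M) : SL(2, ℤ)))
          ∣[(2 : ℤ)] heckeRepOne M hpM (redMatrix p (γ : SL(2, ℤ)) • x) =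
        χ d • (h ∣[(2 : ℤ)] heckeRepOne M hpM (redMatrix p (γ : SL(2, ℤ)) • x)) := by
      intro x
      rw [hh.neb (cosetZero hpM γ x) d (hd.trans (cosetZero_map hpM γ x).symm),
        forms_smul_slash_heckeRepOne]
    rw [Finset.sum_congr rfl fun x _ => h2 x, ← Finset.smul_sum, forms_sum_comp_redMatrix]
    rfl
  zero := by
    intro δ
    rw [hh.heckeFunOne_eq hpM, SlashAction.add_slash, ModularForm.SL_smul_slash]
    have hc : IsCusp (mapGL ℝ δ • OnePoint.infty)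
        ((Gamma1 M : Subgroup SL(2, ℤ)) : Subgroup (GL (Fin 2) ℝ)) := by
      rw [Subgroup.IsArithmetic.isCusp_iff_isCusp_SL2Z, isCusp_SL2Z_iff']
      exact ⟨δ, rfl⟩
    have h1 : OnePoint.IsZeroAt (mapGL ℝ δ • OnePoint.infty) (ModularForm.heckeU 2 p h) 2 :=
      P2MW.S_CuspFormClass_isZeroAt_heckeT.ModularForm.S06W2.isZeroAt_heckeU hh.toCuspForm p hc
    obtain ⟨g, hg⟩ :=
      P2MW.S_CuspFormClass_isZeroAt_heckeT.ModularForm.S06W2.exists_heckeDiagMatrix_eq_map p
    have h2 : OnePoint.IsZeroAt (mapGL ℝ δ • OnePoint.infty)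
        (h ∣[(2 : ℤ)] ModularForm.heckeDiagMatrix p) 2 := by
      rw [hg]
      exact P2MW.S_CuspFormClass_isZeroAt_heckeT.ModularForm.S06W2.isZeroAt_slash_ratCast
        hh.toCuspForm g hc
    exact (h1 (mapGL ℝ δ) rfl).add ((h2 (mapGL ℝ δ) rfl).smul _)

/-- (F3) -/
theorem IsNebCusp.qCoeff_heckeFunOne (hpM : Nat.Coprime p M) (hh : IsNebCusp M χ h) (n : ℕ) :
    ModularFormClass.qCoeff (heckeFunOne M hpM h) n =
      ModularFormClass.qCoeff h (p * n) +
        (p : ℂ) * χ (ZMod.unitOfCoprime p hpM) *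
          (if p ∣ n then ModularFormClass.qCoeff h (n / p) else 0) := by
  have hp : p ≠ 0 := (Fact.out : p.Prime).ne_zero
  refine (hh.hecke hpM).qCoeff_eq_of_hasSum
    (c := fun n => ModularFormClass.qCoeff h (p * n) +
        (p : ℂ) * χ (ZMod.unitOfCoprime p hpM) *
          (if p ∣ n then ModularFormClass.qCoeff h (n / p) else 0)) (fun τ => ?_) n
  rw [hh.heckeFunOne_eq hpM]
  have h1 := hasSum_heckeU hp hh.periodic hh.holo hh.isBoundedAtImInfty 2 τ
  have h2 := (hasSum_diag hp hh.periodic hh.holo hh.isBoundedAtImInfty 2 τ).mul_left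
    (χ (ZMod.unitOfCoprime p hpM))
  have h3 := h1.add h2
  have e : (ModularForm.heckeU 2 p h +
      χ (ZMod.unitOfCoprime p hpM) • (h ∣[(2 : ℤ)] ModularForm.heckeDiagMatrix p)) τ =
      ModularForm.heckeU 2 p h τ + χ (ZMod.unitOfCoprime p hpM) *
        ((p : ℂ) ^ ((2 : ℤ) - 1) * h (ModularForm.heckeDiagMatrix p • τ)) := by
    rw [Pi.add_apply, Pi.smul_apply, smul_eq_mul, ModularForm.slash_heckeDiagMatrix_apply 2 hp]
  rw [e]
  convert h3 using 1
  funext m
  simp only [ModularForm.coeffHeckeU_apply, smul_eq_mul]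
  have hp1 : (p : ℂ) ^ ((2 : ℤ) - 1) = p := by norm_num
  rw [hp1, mul_comm m p]
  split_ifs <;> ring

/-- the arithmetic of the commutation of `T_p` and `T_q` on `q`-coefficients, `p ≠ q`. -/
theorem forms_comm_arith (a : ℕ → ℂ) {p q : ℕ} (hp : p.Prime) (hq : q.Prime) (hpq : p ≠ q)
    (cp cq : ℂ) (n : ℕ) :
    (a (p * (q * n)) + cp * (if p ∣ q * n then a (q * n / p) else 0)) +
      cq * (if q ∣ n then (a (p * (n / q)) + cp * (if p ∣ n / q then a (n / q / p) else 0))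
        else 0) =
    (a (q * (p * n)) + cq * (if q ∣ p * n then a (p * n / q) else 0)) +
      cp * (if p ∣ n then (a (q * (n / p)) + cq * (if q ∣ n / p then a (n / p / q) else 0))
        else 0) := by
  have hcop : Nat.Coprime p q := (Nat.coprime_primes hp hq).mpr hpq
  have e1 : p ∣ q * n ↔ p ∣ n := hcop.dvd_mul_left
  have e2 : q ∣ p * n ↔ q ∣ n := hcop.symm.dvd_mul_left
  have e0 : p * (q * n) = q * (p * n) := mul_left_comm p q n
  by_cases h1 : p ∣ n <;> by_cases h2 : q ∣ n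
  · have h3 : p ∣ n / q := by
      have h4 : p ∣ q * (n / q) := by rwa [Nat.mul_div_cancel' h2]
      exact hcop.dvd_of_dvd_mul_left h4
    have h5 : q ∣ n / p := by
      have h4 : q ∣ p * (n / p) := by rwa [Nat.mul_div_cancel' h1]
      exact hcop.symm.dvd_of_dvd_mul_left h4
    rw [if_pos (e1.mpr h1), if_pos h2, if_pos (e2.mpr h2), if_pos h1, if_pos h3, if_pos h5,
      Nat.mul_div_assoc q h1, Nat.mul_div_assoc p h2, Nat.div_div_eq_div_mul,
      Nat.div_div_eq_div_mul, mul_comm q p, e0]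
    ring
  · have h5 : ¬ q ∣ n / p := fun h => h2 (dvd_trans h (Nat.div_dvd_of_dvd h1))
    rw [if_pos (e1.mpr h1), if_neg h2, if_neg (mt e2.mp h2), if_pos h1, if_neg h5,
      Nat.mul_div_assoc q h1, e0]
    ring
  · have h3 : ¬ p ∣ n / q := fun h => h1 (dvd_trans h (Nat.div_dvd_of_dvd h2))
    rw [if_neg (mt e1.mp h1), if_pos h2, if_pos (e2.mpr h2), if_neg h1, if_neg h3,
      Nat.mul_div_assoc p h2, e0]
    ring
  · rw [if_neg (mt e1.mp h1), if_neg h2, if_neg (mt e2.mp h2), if_neg h1, e0]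
    ring

/-- (F5) the `T_p` commute on forms with nebentypus (by `q`-expansions). -/
theorem IsNebCusp.heckeFunOne_comm (hpM : Nat.Coprime p M) (hqM : Nat.Coprime q M)
    (hh : IsNebCusp M χ h) :
    heckeFunOne M hqM (heckeFunOne M hpM h) = heckeFunOne M hpM (heckeFunOne M hqM h) := by
  by_cases hpq : p = q
  · subst hpq
    rfl
  have hL := (hh.hecke hpM).hecke hqM
  have hR := (hh.hecke hqM).hecke hpM
  have hD := hL.add (hR.smul (-1))
  have h0 := hD.eq_zero_of_qCoeff (fun n => by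
    rw [hL.qCoeff_add (hR.smul (-1)), hR.qCoeff_smul, (hh.hecke hpM).qCoeff_heckeFunOne hqM,
      (hh.hecke hqM).qCoeff_heckeFunOne hpM]
    simp only [hh.qCoeff_heckeFunOne hpM, hh.qCoeff_heckeFunOne hqM]
    have key := forms_comm_arith (ModularFormClass.qCoeff h) (Fact.out : p.Prime)
      (Fact.out : q.Prime) hpq ((p : ℂ) * χ (ZMod.unitOfCoprime p hpM))
      ((q : ℂ) * χ (ZMod.unitOfCoprime q hqM)) n
    linear_combination key)
  have h1 := add_eq_zero_iff_eq_neg.mp h0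
  rw [h1]
  funext τ
  simp

/-- (F6) the diamond operator is the scalar `χ d`. -/
theorem IsNebCusp.slash_of_map (hh : IsNebCusp M χ h) (σ : Gamma0 M) (d : (ZMod M)ˣ)
    (hσ : Gamma0Map M σ = (d : ZMod M)) : h ∣[(2 : ℤ)] (σ : SL(2, ℤ)) = χ d • h :=
  hh.neb σ d hσ.symm

end Fermat.Agent.S48WA5
end
end MergeWrap_S48_W_A5_Forms

section MergeWrap_S48_W_A5_HeckePeriodCore -- from S48/W/A5/HeckePeriodCore.lean

set_option autoImplicit false

noncomputable section

namespace Fermat.Agent.S48WA5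

open CongruenceSubgroup Matrix.SpecialLinearGroup ModularCurve.Period UpperHalfPlane Filter
open scoped MatrixGroups Topology Manifold ModularForm
open P2MW.S_ModularForm_heckeT_slash_eq_self_of_mem_Gamma0.ModularForm.HeckeSlashInvariance

/-- Chain rule for the Möbius action of `GL₂(ℝ)⁺`: if `F` is a primitive of `f`, then
`F ∘ g` is a primitive of `f ∣[2] g`. -/
theorem hpc_hasDerivAt_comp_glsmul {F f : ℍ → ℂ}
    (hF : ∀ τ : ℍ, HasDerivAt (F ∘ ofComplex) (f τ) τ) {g : GL (Fin 2) ℝ}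
    (hg : 0 < g.val.det) (τ : ℍ) :
    HasDerivAt ((fun w : ℍ => F (g • w)) ∘ ofComplex) ((f ∣[(2 : ℤ)] g) τ) τ := by
  have h1 : HasDerivAt (fun z : ℂ => (((g • ofComplex z : ℍ)) : ℂ))
      ((g.val.det : ℂ) / denom g τ ^ 2) τ :=
    (hasStrictDerivAt_smul hg τ).hasDerivAt
  have h2 : HasDerivAt (F ∘ ofComplex) (f (g • ofComplex (τ : ℂ)))
      (((g • ofComplex (τ : ℂ) : ℍ)) : ℂ) := hF _
  have h3 := h2.comp (τ : ℂ) h1
  have e1 : ((fun w : ℍ => F (g • w)) ∘ ofComplex) =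
      (F ∘ ofComplex) ∘ (fun z : ℂ => (((g • ofComplex z : ℍ)) : ℂ)) := by
    funext z
    simp [Function.comp]
  rw [e1]
  have hdet : g.det.val = g.val.det := Matrix.GeneralLinearGroup.val_det_apply g
  have hσ : ∀ x : ℂ, σ g x = x := fun x => by simp [σ, hdet, hg]
  have e2 : f (g • ofComplex (τ : ℂ)) * ((g.val.det : ℂ) / denom g τ ^ 2) =
      (f ∣[(2 : ℤ)] g) τ := by
    rw [ModularForm.slash_apply, hσ, hdet, abs_of_pos hg, ofComplex_apply]
    simp only [zpow_neg]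
    norm_num
    ring
  rw [← e2]
  exact h3

variable {M : ℕ} [NeZero M] {h F : ℍ → ℂ} {p : ℕ} [Fact p.Prime]

omit [NeZero M] in
/-- the determinant of `heckeRep p x` is `p`. -/
theorem hpc_val_det_heckeRep (x : OnePoint (ZMod p)) :
    (heckeRep p x : GL (Fin 2) ℝ).val.det = (p : ℝ) := by
  have hp : p ≠ 0 := (Fact.out : p.Prime).ne_zero
  induction x using OnePoint.rec with
  | infty =>
    rw [heckeRep_infty, ModularForm.val_heckeDiagMatrix hp, Matrix.det_fin_two_of]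
    simp
  | coe j =>
    rw [heckeRep_coe, ModularForm.val_heckeMatrix hp, Matrix.det_fin_two_of]
    simp

omit [NeZero M] in
theorem hpc_val_det_mapGL (g : SL(2, ℤ)) : (mapGL ℝ g : GL (Fin 2) ℝ).val.det = 1 := by
  rw [← Matrix.GeneralLinearGroup.val_det_apply]
  simp

/-- the determinant of `heckeRepOne M hpM x` is positive. -/
theorem hpc_val_det_heckeRepOne_pos (hpM : Nat.Coprime p M) (x : OnePoint (ZMod p)) :
    0 < (heckeRepOne M hpM x : GL (Fin 2) ℝ).val.det := by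
  have hp : 0 < p := (Fact.out : p.Prime).pos
  rw [heckeRepOne_eq, Units.val_mul, Matrix.det_mul, hpc_val_det_mapGL, one_mul,
    hpc_val_det_heckeRep]
  exact_mod_cast hp

omit [NeZero M] in
/-- `heckeRep p x` maps `atImInfty` to itself. -/
theorem hpc_tendsto_heckeRep_smul (x : OnePoint (ZMod p)) :
    Tendsto (fun w : ℍ => heckeRep p x • w) atImInfty atImInfty := by
  have hp : 0 < p := (Fact.out : p.Prime).pos
  rw [atImInfty, tendsto_comap_iff]
  have hLRpos : (0 : ℝ) < (heckeLR p x : ℝ) := by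
    induction x using OnePoint.rec with
    | infty => simp [heckeLR]
    | coe j =>
      show (0 : ℝ) < ((p : ℕ) : ℝ)
      exact_mod_cast hp
  have him : ∀ w : ℍ, (heckeRep p x • w).im =
      ((p : ℝ) / ((heckeLR p x : ℝ) * (heckeLR p x : ℝ))) * w.im := by
    intro w
    rw [UpperHalfPlane.im_smul_eq_div_normSq, Matrix.GeneralLinearGroup.val_det_apply,
      hpc_val_det_heckeRep]
    have hden : denom (heckeRep p x) w = ((heckeLR p x : ℝ) : ℂ) := by
      rw [denom, heckeRep_one_zero, heckeRep_one_one]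
      simp
    rw [hden, Complex.normSq_ofReal]
    have hpos : (0 : ℝ) < (p : ℝ) := by exact_mod_cast hp
    rw [abs_of_pos hpos]
    field_simp
  have hfun : (UpperHalfPlane.im ∘ fun w : ℍ => heckeRep p x • w) =
      fun w : ℍ => ((p : ℝ) / ((heckeLR p x : ℝ) * (heckeLR p x : ℝ))) * w.im := funext him
  rw [hfun]
  have hc : (0 : ℝ) < (p : ℝ) / ((heckeLR p x : ℝ) * (heckeLR p x : ℝ)) := by
    apply div_pos
    · exact_mod_cast hp
    · exact mul_pos hLRpos hLRpos
  exact (tendsto_comap.const_mul_atTop hc)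

/-- limits at the cusps of `w ↦ F (heckeRepOne M hpM x • w)`. -/
theorem hpc_cusp (hpM : Nat.Coprime p M) (hF : PrimOne M h F) (x : OnePoint (ZMod p))
    (δ : SL(2, ℤ)) :
    ∃ L : ℂ, Tendsto (fun w : ℍ => F (heckeRepOne M hpM x • (δ • w))) atImInfty (𝓝 L) := by
  have hp : p.Prime := Fact.out
  have hp1 : ¬ p ∣ 1 := fun hd => hp.one_lt.ne' (Nat.dvd_one.mp hd)
  obtain ⟨g', -, hmul⟩ := heckeRep_mul (N := 1) hp1 δ (by simp) x
  obtain ⟨L, hL⟩ := hF.cusp (((cosetTwist hpM x : Gamma0 M) : SL(2, ℤ)) * g')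
  refine ⟨L, ?_⟩
  have hfun : (fun w : ℍ => F (heckeRepOne M hpM x • (δ • w))) =
      (fun w : ℍ => F ((((cosetTwist hpM x : Gamma0 M) : SL(2, ℤ)) * g') • w)) ∘
        (fun w : ℍ => heckeRep p (redMatrix p δ • x) • w) := by
    funext w
    simp only [Function.comp]
    have h1 : δ • w = mapGL ℝ δ • w := rfl
    have h2 : ∀ (g : SL(2, ℤ)) (w : ℍ), g • w = mapGL ℝ g • w := fun _ _ => rfl
    rw [h1, ← mul_smul, heckeRepOne_eq, mul_assoc, hmul, h2, map_mul, ← mul_smul, mul_assoc]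
  rw [hfun]
  exact hL.comp (hpc_tendsto_heckeRep_smul _)

/-- the key relation: `F (α'_x γ z) = F (α'_{γ̄ x} z) + period (γ_x)`. -/
theorem hpc_key (hpM : Nat.Coprime p M) (hF : PrimOne M h F) (γ : Gamma1 M)
    (x : OnePoint (ZMod p)) (z : ℍ) :
    F (heckeRepOne M hpM x • ((γ : SL(2, ℤ)) • z)) =
      F (heckeRepOne M hpM (redMatrix p (γ : SL(2, ℤ)) • x) • z) +
        hF.equiv.period (cosetOne hpM γ x) := by
  have h1 : (γ : SL(2, ℤ)) • z = mapGL ℝ (γ : SL(2, ℤ)) • z := rfl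
  have h2 : ∀ (g : SL(2, ℤ)) (w : ℍ), mapGL ℝ g • w = g • w := fun _ _ => rfl
  rw [h1, ← mul_smul, cosetOne_spec hpM γ x, mul_smul, h2]
  have h3 := hF.equiv.sub_eq_period (cosetOne hpM γ x)
    (heckeRepOne M hpM (redMatrix p (γ : SL(2, ℤ)) • x) • z)
  rw [← h3]
  ring

/-- (H1, core) the primitive of `T_p h`. -/
theorem PrimOne.heckeCore (hpM : Nat.Coprime p M) (hF : PrimOne M h F) :
    PrimOne M (∑ x : OnePoint (ZMod p), h ∣[(2 : ℤ)] heckeRepOne M hpM x)
      (fun z => ∑ x : OnePoint (ZMod p), F (heckeRepOne M hpM x • z)) where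
  deriv := by
    intro τ
    rw [Finset.sum_apply]
    have hd : ∀ x ∈ (Finset.univ : Finset (OnePoint (ZMod p))),
        HasDerivAt ((fun w : ℍ => F (heckeRepOne M hpM x • w)) ∘ ofComplex)
          ((h ∣[(2 : ℤ)] heckeRepOne M hpM x) τ) τ := fun x _ =>
      hpc_hasDerivAt_comp_glsmul hF.deriv (hpc_val_det_heckeRepOne_pos hpM x) τ
    have hs := HasDerivAt.fun_sum hd
    refine hs.congr_of_eventuallyEq (Eventually.of_forall fun z => ?_)
    simp [Function.comp]
  equiv := by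
    intro γ
    refine ⟨∑ x : OnePoint (ZMod p), hF.equiv.period (cosetOne hpM γ x), fun z => ?_⟩
    have hperm : ∑ x : OnePoint (ZMod p),
        F (heckeRepOne M hpM (redMatrix p (γ : SL(2, ℤ)) • x) • z) =
        ∑ x : OnePoint (ZMod p), F (heckeRepOne M hpM x • z) :=
      Equiv.sum_comp (MulAction.toPerm (redMatrix p (γ : SL(2, ℤ))))
        (fun x => F (heckeRepOne M hpM x • z))
    simp only [hpc_key hpM hF γ, Finset.sum_add_distrib, hperm]
    ring
  cusp := by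
    intro δ
    choose L hL using fun x => hpc_cusp hpM hF x δ
    exact ⟨∑ x, L x, tendsto_finsetSum _ fun x _ => hL x⟩

/-- (H1, core) the periods of `T_p h`. -/
theorem PrimOne.heckeCore_period (hpM : Nat.Coprime p M) (hF : PrimOne M h F) (γ : Gamma1 M) :
    (hF.heckeCore hpM).equiv.periodHom (Additive.ofMul γ) =
      ∑ x : OnePoint (ZMod p), hF.equiv.periodHom (Additive.ofMul (cosetOne hpM γ x)) := by
  rw [IsEquivariantPrimitive.periodHom_apply]
  simp only [IsEquivariantPrimitive.periodHom_apply]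
  show (∑ x : OnePoint (ZMod p), F (heckeRepOne M hpM x • ((γ : SL(2, ℤ)) • UpperHalfPlane.I))) -
    ∑ x : OnePoint (ZMod p), F (heckeRepOne M hpM x • UpperHalfPlane.I) = _
  have hperm : ∑ x : OnePoint (ZMod p),
      F (heckeRepOne M hpM (redMatrix p (γ : SL(2, ℤ)) • x) • UpperHalfPlane.I) =
      ∑ x : OnePoint (ZMod p), F (heckeRepOne M hpM x • UpperHalfPlane.I) :=
    Equiv.sum_comp (MulAction.toPerm (redMatrix p (γ : SL(2, ℤ))))
      (fun x => F (heckeRepOne M hpM x • UpperHalfPlane.I))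
  simp only [hpc_key hpM hF γ, Finset.sum_add_distrib, hperm]
  ring

/-- (H2) the primitive and the periods of `h ∣ σ`, `σ ∈ Γ₀(M)`. -/
theorem PrimOne.diamond (σ : Gamma0 M) (hF : PrimOne M h F) :
    ∃ hG : PrimOne M (h ∣[(2 : ℤ)] (σ : SL(2, ℤ))) (fun z => F ((σ : SL(2, ℤ)) • z)),
      ∀ γ : Gamma1 M, hG.equiv.periodHom (Additive.ofMul γ) =
        hF.equiv.periodHom (Additive.ofMul (conjOne σ γ)) := by
  have key : ∀ (γ : Gamma1 M) (z : ℍ), F ((σ : SL(2, ℤ)) • ((γ : SL(2, ℤ)) • z)) =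
      F ((σ : SL(2, ℤ)) • z) + hF.equiv.period (conjOne σ γ) := by
    intro γ z
    have h3 := hF.equiv.sub_eq_period (conjOne σ γ) ((σ : SL(2, ℤ)) • z)
    have h4 : ((conjOne σ γ : Gamma1 M) : SL(2, ℤ)) • ((σ : SL(2, ℤ)) • z) =
        (σ : SL(2, ℤ)) • ((γ : SL(2, ℤ)) • z) := by
      rw [← mul_smul, ← mul_smul]
      show ((σ : SL(2, ℤ)) * (γ : SL(2, ℤ)) * (σ : SL(2, ℤ))⁻¹ * (σ : SL(2, ℤ))) • z = _
      rw [inv_mul_cancel_right]
    rw [h4] at h3
    rw [← h3]
    ring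
  have hG : PrimOne M (h ∣[(2 : ℤ)] (σ : SL(2, ℤ))) (fun z => F ((σ : SL(2, ℤ)) • z)) :=
    { deriv := S21.hasDerivAt_comp_smul hF.deriv (σ : SL(2, ℤ))
      equiv := fun γ => ⟨hF.equiv.period (conjOne σ γ), fun z => by
        show F ((σ : SL(2, ℤ)) • ((γ : SL(2, ℤ)) • z)) - F ((σ : SL(2, ℤ)) • z) = _
        rw [key γ z]; ring⟩
      cusp := fun δ => by
        obtain ⟨L, hL⟩ := hF.cusp ((σ : SL(2, ℤ)) * δ)
        refine ⟨L, ?_⟩
        have hfun : (fun w : ℍ => F ((σ : SL(2, ℤ)) • (δ • w))) =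
            fun w : ℍ => F (((σ : SL(2, ℤ)) * δ) • w) := by
          funext w
          rw [mul_smul]
        show Tendsto (fun w : ℍ => F ((σ : SL(2, ℤ)) • (δ • w))) atImInfty (𝓝 L)
        rw [hfun]
        exact hL }
  refine ⟨hG, fun γ => ?_⟩
  rw [IsEquivariantPrimitive.periodHom_apply, IsEquivariantPrimitive.periodHom_apply]
  show F ((σ : SL(2, ℤ)) • ((γ : SL(2, ℤ)) • UpperHalfPlane.I)) -
    F ((σ : SL(2, ℤ)) • UpperHalfPlane.I) = _
  rw [key γ UpperHalfPlane.I]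
  ring

end Fermat.Agent.S48WA5
end
end MergeWrap_S48_W_A5_HeckePeriodCore

section MergeWrap_S48_W_A5_HeckePeriodAll -- from S48/W/A5/HeckePeriodAll.lean

set_option autoImplicit false

noncomputable section

namespace Fermat.Agent.S48WA5

open CongruenceSubgroup Matrix.SpecialLinearGroup ModularCurve.Period UpperHalfPlane Filter
open scoped MatrixGroups Topology Manifold ModularForm
open P2MW.S_ModularForm_heckeT_slash_eq_self_of_mem_Gamma0.ModularForm.HeckeSlashInvariance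

variable {M : ℕ} [NeZero M] {h F : ℍ → ℂ} {p : ℕ} [Fact p.Prime]

/-- (H1), with the Hecke operator on functions written as the sum over `heckeRepOne`. -/
theorem PrimOne.heckeAll (hpM : Nat.Coprime p M) (hF : PrimOne M h F) :
    ∃ hG : PrimOne M (∑ x : OnePoint (ZMod p), h ∣[(2 : ℤ)] heckeRepOne M hpM x)
        (fun z => ∑ x : OnePoint (ZMod p), F (heckeRepOne M hpM x • z)),
      hG.equiv.periodHom = heckeAllOne hpM ℂ hF.equiv.periodHom := by
  refine ⟨hF.heckeCore hpM, AddMonoidHom.ext fun γ => ?_⟩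
  obtain ⟨γ, rfl⟩ := Additive.ofMul.surjective γ
  rw [PrimOne.heckeCore_period hpM hF γ, heckeAllOne_apply]

/-- (H2) in terms of `diamondAllOne`: the periods of `h ∣ σ_d`. -/
theorem PrimOne.diamondAll (d : (ZMod M)ˣ) (hF : PrimOne M h F) :
    ∃ hG : PrimOne M (h ∣[(2 : ℤ)] ((diaRep M d : Gamma0 M) : SL(2, ℤ)))
        (fun z => F (((diaRep M d : Gamma0 M) : SL(2, ℤ)) • z)),
      hG.equiv.periodHom = diamondAllOne M d ℂ hF.equiv.periodHom := by
  obtain ⟨hG, hper⟩ := PrimOne.diamond (diaRep M d) hF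
  refine ⟨hG, AddMonoidHom.ext fun γ => ?_⟩
  obtain ⟨γ, rfl⟩ := Additive.ofMul.surjective γ
  rw [hper γ, diamondAllOne_apply]

end Fermat.Agent.S48WA5
end
end MergeWrap_S48_W_A5_HeckePeriodAll

section MergeWrap_S48_W_A5_RedPeriod -- from S48/W/A5/RedPeriod.lean

set_option autoImplicit false
set_option linter.style.haveILetI false

noncomputable section

namespace Fermat.Agent.S48WA5

open CongruenceSubgroup Matrix.SpecialLinearGroup ModularCurve.Period UpperHalfPlane Filter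
open scoped MatrixGroups Topology Manifold ModularForm TensorProduct
open P2MW.S_ModularForm_heckeT_slash_eq_self_of_mem_Gamma0.ModularForm.HeckeSlashInvariance

/-- `v` is the period class of the function `h`. -/
def IsPeriodOf (M : ℕ) [NeZero M] (v : ℂ ⊗[ℤ] HomParOne M) (h : ℍ → ℂ) : Prop :=
  ∃ (F : ℍ → ℂ) (hF : PrimOne M h F), compMapOne M v = hF.equiv.periodHom

variable {M : ℕ} [NeZero M] {v v' : ℂ ⊗[ℤ] HomParOne M} {h h' : ℍ → ℂ}

theorem isPeriodOf_zero (M : ℕ) [NeZero M] : IsPeriodOf M 0 0 := by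
  refine ⟨0, primOne_zero M, ?_⟩
  rw [map_zero]
  refine AddMonoidHom.ext fun γ => ?_
  obtain ⟨γ, rfl⟩ := Additive.ofMul.surjective γ
  simp [IsEquivariantPrimitive.periodHom_apply, IsEquivariantPrimitive.period]

theorem IsPeriodOf.add (hv : IsPeriodOf M v h) (hv' : IsPeriodOf M v' h') :
    IsPeriodOf M (v + v') (h + h') := by
  obtain ⟨F, hF, e⟩ := hv
  obtain ⟨F', hF', e'⟩ := hv'
  exact ⟨F + F', hF.add hF', by rw [map_add, e, e', PrimOne.periodHom_add hF hF']⟩

theorem IsPeriodOf.smul (c : ℂ) (hv : IsPeriodOf M v h) : IsPeriodOf M (c • v) (c • h) := by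
  obtain ⟨F, hF, e⟩ := hv
  refine ⟨c • F, hF.smul c, ?_⟩
  rw [map_smul, e]
  refine AddMonoidHom.ext fun γ => ?_
  rw [PrimOne.periodHom_smul c hF γ]
  rfl

theorem IsPeriodOf.neg (hv : IsPeriodOf M v h) : IsPeriodOf M (-v) (-h) := by
  have := hv.smul (-1)
  simpa using this

theorem IsPeriodOf.sub (hv : IsPeriodOf M v h) (hv' : IsPeriodOf M v' h') :
    IsPeriodOf M (v - v') (h - h') := by
  rw [sub_eq_add_neg, sub_eq_add_neg]
  exact hv.add hv'.neg

/-- the form is determined by the class. -/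
theorem IsPeriodOf.form_eq (hv : IsPeriodOf M v h) (hv' : IsPeriodOf M v h') : h = h' := by
  obtain ⟨F, hF, e⟩ := hv.sub hv'
  rw [sub_self, map_zero] at e
  exact sub_eq_zero.mp (hF.eq_zero_of_periodHom_eq_zero e.symm)

/-- the class is determined by the form. -/
theorem IsPeriodOf.class_eq (hv : IsPeriodOf M v h) (hv' : IsPeriodOf M v' h) : v = v' := by
  obtain ⟨F, hF, e⟩ := hv
  obtain ⟨F', hF', e'⟩ := hv'
  apply compMapOne_injective M
  rw [e, e', hF.periodHom_eq hF']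

/-- every function with a primitive has a period class. -/
theorem exists_isPeriodOf {F : ℍ → ℂ} (hF : PrimOne M h F) :
    ∃ v : ℂ ⊗[ℤ] HomParOne M, IsPeriodOf M v h := by
  obtain ⟨v, hv⟩ := mem_range_compMapOne M hF.isParabolicHom
  exact ⟨v, F, hF, hv⟩

/-- `T_p` on classes and on forms. -/
theorem IsPeriodOf.hecke (p : Nat.Primes) (hpM : Nat.Coprime (p : ℕ) M)
    (hv : IsPeriodOf M v h) :
    haveI : Fact (p : ℕ).Prime := ⟨p.2⟩
    IsPeriodOf M ((heckeHomOne M p).baseChange ℂ v) (heckeFunOne M hpM h) := by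
  haveI : Fact (p : ℕ).Prime := ⟨p.2⟩
  obtain ⟨F, hF, e⟩ := hv
  obtain ⟨hG, hGe⟩ := hF.heckeAll hpM
  exact ⟨_, hG, by rw [compMapOne_heckeHomOne p hpM, e, hGe]⟩

/-- `⟨d⟩` on classes and on forms. -/
theorem IsPeriodOf.diamond (d : (ZMod M)ˣ) (hv : IsPeriodOf M v h) :
    IsPeriodOf M ((diamondHomOne M d).baseChange ℂ v)
      (h ∣[(2 : ℤ)] ((diaRep M d : Gamma0 M) : SL(2, ℤ))) := by
  obtain ⟨F, hF, e⟩ := hv
  obtain ⟨hG, hGe⟩ := hF.diamond (diaRep M d)
  refine ⟨_, hG, ?_⟩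
  rw [compMapOne_diamondHomOne, e]
  refine AddMonoidHom.ext fun γ => ?_
  obtain ⟨γ, rfl⟩ := Additive.ofMul.surjective γ
  rw [diamondAllOne_apply, hGe]

end Fermat.Agent.S48WA5
end
end MergeWrap_S48_W_A5_RedPeriod

section MergeWrap_S48_W_A5_AlgLA -- from S48/W/A5/AlgLA.lean

set_option autoImplicit false

noncomputable section

namespace Fermat.Agent.S48WA5

open Polynomial Module

variable {k W : Type*} [Field k] [AddCommGroup W] [Module k W]

/-- polynomials in an element of a subalgebra of `End_k(W) × k`. -/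
theorem a5la_aeval_mem (R : Subalgebra k (Module.End k W × k)) {r : Module.End k W × k}
    (hr : r ∈ R) (P : k[X]) : (aeval r.1 P, P.eval r.2) ∈ R := by
  have h1 : aeval r P ∈ R := by
    have := (aeval (⟨r, hr⟩ : R) P).2
    rwa [Polynomial.aeval_subalgebra_coe] at this
  rw [Polynomial.aeval_prod_apply] at h1
  have h2 : aeval r.2 P = P.eval r.2 := by
    rw [Polynomial.aeval_def, Polynomial.eval₂_eq_eval_map]
    simp
  rwa [h2] at h1

/-- a nilpotent endomorphism has a kernel vector in every nonzero stable vector's orbit. -/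
theorem a5la_exists_ker_of_pow {n : Module.End k W} {a : ℕ} {w : W} (hw : w ≠ 0)
    (hn : (n ^ a) w = 0) : ∃ m : ℕ, (n ^ m) w ≠ 0 ∧ n ((n ^ m) w) = 0 := by
  classical
  have hex : ∃ m : ℕ, (n ^ m) w = 0 := ⟨a, hn⟩
  set m := Nat.find hex with hm
  have hm0 : (n ^ m) w = 0 := Nat.find_spec hex
  have hmpos : m ≠ 0 := by
    intro h0
    rw [h0, pow_zero] at hm0
    exact hw hm0
  obtain ⟨m', hm'⟩ := Nat.exists_eq_succ_of_ne_zero hmpos
  refine ⟨m', ?_, ?_⟩
  · exact Nat.find_min hex (by omega)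
  · rw [← Module.End.mul_apply, ← pow_succ']
    have : m' + 1 = m := by omega
    rw [this]
    exact hm0

variable [FiniteDimensional k W]

theorem a5la_aux (R : Subalgebra k (Module.End k W × k))
    (hcomm : ∀ r ∈ R, ∀ r' ∈ R, r.1 * r'.1 = r'.1 * r.1) :
    ∀ (d : ℕ) (U : Submodule k W), Module.finrank k U = d →
      (∀ r ∈ R, ∀ u ∈ U, r.1 u ∈ U) →
      (∀ r ∈ R, ∃ w ∈ U, w ≠ 0 ∧ r.1 w = r.2 • w) →
      ∃ w ∈ U, w ≠ 0 ∧ ∀ r ∈ R, r.1 w = r.2 • w := by
  intro d
  induction d using Nat.strong_induction_on with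
  | _ d ih =>
  intro U hd hstab heig
  by_cases hall : ∀ r ∈ R, ∀ u ∈ U, r.1 u = r.2 • u
  · obtain ⟨w, hwU, hw0, -⟩ := heig 1 R.one_mem
    exact ⟨w, hwU, hw0, fun r hr => hall r hr w hwU⟩
  rw [not_forall] at hall
  obtain ⟨r₀, hall⟩ := hall
  rw [Classical.not_imp] at hall
  obtain ⟨hr₀, hall⟩ := hall
  rw [not_forall] at hall
  obtain ⟨u₀, hall⟩ := hall
  rw [Classical.not_imp] at hall
  obtain ⟨hu₀, hne⟩ := hall
  -- the element `ν = r₀ - r₀.2` of the kernel of the character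
  set ν : Module.End k W × k := r₀ - algebraMap k _ r₀.2 with hν
  have hνR : ν ∈ R := R.sub_mem hr₀ (R.algebraMap_mem _)
  have hν2 : ν.2 = 0 := by simp [hν]
  have hν1 : ν.1 = r₀.1 - algebraMap k (Module.End k W) r₀.2 := by simp [hν]
  obtain ⟨n, hn⟩ : ∃ n : Module.End k W, n = ν.1 := ⟨_, rfl⟩
  have hnu₀ : n u₀ ≠ 0 := by
    rw [hn, hν1, LinearMap.sub_apply, Module.algebraMap_end_apply]
    exact sub_ne_zero.mpr hne
  -- an annihilating polynomial
  set P : k[X] := minpoly k n with hP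
  have hPint : IsIntegral k n := Algebra.IsIntegral.isIntegral n
  have hP0 : P ≠ 0 := minpoly.ne_zero hPint
  have hPn : aeval n P = 0 := minpoly.aeval k n
  -- `0` is a root
  obtain ⟨w₁, -, hw₁0, hw₁⟩ := heig ν hνR
  rw [hν2, zero_smul, ← hn] at hw₁
  have hroot : P.IsRoot 0 := by
    have hev : n.HasEigenvector 0 w₁ :=
      ⟨Module.End.mem_eigenspace_iff.mpr (by rw [zero_smul]; exact hw₁), hw₁0⟩
    have h1 := Module.End.aeval_apply_of_hasEigenvector (p := P) hev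
    rw [hPn, LinearMap.zero_apply] at h1
    rcases smul_eq_zero.mp h1.symm with h2 | h2
    · exact h2
    · exact absurd h2 hw₁0
  obtain ⟨Q, hPQ, hQ⟩ := Polynomial.exists_eq_pow_rootMultiplicity_mul_and_not_dvd P hP0 0
  set a := Polynomial.rootMultiplicity 0 P with ha
  have hapos : 0 < a := (Polynomial.rootMultiplicity_pos hP0).mpr hroot
  rw [map_zero, sub_zero] at hPQ hQ
  have hcop : IsCoprime (X ^ a : k[X]) Q :=
    ((Polynomial.irreducible_X).coprime_iff_not_dvd.mpr hQ).pow_left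
  obtain ⟨A, B, hAB⟩ := hcop
  -- the idempotents
  obtain ⟨e₂, he₂⟩ : ∃ e : Module.End k W, e = aeval n (A * X ^ a) := ⟨_, rfl⟩
  obtain ⟨e₁, he₁⟩ : ∃ e : Module.End k W, e = aeval n (B * Q) := ⟨_, rfl⟩
  obtain ⟨ε₂, hε₂⟩ : ∃ ε : Module.End k W × k, ε = (e₂, 0) := ⟨_, rfl⟩
  obtain ⟨ε₁, hε₁⟩ : ∃ ε : Module.End k W × k, ε = (e₁, 1) := ⟨_, rfl⟩
  have hε₂R : ε₂ ∈ R := by
    have h := a5la_aeval_mem R hνR (A * X ^ a)
    rw [hν2, ← hn, ← he₂] at h
    have h0 : (A * X ^ a).eval (0 : k) = 0 := by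
      simp only [Polynomial.eval_mul, Polynomial.eval_pow, Polynomial.eval_X]
      rw [zero_pow hapos.ne', mul_zero]
    rw [h0, ← hε₂] at h
    exact h
  have hε₁R : ε₁ ∈ R := by
    have h := a5la_aeval_mem R hνR (B * Q)
    rw [hν2, ← hn, ← he₁] at h
    have h0 : (B * Q).eval (0 : k) = 1 := by
      have h1 := congrArg (Polynomial.eval (0 : k)) hAB
      simp only [Polynomial.eval_add, Polynomial.eval_mul, Polynomial.eval_pow,
        Polynomial.eval_X, Polynomial.eval_one] at h1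
      rw [zero_pow hapos.ne', mul_zero, zero_add] at h1
      simp only [Polynomial.eval_mul]
      exact h1
    rw [h0, ← hε₁] at h
    exact h
  have hε₂1 : ε₂.1 = e₂ := by rw [hε₂]
  have hε₁1 : ε₁.1 = e₁ := by rw [hε₁]
  have hε₂2 : ε₂.2 = 0 := by rw [hε₂]
  have hε₁2 : ε₁.2 = 1 := by rw [hε₁]
  have hsum : e₂ + e₁ = 1 := by
    rw [he₂, he₁, ← map_add, hAB, map_one]
  have hprod : e₂ * e₁ = 0 := by
    rw [he₂, he₁, ← map_mul]
    have : A * X ^ a * (B * Q) = A * B * P := by rw [hPQ]; ring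
    rw [this, map_mul, hPn, mul_zero]
  have he₂e₂ : e₂ * e₂ = e₂ := by
    have h1 : e₂ * (e₂ + e₁) = e₂ := by rw [hsum, mul_one]
    rw [mul_add, hprod, add_zero] at h1
    exact h1
  have hna : n ^ a * e₁ = 0 := by
    have h1 : n ^ a = aeval n (X ^ a : k[X]) := by simp
    rw [h1, he₁, ← map_mul]
    have : X ^ a * (B * Q) = B * P := by rw [hPQ]; ring
    rw [this, map_mul, hPn, mul_zero]
  have hce₂ : ∀ r ∈ R, e₂ * r.1 = r.1 * e₂ := fun r hr => by
    have := hcomm ε₂ hε₂R r hr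
    rwa [hε₂1] at this
  have hcn : ∀ r ∈ R, n * r.1 = r.1 * n := fun r hr => by
    have := hcomm ν hνR r hr
    rwa [← hn] at this
  by_cases hA : ∃ u ∈ U, e₂ u ≠ 0
  · -- Case A: pass to `U ⊓ ker e₂`
    obtain ⟨u₁, hu₁U, hu₁⟩ := hA
    set U₁ : Submodule k W := U ⊓ LinearMap.ker e₂ with hU₁
    have hlt : U₁ < U := by
      refine lt_of_le_of_ne inf_le_left ?_
      intro heq
      have : u₁ ∈ U₁ := by rw [heq]; exact hu₁U
      rw [hU₁, Submodule.mem_inf] at this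
      exact hu₁ (LinearMap.mem_ker.mp this.2)
    have hfr : Module.finrank k U₁ < d := hd ▸ Submodule.finrank_lt_finrank_of_lt hlt
    have hstab₁ : ∀ r ∈ R, ∀ u ∈ U₁, r.1 u ∈ U₁ := by
      intro r hr u hu
      rw [hU₁, Submodule.mem_inf] at hu ⊢
      refine ⟨hstab r hr u hu.1, ?_⟩
      rw [LinearMap.mem_ker, ← Module.End.mul_apply, hce₂ r hr, Module.End.mul_apply,
        LinearMap.mem_ker.mp hu.2, map_zero]
    have heig₁ : ∀ r ∈ R, ∃ w ∈ U₁, w ≠ 0 ∧ r.1 w = r.2 • w := by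
      intro r hr
      set r'' : Module.End k W × k := r * ε₁ + algebraMap k _ (r.2 + 1) * ε₂ with hr''
      have hr''R : r'' ∈ R :=
        R.add_mem (R.mul_mem hr hε₁R) (R.mul_mem (R.algebraMap_mem _) hε₂R)
      have hr''2 : r''.2 = r.2 := by
        simp only [hr'', Prod.snd_add, Prod.snd_mul, hε₁2, hε₂2, mul_one, mul_zero, add_zero]
      have hr''1 : r''.1 = r.1 * e₁ + algebraMap k (Module.End k W) (r.2 + 1) * e₂ := by
        simp only [hr'', Prod.fst_add, Prod.fst_mul, hε₁1, hε₂1]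
        rfl
      obtain ⟨w, hwU, hw0, hw⟩ := heig r'' hr''R
      rw [hr''2, hr''1] at hw
      have hre : e₂ * (r.1 * e₁) = 0 := by
        rw [← mul_assoc, hce₂ r hr, mul_assoc, hprod, mul_zero]
      have h2 : e₂ w = 0 := by
        have h3 := congrArg e₂ hw
        rw [LinearMap.add_apply, map_add, ← Module.End.mul_apply, hre, LinearMap.zero_apply,
          zero_add, Module.End.mul_apply, Module.algebraMap_end_apply, map_smul,
          ← Module.End.mul_apply, he₂e₂, map_smul] at h3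
        have h4 : (r.2 + 1) • e₂ w - r.2 • e₂ w = 0 := sub_eq_zero.mpr h3
        rw [← sub_smul, add_sub_cancel_left, one_smul] at h4
        exact h4
      have h5 : e₁ w = w := by
        have := congrArg (fun f : Module.End k W => f w) hsum
        simp only [LinearMap.add_apply, Module.End.one_apply, h2, zero_add] at this
        exact this
      refine ⟨w, Submodule.mem_inf.mpr ⟨hwU, LinearMap.mem_ker.mpr h2⟩, hw0, ?_⟩
      rw [LinearMap.add_apply, Module.End.mul_apply, h5, Module.End.mul_apply, h2, map_zero,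
        add_zero] at hw
      exact hw
    obtain ⟨w, hwU₁, hw0, hw⟩ := ih _ hfr U₁ rfl hstab₁ heig₁
    exact ⟨w, (Submodule.mem_inf.mp hwU₁).1, hw0, hw⟩
  · -- Case B: `n` is nilpotent on `U`; pass to `U ⊓ ker n`
    rw [not_exists] at hA
    have hA' : ∀ u ∈ U, e₂ u = 0 := fun u hu => by
      by_contra h
      exact hA u ⟨hu, h⟩
    have hnil : ∀ u ∈ U, (n ^ a) u = 0 := by
      intro u hu
      have h1 : u = e₁ u := by
        have := congrArg (fun f : Module.End k W => f u) hsum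
        simp only [LinearMap.add_apply, Module.End.one_apply, hA' u hu, zero_add] at this
        exact this.symm
      rw [h1, ← Module.End.mul_apply, hna, LinearMap.zero_apply]
    set U₂ : Submodule k W := U ⊓ LinearMap.ker n with hU₂
    have hlt : U₂ < U := by
      refine lt_of_le_of_ne inf_le_left ?_
      intro heq
      have : u₀ ∈ U₂ := by rw [heq]; exact hu₀
      rw [hU₂, Submodule.mem_inf] at this
      exact hnu₀ (LinearMap.mem_ker.mp this.2)
    have hfr : Module.finrank k U₂ < d := hd ▸ Submodule.finrank_lt_finrank_of_lt hlt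
    have hstab₂ : ∀ r ∈ R, ∀ u ∈ U₂, r.1 u ∈ U₂ := by
      intro r hr u hu
      rw [hU₂, Submodule.mem_inf] at hu ⊢
      refine ⟨hstab r hr u hu.1, ?_⟩
      rw [LinearMap.mem_ker, ← Module.End.mul_apply, hcn r hr, Module.End.mul_apply,
        LinearMap.mem_ker.mp hu.2, map_zero]
    have hpowstab : ∀ m : ℕ, ∀ u ∈ U, (n ^ m) u ∈ U := by
      intro m
      induction m with
      | zero => intro u hu; simpa using hu
      | succ m ihm =>
        intro u hu
        rw [pow_succ', Module.End.mul_apply]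
        have h1 := hstab ν hνR _ (ihm u hu)
        rwa [← hn] at h1
    have hpowcomm : ∀ (m : ℕ) (r : Module.End k W × k), r ∈ R → r.1 * n ^ m = n ^ m * r.1 := by
      intro m r hr
      induction m with
      | zero => simp
      | succ m ihm =>
        rw [pow_succ, ← mul_assoc, ihm, mul_assoc, ← hcn r hr, ← mul_assoc]
    have heig₂ : ∀ r ∈ R, ∃ w ∈ U₂, w ≠ 0 ∧ r.1 w = r.2 • w := by
      intro r hr
      obtain ⟨w, hwU, hw0, hw⟩ := heig r hr
      obtain ⟨m, hm0, hm1⟩ := a5la_exists_ker_of_pow hw0 (hnil w hwU)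
      refine ⟨(n ^ m) w, Submodule.mem_inf.mpr ⟨hpowstab m w hwU, LinearMap.mem_ker.mpr hm1⟩,
        hm0, ?_⟩
      rw [← Module.End.mul_apply, hpowcomm m r hr, Module.End.mul_apply, hw, map_smul]
    obtain ⟨w, hwU₂, hw0, hw⟩ := ih _ hfr U₂ rfl hstab₂ heig₂
    exact ⟨w, (Submodule.mem_inf.mp hwU₂).1, hw0, hw⟩

/-- **common eigenvector** of a commutative algebra of operators with a character all of whose
values are eigenvalues. -/
theorem a5la_exists_common_eigenvector (R : Subalgebra k (Module.End k W × k))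
    (hcomm : ∀ r ∈ R, ∀ r' ∈ R, r.1 * r'.1 = r'.1 * r.1)
    (heig : ∀ r ∈ R, ∃ w : W, w ≠ 0 ∧ r.1 w = r.2 • w) :
    ∃ w : W, w ≠ 0 ∧ ∀ r ∈ R, r.1 w = r.2 • w := by
  obtain ⟨w, -, hw0, hw⟩ := a5la_aux R hcomm _ ⊤ rfl (fun _ _ _ _ => Submodule.mem_top)
    (fun r hr => by
      obtain ⟨w, hw0, hw⟩ := heig r hr
      exact ⟨w, Submodule.mem_top, hw0, hw⟩)
  exact ⟨w, hw0, hw⟩

end Fermat.Agent.S48WA5
end
end MergeWrap_S48_W_A5_AlgLA

section MergeWrap_S48_W_A5_AlgCore -- from S48/W/A5/AlgCore.lean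

set_option autoImplicit false

noncomputable section

namespace Fermat.Agent.S48WA5

open scoped TensorProduct
open Module Polynomial

section Rep

variable (L : Type*) [AddCommGroup L] [Module.Free ℤ L] [Module.Finite ℤ L]
variable {O S : Type*} [CommRing O] [CommRing S]

open Classical in
/-- the action of matrices over `O` (in the chosen basis of `L`) on `S ⊗ L`, along `f : O → S`. -/
def a5c_rep (f : O →+* S) :
    Matrix (Free.ChooseBasisIndex ℤ L) (Free.ChooseBasisIndex ℤ L) O →+*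
      Module.End S (S ⊗[ℤ] L) :=
  (Matrix.toLinAlgEquiv (Algebra.TensorProduct.basis S (Free.chooseBasis ℤ L))).toRingEquiv.toRingHom.comp
    f.mapMatrix

open Classical in
/-- the matrix over `O` of an endomorphism of `L`. -/
def a5c_mat (O : Type*) [CommRing O] (T : L →ₗ[ℤ] L) :
    Matrix (Free.ChooseBasisIndex ℤ L) (Free.ChooseBasisIndex ℤ L) O :=
  (LinearMap.toMatrix (Free.chooseBasis ℤ L) (Free.chooseBasis ℤ L) T).map (Int.castRingHom O)

variable {L}

open Classical in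
theorem a5c_rep_mat (f : O →+* S) (T : L →ₗ[ℤ] L) :
    a5c_rep L f (a5c_mat L O T) = T.baseChange S := by
  unfold a5c_rep a5c_mat
  simp only [RingHom.coe_comp, Function.comp_apply, RingHom.mapMatrix_apply, Matrix.map_map]
  have h1 : (⇑f ∘ ⇑(Int.castRingHom O)) = ⇑(algebraMap ℤ S) := by
    funext n
    simp
  rw [h1, ← LinearMap.toMatrix_baseChange]
  exact Matrix.toLin_toMatrix _ _ _

open Classical in
theorem a5c_rep_algebraMap (f : O →+* S) (b : O) :
    a5c_rep L f (algebraMap O _ b) = f b • (1 : Module.End S (S ⊗[ℤ] L)) := by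
  unfold a5c_rep
  simp only [RingHom.coe_comp, Function.comp_apply, RingHom.mapMatrix_apply]
  have h1 : ((algebraMap O (Matrix (Free.ChooseBasisIndex ℤ L) (Free.ChooseBasisIndex ℤ L) O)) b).map
      ⇑f = algebraMap S _ (f b) := by
    ext i j
    simp only [Matrix.algebraMap_matrix_apply, Matrix.map_apply]
    split_ifs <;> simp
  rw [h1]
  change (Matrix.toLinAlgEquiv _) (algebraMap S _ (f b)) = _
  rw [AlgEquiv.commutes, Algebra.algebraMap_eq_smul_one]

open Classical in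
theorem a5c_rep_charpoly (f : O →+* S) [Nontrivial S]
    (X : Matrix (Free.ChooseBasisIndex ℤ L) (Free.ChooseBasisIndex ℤ L) O) :
    LinearMap.charpoly (a5c_rep L f X) = X.charpoly.map f := by
  unfold a5c_rep
  simp only [RingHom.coe_comp, Function.comp_apply, RingHom.mapMatrix_apply]
  rw [← Matrix.charpoly_map]
  exact Matrix.charpoly_toLin _ _

end Rep

section Core

variable {L : Type*} [AddCommGroup L] [Module.Free ℤ L] [Module.Finite ℤ L]
variable {ι : Type*} (T : ι → L →ₗ[ℤ] L)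
variable {O C k : Type*} [CommRing O] [CommRing C] [Field k] (j : O →+* C) (φ : O →+* k)
variable (a : ι → O) (Λ : AddSubgroup (C ⊗[ℤ] L)) (ω : C ⊗[ℤ] L)

/-- the algebra of pairs `(X, β)` with `X Λ ⊆ Λ`, `X ω ≡ β ω mod Λ`, `X` in the algebra generated
by the `T i`. -/
def a5c_pairs (hΛO : ∀ b : O, ∀ v ∈ Λ, j b • v ∈ Λ) :
    Subalgebra O (Matrix (Free.ChooseBasisIndex ℤ L) (Free.ChooseBasisIndex ℤ L) O × O) where
  carrier := {r | r.1 ∈ Algebra.adjoin O (Set.range fun i => a5c_mat L O (T i)) ∧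
    (∀ v ∈ Λ, a5c_rep L j r.1 v ∈ Λ) ∧ a5c_rep L j r.1 ω - j r.2 • ω ∈ Λ}
  mul_mem' := by
    rintro r s ⟨hr1, hr2, hr3⟩ ⟨hs1, hs2, hs3⟩
    refine ⟨Subalgebra.mul_mem _ hr1 hs1, fun v hv => ?_, ?_⟩
    · rw [Prod.fst_mul, map_mul, Module.End.mul_apply]
      exact hr2 _ (hs2 v hv)
    · rw [Prod.fst_mul, Prod.snd_mul, map_mul, map_mul, Module.End.mul_apply]
      have h1 : a5c_rep L j r.1 (a5c_rep L j s.1 ω) - (j r.2 * j s.2) • ω =
          a5c_rep L j r.1 (a5c_rep L j s.1 ω - j s.2 • ω) +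
            j s.2 • (a5c_rep L j r.1 ω - j r.2 • ω) := by
        rw [map_sub, map_smul, smul_sub, smul_smul, mul_comm (j s.2)]
        abel
      rw [h1]
      exact Λ.add_mem (hr2 _ hs3) (hΛO _ _ hr3)
  one_mem' := by
    refine ⟨Subalgebra.one_mem _, fun v hv => ?_, ?_⟩
    · rw [Prod.fst_one, map_one, Module.End.one_apply]
      exact hv
    · rw [Prod.fst_one, Prod.snd_one, map_one, map_one, Module.End.one_apply, one_smul, sub_self]
      exact Λ.zero_mem
  add_mem' := by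
    rintro r s ⟨hr1, hr2, hr3⟩ ⟨hs1, hs2, hs3⟩
    refine ⟨Subalgebra.add_mem _ hr1 hs1, fun v hv => ?_, ?_⟩
    · rw [Prod.fst_add, map_add, LinearMap.add_apply]
      exact Λ.add_mem (hr2 v hv) (hs2 v hv)
    · rw [Prod.fst_add, Prod.snd_add, map_add, map_add, LinearMap.add_apply, add_smul]
      have h1 : a5c_rep L j r.1 ω + a5c_rep L j s.1 ω - (j r.2 • ω + j s.2 • ω) =
          (a5c_rep L j r.1 ω - j r.2 • ω) + (a5c_rep L j s.1 ω - j s.2 • ω) := by abel
      rw [h1]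
      exact Λ.add_mem hr3 hs3
  zero_mem' := by
    refine ⟨Subalgebra.zero_mem _, fun v _ => ?_, ?_⟩
    · rw [Prod.fst_zero, map_zero, LinearMap.zero_apply]
      exact Λ.zero_mem
    · rw [Prod.fst_zero, Prod.snd_zero, map_zero, map_zero, LinearMap.zero_apply, zero_smul,
        sub_self]
      exact Λ.zero_mem
  algebraMap_mem' := by
    intro b
    refine ⟨Subalgebra.algebraMap_mem _ b, fun v hv => ?_, ?_⟩
    · rw [Prod.algebraMap_apply]
      simp only
      rw [a5c_rep_algebraMap, LinearMap.smul_apply, Module.End.one_apply]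
      exact hΛO b v hv
    · rw [Prod.algebraMap_apply]
      simp only
      rw [a5c_rep_algebraMap, LinearMap.smul_apply, Module.End.one_apply, Algebra.algebraMap_self,
        RingHom.id_apply, sub_self]
      exact Λ.zero_mem

theorem a5c_mem_pairs (hΛO : ∀ b : O, ∀ v ∈ Λ, j b • v ∈ Λ)
    (r : Matrix (Free.ChooseBasisIndex ℤ L) (Free.ChooseBasisIndex ℤ L) O × O) :
    r ∈ a5c_pairs T j Λ ω hΛO ↔
      r.1 ∈ Algebra.adjoin O (Set.range fun i => a5c_mat L O (T i)) ∧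
        (∀ v ∈ Λ, a5c_rep L j r.1 v ∈ Λ) ∧ a5c_rep L j r.1 ω - j r.2 • ω ∈ Λ := Iff.rfl

/-- the generators belong to the algebra of pairs. -/
theorem a5c_gen_mem (hΛO : ∀ b : O, ∀ v ∈ Λ, j b • v ∈ Λ)
    (hΛT : ∀ i, ∀ v ∈ Λ, (T i).baseChange C v ∈ Λ)
    (hω : ∀ i, (T i).baseChange C ω - j (a i) • ω ∈ Λ) (i : ι) :
    (a5c_mat L O (T i), a i) ∈ a5c_pairs T j Λ ω hΛO := by
  rw [a5c_mem_pairs]
  refine ⟨Algebra.subset_adjoin ⟨i, rfl⟩, fun v hv => ?_, ?_⟩
  · simp only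
    rw [a5c_rep_mat]
    exact hΛT i v hv
  · simp only
    rw [a5c_rep_mat]
    exact hω i

/-- the algebra generated by the matrices of commuting endomorphisms is commutative. -/
theorem a5c_adjoin_comm (hT : ∀ i i', T i ∘ₗ T i' = T i' ∘ₗ T i)
    {X Y : Matrix (Free.ChooseBasisIndex ℤ L) (Free.ChooseBasisIndex ℤ L) O}
    (hX : X ∈ Algebra.adjoin O (Set.range fun i => a5c_mat L O (T i)))
    (hY : Y ∈ Algebra.adjoin O (Set.range fun i => a5c_mat L O (T i))) : X * Y = Y * X := by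
  classical
  have hgen : ∀ i i', a5c_mat L O (T i) * a5c_mat L O (T i') =
      a5c_mat L O (T i') * a5c_mat L O (T i) := by
    have e : ∀ f g : L →ₗ[ℤ] L, a5c_mat L O (f ∘ₗ g) = a5c_mat L O f * a5c_mat L O g := by
      intro f g
      unfold a5c_mat
      rw [LinearMap.toMatrix_comp (Free.chooseBasis ℤ L) (Free.chooseBasis ℤ L)
        (Free.chooseBasis ℤ L), Matrix.map_mul]
    intro i i'
    rw [← e, ← e, hT]
  have h1 : ∀ i, Commute X (a5c_mat L O (T i)) := by
    intro i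
    refine (Algebra.commute_of_mem_adjoin_of_forall_mem_commute hX ?_).symm
    rintro _ ⟨i', rfl⟩
    exact hgen i i'
  refine Algebra.commute_of_mem_adjoin_of_forall_mem_commute hY ?_
  rintro _ ⟨i, rfl⟩
  exact h1 i

/-- **Cayley-Hamilton**: for a pair `(X, β)` the scalar `φ β` is an eigenvalue of `X mod φ`. -/
theorem a5c_pairs_eigen (hΛO : ∀ b : O, ∀ v ∈ Λ, j b • v ∈ Λ)
    (hnd : ∀ b : O, j b • ω ∈ Λ → φ b = 0)
    {r : Matrix (Free.ChooseBasisIndex ℤ L) (Free.ChooseBasisIndex ℤ L) O × O}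
    (hr : r ∈ a5c_pairs T j Λ ω hΛO) :
    ∃ w : k ⊗[ℤ] L, w ≠ 0 ∧ a5c_rep L φ r.1 w = φ r.2 • w := by
  classical
  -- the pair `(P(X), P(β))`, `P` the characteristic polynomial of `X`
  have h1 : aeval r r.1.charpoly ∈ a5c_pairs T j Λ ω hΛO := by
    have := (aeval (⟨r, hr⟩ : a5c_pairs T j Λ ω hΛO) r.1.charpoly).2
    rwa [Polynomial.aeval_subalgebra_coe] at this
  rw [Polynomial.aeval_prod_apply, Matrix.aeval_self_charpoly] at h1
  have h2 := ((a5c_mem_pairs T j Λ ω hΛO _).mp h1).2.2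
  simp only at h2
  rw [map_zero, LinearMap.zero_apply, zero_sub] at h2
  have h3 : φ (aeval r.2 r.1.charpoly) = 0 := hnd _ (by simpa using Λ.neg_mem h2)
  have h4 : (LinearMap.charpoly (a5c_rep L φ r.1)).IsRoot (φ r.2) := by
    rw [a5c_rep_charpoly, Polynomial.IsRoot.def, Polynomial.eval_map,
      Polynomial.eval₂_at_apply]
    rw [Polynomial.coe_aeval_eq_eval] at h3
    exact h3
  have h5 := (Module.End.hasEigenvalue_iff_isRoot_charpoly _ _).mpr h4
  obtain ⟨w, hw⟩ := h5.exists_hasEigenvector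
  exact ⟨w, hw.2, Module.End.mem_eigenspace_iff.mp hw.1⟩

/-- **the commutative core** of the reduction lemma. -/
theorem a5c_exists_eigenvector_comm (hT : ∀ i i', T i ∘ₗ T i' = T i' ∘ₗ T i)
    (hφ : Function.Surjective φ)
    (hΛT : ∀ i, ∀ v ∈ Λ, (T i).baseChange C v ∈ Λ)
    (hΛO : ∀ b : O, ∀ v ∈ Λ, j b • v ∈ Λ)
    (hω : ∀ i, (T i).baseChange C ω - j (a i) • ω ∈ Λ)
    (hnd : ∀ b : O, j b • ω ∈ Λ → φ b = 0) :
    ∃ x : k ⊗[ℤ] L, x ≠ 0 ∧ ∀ i, (T i).baseChange k x = φ (a i) • x := by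
  classical
  -- the image of the algebra of pairs
  let R : Subalgebra k (Module.End k (k ⊗[ℤ] L) × k) :=
    { carrier := {s | ∃ r ∈ a5c_pairs T j Λ ω hΛO, s = (a5c_rep L φ r.1, φ r.2)}
      mul_mem' := by
        rintro _ _ ⟨r, hr, rfl⟩ ⟨r', hr', rfl⟩
        exact ⟨r * r', Subalgebra.mul_mem _ hr hr', Prod.ext (by simp) (by simp)⟩
      one_mem' := ⟨1, Subalgebra.one_mem _, Prod.ext (by simp) (by simp)⟩
      add_mem' := by
        rintro _ _ ⟨r, hr, rfl⟩ ⟨r', hr', rfl⟩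
        exact ⟨r + r', Subalgebra.add_mem _ hr hr', Prod.ext (by simp) (by simp)⟩
      zero_mem' := ⟨0, Subalgebra.zero_mem _, Prod.ext (by simp) (by simp)⟩
      algebraMap_mem' := by
        intro c
        obtain ⟨b, rfl⟩ := hφ c
        refine ⟨algebraMap O _ b, Subalgebra.algebraMap_mem _ b, ?_⟩
        rw [Prod.algebraMap_apply, Prod.algebraMap_apply]
        simp only
        rw [a5c_rep_algebraMap, Algebra.algebraMap_self, RingHom.id_apply,
          Algebra.algebraMap_self, RingHom.id_apply, Algebra.algebraMap_eq_smul_one] }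
  have hcomm : ∀ r ∈ R, ∀ r' ∈ R, r.1 * r'.1 = r'.1 * r.1 := by
    rintro _ ⟨r, hr, rfl⟩ _ ⟨r', hr', rfl⟩
    simp only
    rw [← map_mul, ← map_mul,
      a5c_adjoin_comm T hT ((a5c_mem_pairs T j Λ ω hΛO _).mp hr).1
        ((a5c_mem_pairs T j Λ ω hΛO _).mp hr').1]
  have heig : ∀ r ∈ R, ∃ w : k ⊗[ℤ] L, w ≠ 0 ∧ r.1 w = r.2 • w := by
    rintro _ ⟨r, hr, rfl⟩
    exact a5c_pairs_eigen T j φ Λ ω hΛO hnd hr
  obtain ⟨w, hw0, hw⟩ := a5la_exists_common_eigenvector R hcomm heig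
  refine ⟨w, hw0, fun i => ?_⟩
  have := hw _ ⟨_, a5c_gen_mem T j a Λ ω hΛO hΛT hω i, rfl⟩
  simp only at this
  rwa [a5c_rep_mat] at this

end Core

end Fermat.Agent.S48WA5
end
end MergeWrap_S48_W_A5_AlgCore

section MergeWrap_S48_W_A5_AlgLc -- from S48/W/A5/AlgLc.lean

set_option autoImplicit false

noncomputable section

namespace Fermat.Agent.S48WA5

open scoped TensorProduct

section Decomp

variable {L : Type*} [AddCommGroup L]

/-- Over a module `B` with a finite basis `β`, every element of `B ⊗ L` is `∑ β_r ⊗ l_r`. -/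
theorem a5lc_exists_sum_tmul {B : Type*} [AddCommGroup B] {n : ℕ}
    (β : Module.Basis (Fin n) ℤ B) (w : B ⊗[ℤ] L) :
    ∃ l : Fin n → L, w = ∑ r, β r ⊗ₜ[ℤ] l r := by
  induction w using TensorProduct.induction_on with
  | zero => exact ⟨0, by simp⟩
  | tmul a m =>
    refine ⟨fun r => (β.repr a r) • m, ?_⟩
    have h1 : ∀ r, β r ⊗ₜ[ℤ] ((β.repr a r) • m) = ((β.repr a r) • β r) ⊗ₜ[ℤ] m := fun r => by
      rw [TensorProduct.smul_tmul]
    simp only [h1]
    rw [← TensorProduct.sum_tmul, β.sum_repr a]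
  | add x y hx hy =>
    obtain ⟨l₁, h₁⟩ := hx
    obtain ⟨l₂, h₂⟩ := hy
    refine ⟨l₁ + l₂, ?_⟩
    simp only [Pi.add_apply, TensorProduct.tmul_add, Finset.sum_add_distrib]
    rw [← h₁, ← h₂]

/-- Every element of `ℂ ⊗ L` comes from `B ⊗ L` for a finitely generated subgroup `B` of `ℂ`. -/
theorem a5lc_exists_fg (v : ℂ ⊗[ℤ] L) :
    ∃ B : Submodule ℤ ℂ, B.FG ∧ v ∈ LinearMap.range (B.subtype.rTensor L) := by
  induction v using TensorProduct.induction_on with
  | zero => exact ⟨⊥, Submodule.fg_bot, Submodule.zero_mem _⟩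
  | tmul a m =>
    refine ⟨Submodule.span ℤ {a}, Submodule.fg_span_singleton a,
      ⟨(⟨a, Submodule.mem_span_singleton_self a⟩ : Submodule.span ℤ {a}) ⊗ₜ[ℤ] m, ?_⟩⟩
    rw [LinearMap.rTensor_tmul]
    rfl
  | add x y hx hy =>
    obtain ⟨B₁, hB₁, w₁, h₁⟩ := hx
    obtain ⟨B₂, hB₂, w₂, h₂⟩ := hy
    refine ⟨B₁ ⊔ B₂, hB₁.sup hB₂, ?_⟩
    have e₁ : B₁.subtype = (B₁ ⊔ B₂).subtype ∘ₗ Submodule.inclusion le_sup_left := rfl
    have e₂ : B₂.subtype = (B₁ ⊔ B₂).subtype ∘ₗ Submodule.inclusion le_sup_right := rfl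
    refine Submodule.add_mem _ ?_ ?_
    · rw [← h₁, e₁, LinearMap.rTensor_comp]
      exact ⟨_, rfl⟩
    · rw [← h₂, e₂, LinearMap.rTensor_comp]
      exact ⟨_, rfl⟩

/-- **Rationality trick, existence**: every element of `ℂ ⊗ L` is `∑ β_r ⊗ l_r` with `β_r ∈ ℂ`
linearly independent over `ℤ`. -/
theorem a5lc_exists_decomp (v : ℂ ⊗[ℤ] L) :
    ∃ (n : ℕ) (β : Fin n → ℂ) (l : Fin n → L), LinearIndependent ℤ β ∧
      v = ∑ r, β r ⊗ₜ[ℤ] l r := by
  obtain ⟨B, hB, w, hw⟩ := a5lc_exists_fg v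
  have : Module.Finite ℤ B := Module.Finite.iff_fg.2 hB
  have : Module.Free ℤ B := inferInstance
  let β := Module.finBasis ℤ B
  obtain ⟨l, hl⟩ := a5lc_exists_sum_tmul β w
  refine ⟨_, fun r => (β r : ℂ), l, ?_, ?_⟩
  · exact β.linearIndependent.map' B.subtype (Submodule.ker_subtype B)
  · rw [← hw, hl, map_sum]
    refine Finset.sum_congr rfl fun r _ => ?_
    rw [LinearMap.rTensor_tmul]
    rfl

/-- **Rationality trick, uniqueness**: if the `β_r ∈ ℂ` are linearly independent over `ℤ` and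
`∑ β_r ⊗ l_r = 0` in `ℂ ⊗ L` (`L` flat), then all `l_r` vanish. -/
theorem a5lc_eq_zero_of_sum_tmul [Module.Flat ℤ L] {n : ℕ} {β : Fin n → ℂ}
    (hβ : LinearIndependent ℤ β) (l : Fin n → L) (h : ∑ r, β r ⊗ₜ[ℤ] l r = 0) (r₀ : Fin n) :
    l r₀ = 0 := by
  classical
  have hinj : Function.Injective ((Finsupp.linearCombination ℤ β).rTensor L) :=
    Module.Flat.rTensor_preserves_injective_linearMap _ hβ
  set z : (Fin n →₀ ℤ) ⊗[ℤ] L := ∑ r, (Finsupp.single r (1 : ℤ)) ⊗ₜ[ℤ] l r with hz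
  have hz0 : z = 0 := by
    apply hinj
    rw [map_zero, hz, map_sum, ← h]
    refine Finset.sum_congr rfl fun r _ => ?_
    rw [LinearMap.rTensor_tmul, Finsupp.linearCombination_single, one_smul]
  have h2 : (TensorProduct.finsuppScalarLeft ℤ L (Fin n) z) r₀ = l r₀ := by
    rw [hz, map_sum, Finsupp.finsetSum_apply]
    simp only [TensorProduct.finsuppScalarLeft_apply_tmul_apply]
    rw [Finset.sum_eq_single r₀]
    · rw [Finsupp.single_eq_same, one_smul]
    · intro r _ hr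
      rw [Finsupp.single_eq_of_ne hr.symm, zero_smul]
    · intro hr
      exact absurd (Finset.mem_univ r₀) hr
  rw [← h2, hz0, map_zero]
  rfl

end Decomp

section Main

variable {L : Type*} [AddCommGroup L] {ι : Type*} (T : ι → L →ₗ[ℤ] L)

/-- The word in the operators `T`. -/
def a5lcWord (w : List ι) : Module.End ℤ L := (w.map T).prod

theorem a5lcWord_nil : a5lcWord T [] = 1 := rfl

theorem a5lcWord_cons (m : ι) (w : List ι) : a5lcWord T (m :: w) = T m * a5lcWord T w := by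
  unfold a5lcWord
  rw [List.map_cons, List.prod_cons]

theorem a5lcWord_append_singleton (w : List ι) (m : ι) :
    a5lcWord T (w ++ [m]) = a5lcWord T w * T m := by
  unfold a5lcWord
  rw [List.map_append, List.prod_append, List.map_singleton, List.prod_singleton]

/-- The commutator equation attached to a word and two indices. -/
def a5lcEq (w : List ι) (i j : ι) : Module.End ℤ L :=
  T i * (T j * a5lcWord T w) - T j * (T i * a5lcWord T w)

theorem a5lcEq_apply (w : List ι) (i j : ι) (x : L) :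
    a5lcEq T w i j x = T i (T j (a5lcWord T w x)) - T j (T i (a5lcWord T w x)) := rfl

/-- The largest `T`-stable subgroup on which the `T i` commute. -/
def a5lcSub : Submodule ℤ L where
  carrier := {x | ∀ (w : List ι) (i j : ι), a5lcEq T w i j x = 0}
  add_mem' := fun {x y} hx hy w i j => by rw [map_add, hx w i j, hy w i j, add_zero]
  zero_mem' := fun w i j => map_zero _
  smul_mem' := fun c x hx w i j => by rw [map_smul, hx w i j, smul_zero]

theorem mem_a5lcSub {x : L} :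
    x ∈ a5lcSub T ↔ ∀ (w : List ι) (i j : ι), a5lcEq T w i j x = 0 := Iff.rfl

theorem a5lcSub_stable (m : ι) {x : L} (hx : x ∈ a5lcSub T) : T m x ∈ a5lcSub T := by
  intro w i j
  have h := hx (w ++ [m]) i j
  rw [a5lcEq_apply, a5lcWord_append_singleton] at h
  rw [a5lcEq_apply]
  exact h

theorem a5lcSub_comm (i j : ι) {x : L} (hx : x ∈ a5lcSub T) : T i (T j x) = T j (T i x) := by
  have h := hx [] i j
  rw [a5lcEq_apply, a5lcWord_nil] at h
  exact sub_eq_zero.1 h

/-- `Lc` is saturated. -/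
theorem a5lcSub_saturated [Module.IsTorsionFree ℤ L] {n : ℤ} (hn : n ≠ 0) {x : L}
    (hx : n • x ∈ a5lcSub T) : x ∈ a5lcSub T := by
  intro w i j
  have h := hx w i j
  rw [map_smul] at h
  rcases smul_eq_zero.1 h with h0 | h0
  · exact absurd h0 hn
  · exact h0

/-- The inclusion of a saturated submodule of a finite free `ℤ`-module stays injective after
every base change. -/
theorem a5lc_baseChange_injective [Module.Free ℤ L] [Module.Finite ℤ L] (N : Submodule ℤ L)
    (hsat : ∀ (n : ℤ), n ≠ 0 → ∀ x : L, n • x ∈ N → x ∈ N)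
    (k : Type*) [CommRing k] : Function.Injective (N.subtype.baseChange k) := by
  have : Module.IsTorsionFree ℤ (L ⧸ N) := by
    refine Module.IsTorsionFree.of_smul_eq_zero fun n q h => ?_
    by_cases hn : n = 0
    · exact Or.inl hn
    · right
      obtain ⟨x, rfl⟩ := Submodule.Quotient.mk_surjective N q
      rw [← Submodule.Quotient.mk_smul, Submodule.Quotient.mk_eq_zero] at h
      rw [Submodule.Quotient.mk_eq_zero]
      exact hsat n hn x h
  have : Module.Free ℤ (L ⧸ N) := inferInstance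
  obtain ⟨s, hs⟩ := Module.projective_lifting_property N.mkQ
    (LinearMap.id : (L ⧸ N) →ₗ[ℤ] (L ⧸ N)) (Submodule.mkQ_surjective N)
  have hmem : ∀ x : L, (LinearMap.id - s ∘ₗ N.mkQ : L →ₗ[ℤ] L) x ∈ N := by
    intro x
    rw [← Submodule.Quotient.mk_eq_zero, LinearMap.sub_apply, Submodule.Quotient.mk_sub]
    have h1 : N.mkQ (s (N.mkQ x)) = N.mkQ x := by
      have := LinearMap.congr_fun hs (N.mkQ x)
      simpa using this
    rw [LinearMap.comp_apply, LinearMap.id_apply]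
    exact sub_eq_zero.2 h1.symm
  let r : L →ₗ[ℤ] N := LinearMap.codRestrict N (LinearMap.id - s ∘ₗ N.mkQ) hmem
  have hr : r ∘ₗ N.subtype = LinearMap.id := by
    ext x
    have h0 : N.mkQ (x : L) = 0 := (Submodule.Quotient.mk_eq_zero N).2 x.2
    simp [r, h0]
  have hleft : Function.LeftInverse (r.baseChange k) (N.subtype.baseChange k) := by
    intro y
    rw [← LinearMap.comp_apply, ← LinearMap.baseChange_comp, hr, LinearMap.baseChange_id,
      LinearMap.id_apply]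
  exact hleft.injective

theorem a5lc_exists_commuting_sublattice
    {L : Type*} [AddCommGroup L] [Module.Free ℤ L] [Module.Finite ℤ L]
    {ι : Type*} (T : ι → L →ₗ[ℤ] L)
    (V : Submodule ℂ (ℂ ⊗[ℤ] L))
    (hVT : ∀ i, ∀ v ∈ V, (T i).baseChange ℂ v ∈ V)
    (hVc : ∀ i j, ∀ v ∈ V, (T i).baseChange ℂ ((T j).baseChange ℂ v) =
      (T j).baseChange ℂ ((T i).baseChange ℂ v))
    (k : Type*) [Field k] :
    ∃ Lc : Submodule ℤ L,
      (∀ i, ∀ x ∈ Lc, T i x ∈ Lc) ∧
      (∀ i j, ∀ x ∈ Lc, T i (T j x) = T j (T i x)) ∧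
      (∀ v ∈ V, v ∈ LinearMap.range (Lc.subtype.baseChange ℂ)) ∧
      Function.Injective (Lc.subtype.baseChange k) := by
  have : Module.IsTorsionFree ℤ L := inferInstance
  refine ⟨a5lcSub T, fun i x hx => a5lcSub_stable T i hx, fun i j x hx => a5lcSub_comm T i j hx,
    ?_, a5lc_baseChange_injective (a5lcSub T)
      (fun n hn x hx => a5lcSub_saturated T hn hx) k⟩
  intro v hv
  -- words preserve `V`
  have hword : ∀ w : List ι, (a5lcWord T w).baseChange ℂ v ∈ V := by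
    intro w
    induction w with
    | nil =>
      rw [a5lcWord_nil, LinearMap.baseChange_one]
      exact hv
    | cons m w ih =>
      rw [a5lcWord_cons, LinearMap.baseChange_mul]
      exact hVT m _ ih
  -- the equations hold at `v`
  have heq : ∀ (w : List ι) (i j : ι), (a5lcEq T w i j).baseChange ℂ v = 0 := by
    intro w i j
    unfold a5lcEq
    rw [LinearMap.baseChange_sub, LinearMap.baseChange_mul, LinearMap.baseChange_mul,
      LinearMap.baseChange_mul, LinearMap.baseChange_mul, LinearMap.sub_apply]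
    exact sub_eq_zero.2 (hVc i j _ (hword w))
  -- decomposition
  obtain ⟨n, β, l, hβ, hvl⟩ := a5lc_exists_decomp v
  have hl : ∀ r, l r ∈ a5lcSub T := by
    intro r w i j
    refine a5lc_eq_zero_of_sum_tmul hβ (fun r => a5lcEq T w i j (l r)) ?_ r
    have h1 := heq w i j
    rw [hvl, map_sum] at h1
    rw [← h1]
    refine Finset.sum_congr rfl fun r _ => ?_
    rw [LinearMap.baseChange_tmul]
  rw [hvl]
  refine Submodule.sum_mem _ fun r _ => ?_
  refine ⟨β r ⊗ₜ[ℤ] (⟨l r, hl r⟩ : a5lcSub T), ?_⟩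
  rw [LinearMap.baseChange_tmul]
  rfl

end Main

end Fermat.Agent.S48WA5
end
end MergeWrap_S48_W_A5_AlgLc

section MergeWrap_S48_W_A5_Alg -- from S48/W/A5/Alg.lean

set_option autoImplicit false

noncomputable section

namespace Fermat.Agent.S48WA5

open scoped TensorProduct
open Module

section Ext

variable {L : Type*} [AddCommGroup L] {κ k : Type*} [CommRing κ] [CommRing k] (ψ : κ →+* k)

/-- change of coefficients `κ ⊗ L → k ⊗ L` along a ring homomorphism. -/
def a5_coeff (L : Type*) [AddCommGroup L] {κ k : Type*} [CommRing κ] [CommRing k] (ψ : κ →+* k) :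
    κ ⊗[ℤ] L →ₗ[ℤ] k ⊗[ℤ] L :=
  LinearMap.rTensor L ψ.toAddMonoidHom.toIntLinearMap

@[simp] theorem a5_coeff_tmul (c : κ) (l : L) : a5_coeff L ψ (c ⊗ₜ[ℤ] l) = ψ c ⊗ₜ[ℤ] l := rfl

theorem a5_coeff_smul (c : κ) (x : κ ⊗[ℤ] L) : a5_coeff L ψ (c • x) = ψ c • a5_coeff L ψ x := by
  induction x using TensorProduct.induction_on with
  | zero => simp
  | tmul c' l => simp [TensorProduct.smul_tmul', map_mul]
  | add x y hx hy => rw [smul_add, map_add, hx, hy, map_add, smul_add]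

theorem a5_coeff_baseChange (T : L →ₗ[ℤ] L) (x : κ ⊗[ℤ] L) :
    a5_coeff L ψ (T.baseChange κ x) = T.baseChange k (a5_coeff L ψ x) := by
  induction x using TensorProduct.induction_on with
  | zero => simp
  | tmul c' l => simp
  | add x y hx hy => simp only [map_add, hx, hy]

theorem a5_coeff_injective [Module.Flat ℤ L] (hψ : Function.Injective ψ) :
    Function.Injective (a5_coeff L ψ) :=
  Module.Flat.rTensor_preserves_injective_linearMap _ hψ

end Ext

section Comm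

variable {L : Type*} [AddCommGroup L] [Module.Free ℤ L] [Module.Finite ℤ L]
variable {ι : Type*} (T : ι → L →ₗ[ℤ] L)
variable {O C k : Type*} [CommRing O] [CommRing C] [Field k] (j : O →+* C) (φ : O →+* k)
variable (a : ι → O) (Λ : AddSubgroup (C ⊗[ℤ] L)) (ω : C ⊗[ℤ] L)

/-- the commutative case, `ker φ` maximal. -/
theorem a5_exists_eigenvector_comm (hT : ∀ i i', T i ∘ₗ T i' = T i' ∘ₗ T i)
    (hφ : (RingHom.ker φ).IsMaximal)
    (hΛT : ∀ i, ∀ v ∈ Λ, (T i).baseChange C v ∈ Λ)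
    (hΛO : ∀ b : O, ∀ v ∈ Λ, j b • v ∈ Λ)
    (hω : ∀ i, (T i).baseChange C ω - j (a i) • ω ∈ Λ)
    (hnd : ∀ b : O, j b • ω ∈ Λ → φ b = 0) :
    ∃ x : k ⊗[ℤ] L, x ≠ 0 ∧ ∀ i, (T i).baseChange k x = φ (a i) • x := by
  let _ : Field (O ⧸ RingHom.ker φ) := Ideal.Quotient.field _
  obtain ⟨x, hx0, hx⟩ := a5c_exists_eigenvector_comm T j (Ideal.Quotient.mk (RingHom.ker φ)) a Λ ω
    hT Ideal.Quotient.mk_surjective hΛT hΛO hω (fun b hb => by
      rw [Ideal.Quotient.eq_zero_iff_mem, RingHom.mem_ker]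
      exact hnd b hb)
  refine ⟨a5_coeff L φ.kerLift x, ?_, fun i => ?_⟩
  · intro h0
    apply hx0
    apply a5_coeff_injective φ.kerLift (RingHom.kerLift_injective φ)
    rw [h0, map_zero]
  · rw [← a5_coeff_baseChange, hx i, a5_coeff_smul, RingHom.kerLift_mk]

end Comm

section General

variable {L : Type*} [AddCommGroup L] [Module.Free ℤ L] [Module.Finite ℤ L]
variable {ι : Type*} (T : ι → L →ₗ[ℤ] L)
variable {O k : Type*} [CommRing O] [Field k] (j : O →+* ℂ) (φ : O →+* k)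
variable (a : ι → O) (V : Submodule ℂ (ℂ ⊗[ℤ] L)) (Λ : AddSubgroup (ℂ ⊗[ℤ] L)) (ω : ℂ ⊗[ℤ] L)

omit [Module.Free ℤ L] [Module.Finite ℤ L] in
/-- naturality of base change for a restricted endomorphism. -/
theorem a5_baseChange_restrict (S : Type*) [CommRing S] (T₀ : L →ₗ[ℤ] L) (Lc : Submodule ℤ L)
    (h : ∀ x ∈ Lc, T₀ x ∈ Lc) (v : S ⊗[ℤ] Lc) :
    Lc.subtype.baseChange S ((T₀.restrict h).baseChange S v) =
      T₀.baseChange S (Lc.subtype.baseChange S v) := by
  have h1 : Lc.subtype ∘ₗ T₀.restrict h = T₀ ∘ₗ Lc.subtype := by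
    ext x
    simp
  have h2 := congrArg (LinearMap.baseChange S) h1
  rw [LinearMap.baseChange_comp, LinearMap.baseChange_comp] at h2
  exact DFunLike.congr_fun h2 v

/-- **the abstract reduction lemma** (S48 (W), A5). -/
theorem a5_exists_modEigenvector
    (hφ : (RingHom.ker φ).IsMaximal)
    (hVT : ∀ i, ∀ v ∈ V, (T i).baseChange ℂ v ∈ V)
    (hVc : ∀ i i', ∀ v ∈ V, (T i).baseChange ℂ ((T i').baseChange ℂ v) =
      (T i').baseChange ℂ ((T i).baseChange ℂ v))
    (hΛT : ∀ i, ∀ v ∈ Λ, (T i).baseChange ℂ v ∈ Λ)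
    (hΛO : ∀ b : O, ∀ v ∈ Λ, j b • v ∈ Λ)
    (hωV : ω ∈ V)
    (hω : ∀ i, (T i).baseChange ℂ ω - j (a i) • ω ∈ Λ)
    (hnd : ∀ b : O, j b • ω ∈ Λ → φ b = 0) :
    ∃ x : k ⊗[ℤ] L, x ≠ 0 ∧ ∀ i, (T i).baseChange k x = φ (a i) • x := by
  obtain ⟨Lc, hstab, hcomm, hVLc, hinj⟩ := a5lc_exists_commuting_sublattice T V hVT hVc k
  -- the restricted operators
  set T' : ι → Lc →ₗ[ℤ] Lc := fun i => (T i).restrict (hstab i) with hT'
  have hT'comm : ∀ i i', T' i ∘ₗ T' i' = T' i' ∘ₗ T' i := by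
    intro i i'
    ext x
    simp only [hT', LinearMap.comp_apply, LinearMap.restrict_apply]
    exact hcomm i i' x x.2
  have hnatC : ∀ (i : ι) (v : ℂ ⊗[ℤ] Lc),
      Lc.subtype.baseChange ℂ ((T' i).baseChange ℂ v) =
        (T i).baseChange ℂ (Lc.subtype.baseChange ℂ v) := fun i v =>
    a5_baseChange_restrict ℂ (T i) Lc (hstab i) v
  have hnatk : ∀ (i : ι) (v : k ⊗[ℤ] Lc),
      Lc.subtype.baseChange k ((T' i).baseChange k v) =
        (T i).baseChange k (Lc.subtype.baseChange k v) := fun i v =>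
    a5_baseChange_restrict k (T i) Lc (hstab i) v
  obtain ⟨ω', hω'⟩ := hVLc ω hωV
  set inclC : ℂ ⊗[ℤ] Lc →ₗ[ℂ] ℂ ⊗[ℤ] L := Lc.subtype.baseChange ℂ with hinclC
  obtain ⟨x, hx0, hx⟩ := a5_exists_eigenvector_comm T' j φ a (Λ.comap inclC.toAddMonoidHom) ω'
    hT'comm hφ
    (fun i v hv => by
      rw [AddSubgroup.mem_comap] at hv ⊢
      have := hnatC i v
      simp only [LinearMap.toAddMonoidHom_coe] at hv ⊢
      rw [hinclC, this]
      exact hΛT i _ hv)
    (fun b v hv => by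
      rw [AddSubgroup.mem_comap] at hv ⊢
      simp only [LinearMap.toAddMonoidHom_coe] at hv ⊢
      rw [map_smul]
      exact hΛO b _ hv)
    (fun i => by
      rw [AddSubgroup.mem_comap]
      simp only [LinearMap.toAddMonoidHom_coe]
      rw [map_sub, map_smul, hinclC, hnatC i ω', hω']
      exact hω i)
    (fun b hb => by
      rw [AddSubgroup.mem_comap] at hb
      simp only [LinearMap.toAddMonoidHom_coe] at hb
      rw [map_smul, hinclC, hω'] at hb
      exact hnd b hb)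
  refine ⟨Lc.subtype.baseChange k x, ?_, fun i => ?_⟩
  · intro h0
    apply hx0
    apply hinj
    rw [h0, map_zero]
  · rw [← hnatk i x, hx i, map_smul]

end General

end Fermat.Agent.S48WA5
end
end MergeWrap_S48_W_A5_Alg

section MergeWrap_S48_W_A5_Reduction -- from S48/W/A5/Reduction.lean

set_option autoImplicit false
set_option linter.style.haveILetI false

noncomputable section

namespace Fermat.Agent.S48WA5

open CongruenceSubgroup Matrix.SpecialLinearGroup ModularCurve.Period UpperHalfPlane Filter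
open Fermat.Agent.S48W
open scoped MatrixGroups Topology Manifold ModularForm TensorProduct
open P2MW.S_ModularForm_heckeT_slash_eq_self_of_mem_Gamma0.ModularForm.HeckeSlashInvariance

local notation "Zb" => integralClosure ℤ ℂ

/-! ### the kernel of `φ` is maximal -/

theorem red_ker_isMaximal {k : Type*} [Field k] (φ : Zb →+* k) (ℓ : ℕ) (hℓ : ℓ.Prime)
    [CharP k ℓ] : (RingHom.ker φ).IsMaximal := by
  haveI : (RingHom.ker φ).IsPrime := RingHom.ker_isPrime φ
  apply Ideal.isMaximal_of_isIntegral_of_isMaximal_comap (R := ℤ) (RingHom.ker φ)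
  rw [RingHom.comap_ker]
  have h1 : φ.comp (algebraMap ℤ Zb) = algebraMap ℤ k := RingHom.ext_int _ _
  rw [h1, CharP.ker_intAlgebraMap_eq_span ℓ]
  have hprime : Prime (ℓ : ℤ) := Nat.prime_iff_prime_int.mp hℓ
  exact PrincipalIdealRing.isMaximal_of_irreducible hprime.irreducible

/-! ### the index set and the operators -/

/-- the index set: primes `p ∤ M` and diamonds. -/
abbrev RedIdx (M : ℕ) : Type := {p : Nat.Primes // Nat.Coprime (p : ℕ) M} ⊕ (ZMod M)ˣ

/-- the operators on the lattice. -/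
def redT (M : ℕ) [NeZero M] : RedIdx M → HomParOne M →ₗ[ℤ] HomParOne M
  | Sum.inl p => heckeHomOne M p.1
  | Sum.inr d => diamondHomOne M d

/-- the operators on functions, on the `χ`-eigenspace. -/
def redOp (M : ℕ) [NeZero M] (χ : (ZMod M)ˣ → ℂ) : RedIdx M → (ℍ → ℂ) → (ℍ → ℂ)
  | Sum.inl p, h => @heckeFunOne M _ (p.1 : ℕ) ⟨p.1.2⟩ p.2 h
  | Sum.inr d, h => χ d • h

variable {M : ℕ} [NeZero M] {χ : (ZMod M)ˣ → ℂ} {h h' : ℍ → ℂ}

theorem IsNebCusp.neg (hh : IsNebCusp M χ h) : IsNebCusp M χ (-h) := by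
  have := hh.smul (-1)
  simpa using this

theorem IsNebCusp.sub (hh : IsNebCusp M χ h) (hh' : IsNebCusp M χ h') :
    IsNebCusp M χ (h - h') := by
  rw [sub_eq_add_neg]
  exact hh.add hh'.neg

theorem IsNebCusp.qCoeff_sub (hh : IsNebCusp M χ h) (hh' : IsNebCusp M χ h') (n : ℕ) :
    ModularFormClass.qCoeff (h - h') n =
      ModularFormClass.qCoeff h n - ModularFormClass.qCoeff h' n := by
  have h1 : h - h' = h + (-1 : ℂ) • h' := by
    rw [sub_eq_add_neg]; simp
  rw [h1, hh.qCoeff_add (hh'.smul (-1)), hh'.qCoeff_smul]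
  ring

theorem redOp_isNebCusp (i : RedIdx M) (hh : IsNebCusp M χ h) : IsNebCusp M χ (redOp M χ i h) := by
  rcases i with p | d
  · haveI : Fact (p.1 : ℕ).Prime := ⟨p.1.2⟩
    exact hh.hecke p.2
  · exact hh.smul (χ d)

theorem redOp_isPeriodOf (i : RedIdx M) (hh : IsNebCusp M χ h) {v : ℂ ⊗[ℤ] HomParOne M}
    (hv : IsPeriodOf M v h) : IsPeriodOf M ((redT M i).baseChange ℂ v) (redOp M χ i h) := by
  rcases i with p | d
  · exact hv.hecke p.1 p.2
  · have h1 := hv.diamond d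
    rw [hh.slash_of_map (diaRep M d) d (diaRep_spec M d)] at h1
    exact h1

/-- `T_p` is homogeneous on forms with nebentypus. -/
theorem IsNebCusp.heckeFunOne_smul {p : ℕ} [Fact p.Prime] (hpM : Nat.Coprime p M) (c : ℂ)
    (hh : IsNebCusp M χ h) : heckeFunOne M hpM (c • h) = c • heckeFunOne M hpM h := by
  rw [(hh.smul c).heckeFunOne_eq hpM, hh.heckeFunOne_eq hpM, ModularForm.heckeU_smul,
    ModularForm.smul_slash, ModularForm.σ_heckeDiagMatrix, ContinuousAlgEquiv.refl_apply,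
    smul_add, smul_comm c]

theorem redOp_comm (i i' : RedIdx M) (hh : IsNebCusp M χ h) :
    redOp M χ i (redOp M χ i' h) = redOp M χ i' (redOp M χ i h) := by
  rcases i with p | d <;> rcases i' with p' | d'
  · haveI : Fact (p.1 : ℕ).Prime := ⟨p.1.2⟩
    haveI : Fact (p'.1 : ℕ).Prime := ⟨p'.1.2⟩
    exact (hh.heckeFunOne_comm p'.2 p.2)
  · haveI : Fact (p.1 : ℕ).Prime := ⟨p.1.2⟩
    exact hh.heckeFunOne_smul p.2 (χ d')
  · haveI : Fact (p'.1 : ℕ).Prime := ⟨p'.1.2⟩
    exact (hh.heckeFunOne_smul p'.2 (χ d)).symm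
  · show χ d • χ d' • h = χ d' • χ d • h
    rw [smul_comm]

/-! ### coefficients in an ideal -/

/-- all `q`-coefficients of `h` lie in the ideal `I` of `ℤ̄`. -/
def CoeffIn (I : Ideal Zb) (h : ℍ → ℂ) : Prop :=
  ∀ n, ∃ b : Zb, b ∈ I ∧ ModularFormClass.qCoeff h n = (b : ℂ)

theorem CoeffIn.add {I : Ideal Zb} (hh : IsNebCusp M χ h) (hh' : IsNebCusp M χ h')
    (hc : CoeffIn I h) (hc' : CoeffIn I h') : CoeffIn I (h + h') := by
  intro n
  obtain ⟨b, hb, e⟩ := hc n
  obtain ⟨b', hb', e'⟩ := hc' n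
  exact ⟨b + b', I.add_mem hb hb', by rw [hh.qCoeff_add hh', e, e']; push_cast; rfl⟩

theorem CoeffIn.smul {I : Ideal Zb} (hh : IsNebCusp M χ h) (hc : CoeffIn I h) (a : Zb) :
    CoeffIn I ((a : ℂ) • h) := by
  intro n
  obtain ⟨b, hb, e⟩ := hc n
  exact ⟨a * b, I.mul_mem_left a hb, by rw [hh.qCoeff_smul, e]; push_cast; rfl⟩

theorem CoeffIn.neg {I : Ideal Zb} (hh : IsNebCusp M χ h) (hc : CoeffIn I h) :
    CoeffIn I (-h) := by
  have := CoeffIn.smul hh hc (-1)
  simpa using this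

theorem CoeffIn.hecke {I : Ideal Zb} {p : ℕ} [Fact p.Prime] (hpM : Nat.Coprime p M)
    (a : Zb) (ha : (a : ℂ) = χ (ZMod.unitOfCoprime p hpM))
    (hh : IsNebCusp M χ h) (hc : CoeffIn I h) : CoeffIn I (heckeFunOne M hpM h) := by
  intro n
  obtain ⟨b, hb, e⟩ := hc (p * n)
  by_cases hpn : p ∣ n
  · obtain ⟨b', hb', e'⟩ := hc (n / p)
    refine ⟨b + (p : Zb) * a * b', I.add_mem hb (I.mul_mem_left _ hb'), ?_⟩
    rw [hh.qCoeff_heckeFunOne hpM, if_pos hpn, e, e', ← ha]
    push_cast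
    rfl
  · refine ⟨b, hb, ?_⟩
    rw [hh.qCoeff_heckeFunOne hpM, if_neg hpn, e, mul_zero, add_zero]

/-! ### the data of a mod-`φ` eigenvector -/

section Main

variable {k : Type} [Field k] {φ : Zb →+* k}

/-- the complex valued nebentypus of `e`. -/
def redChi (e : ModEigen M k φ) (d : (ZMod M)ˣ) : ℂ := (((e.χ d : Zbˣ) : Zb) : ℂ)

theorem red_isNebCusp (e : ModEigen M k φ) : IsNebCusp M (redChi e) e.g :=
  isNebCusp_of_cuspForm e.g (redChi e) (fun γ hγ d hd z => e.neb γ hγ d hd z)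

theorem red_coeff (e : ModEigen M k φ) (n : ℕ) :
    ModularFormClass.qCoeff (e.g : ℍ → ℂ) n = (e.c n : ℂ) := (e.hc n).symm

/-- the eigenvalues lift to `ℤ̄`. -/
theorem red_exists_lift (hφ : (RingHom.ker φ).IsMaximal) (e : ModEigen M k φ) (p : Nat.Primes)
    (hpM : Nat.Coprime (p : ℕ) M) : ∃ a : Zb, φ a = e.t p := by
  obtain ⟨n, hn⟩ := e.ne
  have hmem : e.c n ∉ RingHom.ker φ := fun hc => hn (RingHom.mem_ker.mp hc)
  obtain ⟨u, i, hi, hui⟩ := hφ.exists_inv hmem
  have h1 : φ u * φ (e.c n) = 1 := by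
    have := congrArg φ hui
    rw [map_add, map_mul, RingHom.mem_ker.mp hi, add_zero, map_one] at this
    exact this
  have h2 := e.eig p hpM n
  refine ⟨u * (e.c (p * n) + ((p : ℕ) : Zb) * (e.χ (ZMod.unitOfCoprime p hpM) : Zb) *
    (if (p : ℕ) ∣ n then e.c (n / p) else 0)), ?_⟩
  rw [map_mul, map_add, map_mul, map_mul, map_natCast, apply_ite φ, map_zero, h2,
    ← mul_assoc, mul_comm (φ u), mul_assoc, h1, mul_one]

/-- the space of period classes of forms with the nebentypus of `e`. -/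
def redV (e : ModEigen M k φ) : Submodule ℂ (ℂ ⊗[ℤ] HomParOne M) where
  carrier := {v | ∃ h, IsNebCusp M (redChi e) h ∧ IsPeriodOf M v h}
  add_mem' := by
    rintro v v' ⟨h, hh, hv⟩ ⟨h', hh', hv'⟩
    exact ⟨h + h', hh.add hh', hv.add hv'⟩
  zero_mem' := ⟨0, isNebCusp_zero M _, isPeriodOf_zero M⟩
  smul_mem' := by
    rintro c v ⟨h, hh, hv⟩
    exact ⟨c • h, hh.smul c, hv.smul c⟩

/-- the period classes of forms with nebentypus and coefficients in `ker φ`. -/
def redΛ (e : ModEigen M k φ) : AddSubgroup (ℂ ⊗[ℤ] HomParOne M) where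
  carrier := {v | ∃ h, IsNebCusp M (redChi e) h ∧ IsPeriodOf M v h ∧ CoeffIn (RingHom.ker φ) h}
  add_mem' := by
    rintro v v' ⟨h, hh, hv, hc⟩ ⟨h', hh', hv', hc'⟩
    exact ⟨h + h', hh.add hh', hv.add hv', CoeffIn.add hh hh' hc hc'⟩
  zero_mem' := by
    refine ⟨0, isNebCusp_zero M _, isPeriodOf_zero M, fun n => ⟨0, Ideal.zero_mem _, ?_⟩⟩
    have := (isNebCusp_zero M (redChi e)).qCoeff_smul 0 n
    simpa using this
  neg_mem' := by
    rintro v ⟨h, hh, hv, hc⟩
    exact ⟨-h, hh.neg, hv.neg, CoeffIn.neg hh hc⟩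

/-- **the reduction lemma, classical conventions.** -/
theorem a5_exists_classical_eigenclass (ℓ : ℕ) (hℓ : ℓ.Prime) [CharP k ℓ]
    (e : ModEigen M k φ) :
    ∃ x : k ⊗[ℤ] HomParOne M, x ≠ 0 ∧
      (∀ (p : Nat.Primes) (_ : Nat.Coprime (p : ℕ) M),
        (heckeHomOne M p).baseChange k x = e.t p • x) ∧
      ∀ d : (ZMod M)ˣ, (diamondHomOne M d).baseChange k x = φ ((e.χ d : Zbˣ) : Zb) • x := by
  classical
  have hφ : (RingHom.ker φ).IsMaximal := red_ker_isMaximal φ ℓ hℓ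
  -- the lifts of the eigenvalues
  let a : RedIdx M → Zb := fun i =>
    match i with
    | Sum.inl p => (red_exists_lift hφ e p.1 p.2).choose
    | Sum.inr d => ((e.χ d : Zbˣ) : Zb)
  have ha : ∀ (p : Nat.Primes) (hpM : Nat.Coprime (p : ℕ) M), φ (a (Sum.inl ⟨p, hpM⟩)) = e.t p :=
    fun p hpM => (red_exists_lift hφ e p hpM).choose_spec
  have hg := red_isNebCusp e
  obtain ⟨F, hF⟩ := hg.exists_primOne
  obtain ⟨ω, hω⟩ := exists_isPeriodOf hF
  obtain ⟨x, hx0, hx⟩ := a5_exists_modEigenvector (redT M) (algebraMap Zb ℂ) φ a (redV e)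
    (redΛ e) ω hφ
    (by
      rintro i v ⟨h, hh, hv⟩
      exact ⟨_, redOp_isNebCusp i hh, redOp_isPeriodOf i hh hv⟩)
    (by
      rintro i i' v ⟨h, hh, hv⟩
      have h1 := redOp_isPeriodOf i (redOp_isNebCusp i' hh) (redOp_isPeriodOf i' hh hv)
      have h2 := redOp_isPeriodOf i' (redOp_isNebCusp i hh) (redOp_isPeriodOf i hh hv)
      rw [redOp_comm i i' hh] at h1
      exact h1.class_eq h2)
    (by
      rintro i v ⟨h, hh, hv, hc⟩
      refine ⟨_, redOp_isNebCusp i hh, redOp_isPeriodOf i hh hv, ?_⟩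
      rcases i with p | d
      · haveI : Fact (p.1 : ℕ).Prime := ⟨p.1.2⟩
        exact CoeffIn.hecke p.2 ((e.χ (ZMod.unitOfCoprime p.1 p.2) : Zbˣ) : Zb) rfl hh hc
      · exact CoeffIn.smul hh hc ((e.χ d : Zbˣ) : Zb))
    (by
      rintro b v ⟨h, hh, hv, hc⟩
      exact ⟨_, hh.smul _, hv.smul _, CoeffIn.smul hh hc b⟩)
    ⟨_, hg, hω⟩
    (by
      intro i
      rcases i with p | d
      · haveI : Fact (p.1 : ℕ).Prime := ⟨p.1.2⟩
        have hT := redOp_isPeriodOf (Sum.inl p) hg hω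
        have hTn := redOp_isNebCusp (Sum.inl p) hg
        refine ⟨_, hTn.sub (hg.smul _), hT.sub (hω.smul _), fun n => ?_⟩
        refine ⟨e.c (p.1 * n) + ((p.1 : ℕ) : Zb) * ((e.χ (ZMod.unitOfCoprime p.1 p.2) : Zbˣ) : Zb) *
          (if (p.1 : ℕ) ∣ n then e.c (n / p.1) else 0) - a (Sum.inl p) * e.c n, ?_, ?_⟩
        · rw [RingHom.mem_ker, map_sub, map_add, map_mul, map_mul, map_mul, map_natCast,
            apply_ite φ, map_zero, ha p.1 p.2, e.eig p.1 p.2 n, sub_self]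
        · rw [hTn.qCoeff_sub (hg.smul _), hg.qCoeff_smul]
          show ModularFormClass.qCoeff (heckeFunOne M p.2 (e.g : ℍ → ℂ)) n - _ = _
          rw [hg.qCoeff_heckeFunOne p.2, red_coeff, red_coeff, red_coeff]
          simp only [redChi]
          split_ifs <;> push_cast <;> rfl
      · have hT := redOp_isPeriodOf (Sum.inr d) hg hω
        have h2 : IsPeriodOf M ((algebraMap Zb ℂ) (a (Sum.inr d)) • ω) (redOp M (redChi e) (Sum.inr d) e.g) :=
          hω.smul _
        rw [hT.class_eq h2, sub_self]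
        exact (redΛ e).zero_mem)
    (by
      rintro b ⟨h, hh, hv, hc⟩
      have h1 : IsPeriodOf M ((algebraMap Zb ℂ) b • ω) ((algebraMap Zb ℂ) b • (e.g : ℍ → ℂ)) :=
        hω.smul _
      have h2 := hv.form_eq h1
      obtain ⟨n, hn⟩ := e.ne
      obtain ⟨b', hb', e'⟩ := hc n
      rw [h2, hg.qCoeff_smul, red_coeff] at e'
      have h3 : b * e.c n = b' := by
        apply Subtype.val_injective
        rw [← e']
        rfl
      have h4 : φ b * φ (e.c n) = 0 := by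
        rw [← map_mul, h3]
        exact RingHom.mem_ker.mp hb'
      rcases mul_eq_zero.mp h4 with h5 | h5
      · exact h5
      · exact absurd h5 hn)
  refine ⟨x, hx0, fun p hpM => ?_, fun d => ?_⟩
  · have := hx (Sum.inl ⟨p, hpM⟩)
    rw [ha p hpM] at this
    exact this
  · exact hx (Sum.inr d)

end Main

end Fermat.Agent.S48WA5
end
end MergeWrap_S48_W_A5_Reduction

section MergeWrap_S48_W_A5_Final -- from S48/W/A5/Final.lean

set_option autoImplicit false
set_option linter.style.haveILetI false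

noncomputable section

namespace Fermat.Agent.S48WA5

open Fermat.Agent.S48W
open scoped TensorProduct

/-- **(A5)** the adjoint system of a mod-`φ` eigenvector occurs in `k ⊗ Hom_par(Γ₁(M), ℤ)`. -/
theorem a5_periodEigenOne (M : ℕ) [NeZero M] : Fermat.Agent.S48WA.PeriodEigenOne M := by
  intro ℓ hℓ k _ _ φ e
  obtain ⟨x, hx0, hT, hD⟩ := a5_exists_classical_eigenclass (M := M) (φ := φ) ℓ hℓ e
  have hinv : ∀ d : (ZMod M)ˣ,
      φ (((e.χ d⁻¹ : (integralClosure ℤ ℂ)ˣ)) : integralClosure ℤ ℂ)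
        = φ ((e.χ d)⁻¹ : (integralClosure ℤ ℂ)ˣ) := by
    intro d
    rw [map_inv]
  refine ⟨x, hx0, fun p hpM _ => ?_, fun d => ?_⟩
  · rw [Fermat.Agent.S48WA.heckeHomOne_eq_lat p hpM, LinearMap.baseChange_comp,
      LinearMap.comp_apply, hD, map_smul, hT p hpM, smul_smul, hinv, mul_comm]
  · rw [Fermat.Agent.S48WA.diamondHomOne_eq_lat d, hD, hinv]

end Fermat.Agent.S48WA5
end
end MergeWrap_S48_W_A5_Final

section MergeWrap_S48_W_A_Final -- from S48/W/A/Final.lean

set_option autoImplicit false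
set_option linter.style.haveILetI false

noncomputable section

namespace Fermat.Agent.S48WA

open ModularCurve AlgebraicCurve CongruenceSubgroup Fermat.Agent.S48W Fermat.Agent.S24Diff
open Fermat.Agent.S48WA2 (jBar1 DictD3One DictD3Diamond)

variable (M : ℕ) [NeZero M]

/-- **(D3)** for the Hecke correspondences `T_p`, `p ∤ M` prime: the only open input of
block A. -/
def DictD3Primes : Prop :=
  ∀ p : Nat.Primes, Nat.Coprime (p : ℕ) M → @DictD3One M (p : ℕ) _ ⟨p.2.ne_zero⟩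

/-- **(HE)** Hecke equivariance of the graph of `κ`, from (D3). -/
theorem kHecke_final (hD3 : DictD3Primes M) : KHecke M :=
  kHecke (latticeOne M) hD3 (fun p _ => heckeInputsOneC_primes M p)

/-- **(DI)** diamond equivariance of the graph of `κ`. -/
theorem kDiamond_final : KDiamond M :=
  kDiamond (latticeOne M) (Fermat.Agent.S48WA2.dictD3Diamond_of (Fermat.Agent.S48WA2.frickeDataMain M))

/-- **Block A, final wiring**: `EigenclassOne M` from the dictionary for `Γ₁(M)` alone. -/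
theorem eigenclassOne_final [HasDict1 M] (hD3 : DictD3Primes M) : EigenclassOne M :=
  eigenclassOne_top M (kHecke_final M hD3) (kDiamond_final M) (descentOne_top M)
    (diamondExistsOneAll M) (latticeOne M) (Fermat.Agent.S48WA5.a5_periodEigenOne M)

/-- **Block A, final wiring**, `5 ≤ M`: `EigenclassOne M` from (D3) for the `T_p`. -/
theorem eigenclassOne_of_d3 (hM : 5 ≤ M) (hD3 : DictD3Primes M) : EigenclassOne M :=
  haveI : HasDict1 M := Fermat.Agent.S48WA2.hasDict1_main M hM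
  eigenclassOne_final M hD3

/-- **Block A, in the form consumed by the wall** (`S48/W/Final.lean`, hypothesis `hE`). -/
theorem eigenclassOneAt_of_d3 (hD3 : ∀ (M : ℕ) [NeZero M], 5 ≤ M → DictD3Primes M) :
    ∀ (M : ℕ) [NeZero M] (ℓ : ℕ), ℓ.Prime → 5 ≤ ℓ → ℓ ∣ M → EigenclassOneAt M ℓ := by
  intro M _ ℓ hℓ h5 hdvd
  have hM : 5 ≤ M := h5.trans (Nat.le_of_dvd (Nat.pos_of_ne_zero (NeZero.ne M)) hdvd)
  exact eigenclassOneAt_of (eigenclassOne_of_d3 M hM (hD3 M hM)) hℓ

end Fermat.Agent.S48WA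
end
end MergeWrap_S48_W_A_Final
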